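import Fermat.Agent.S17.Model.Global
import Fermat.Agent.S17.Model.FrameGamma
import Fermat.Agent.S17.North.AtPacketsProj

/-!
# PROJECT H (S17), Part B, P9: B.15 (Northcott) for `X₀(N)`

For the global frame of `Model/Global.lean` (`xt Φ ix`) and the reduced representatives
`Dx hR x` of `Model/ReducedX0.lean`: for every bound `B` only finitely many rational points
`x ∈ Γ = J₀(N)(ℚ)` have `h(D_x) = ∑_P D_x(P) · totalLam (xt P) ≤ B`, i.e. `hgt (xt Φ ix) (Dx hR x) ≤ B`.
-/

set_option autoImplicit false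
set_option linter.unusedSectionVars false

noncomputable section

namespace Fermat.Agent.S17.Pos.NorthX0

open AlgebraicCurve ModularCurve
open Fermat.Agent.S18.NonSpecial Fermat.Agent.S17.Model.Lift Fermat.Agent.S17.Model.Embed
open Fermat.Agent.S17.B.Frame Fermat.Agent.S17.Ht Fermat.Agent.S17.Model.Global
open Fermat.Agent.S17.Model.ReducedX0

local notation "Kb" => AlgebraicClosure ℚ

variable {N : ℕ} [NeZero N] {δ : ℕ} {Φ : RatFrame N δ}
variable {ix : X N → Fin (Φ.n + 1)} {sp : X N → modularFunctionFieldBar N}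

/-- the two names of the cusp `∞` agree -/
theorem oo_eq : Fermat.Agent.S17.Dict.QStructure.oo N = oo N := rfl

/-- off `∞` the `0`-th coordinate (the function `f 0 = 1`) of the lift does not vanish -/
theorem xt_zero_ne_zero (hch : IsEquivChoice Φ ix sp) {P : X N} (hP : P ≠ oo N) :
    xt Φ ix P 0 ≠ 0 := by
  have hf := Φ.model.ne_zero
  have hadm := (admissible_iff P Φ.f (ix P)).mp (hch.adm P)
  have hnu : nuAt Φ.f P = 0 := by
    rw [Φ.model.nuAt_eq P]
    unfold dOO
    rw [Finsupp.single_eq_of_ne (by rw [oo_eq]; exact hP)]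
    simp
  have h0 : P.ord (Φ.f 0) = 0 := by
    rw [Φ.f_zero]
    exact P.ord_one
  unfold xt zvec
  refine ev_ne_zero_of_ord_eq_zero (hxN N) P (div_ne_zero (hf 0) (hf (ix P))) ?_
  rw [Fermat.Agent.S17.Model.Lift.ord_div P hf, h0, hadm, hnu]
  simp

/-- lifts of distinct points are not proportional -/
theorem eq_of_xt_eq_smul (hch : IsEquivChoice Φ ix sp) {P R : X N} {a : Qbar}
    (h : xt Φ ix P = a • xt Φ ix R) : P = R := by
  by_contra hPR
  have hw := (goodData hch).2.1 P R hPR
  apply hw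
  unfold w
  rw [h, wedge_smul_left, wedge_self, smul_zero]

variable {g : ℕ} (hR : RiemannHyp Kb (modularFunctionFieldBar N) g)

attribute [local instance] Fermat.Agent.S18.A.Instances.hasPrincipalDivisors_bar

/-- `D_x` is stable for `x ∈ Γ` (in the sense of `Ht/Packets.lean`, action `actX N`) -/
theorem stable_Dx (x : Gam N) : (letI := actX N; Stable (Dx hR (x : JZero N))) := by
  let _i : MulAction GQ (X N) := actX N
  intro σ P
  exact Dx_galAut_smul_apply hR x.2 σ P

theorem sum_Dx_le (x : JZero N) : ∑ P ∈ (Dx hR x).support, Dx hR x P ≤ (g : ℤ) := by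
  have h1 := degree_Dx hR x
  rw [Fermat.Agent.S17.Model.Reduced.degree_eq_sum hR.deg_one, Finsupp.sum] at h1
  rw [h1]
  exact_mod_cast rx_le hR x

/-- **B.15 = H0.20 for `X₀(N)`**: Northcott for `x ↦ h(D_x)` on `Γ = J₀(N)(ℚ)`. -/
theorem finite_hgt_Dx_le (hch : IsEquivChoice Φ ix sp) (B : ℝ) :
    {x : Gam N | hgt (xt Φ ix) (Dx hR (x : JZero N)) ≤ B}.Finite := by
  let _i : MulAction GQ (X N) := actX N
  have hinj : Function.Injective fun x : Gam N => Dx hR (x : JZero N) :=
    fun x y hxy => Subtype.ext (Fermat.Agent.S17.Model.FrameGamma.Dx_injective hR hxy)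
  exact Fermat.Agent.S17.North.finite_of_sum_mul_totalLam_le_proj
    (fun x : Gam N => Dx hR (x : JZero N)) hinj
    (fun x P => Finsupp.le_def.mp (Dx_nonneg hR (x : JZero N)) P)
    (fun x => stable_Dx hR x) g (fun x => sum_Dx_le hR (x : JZero N))
    {P | P ≠ oo N}
    (fun x P hP hPoo => oo_notMem_support hR (x : JZero N) (hPoo ▸ hP))
    (xt Φ ix) (equivarT_xt hch) 0
    (fun P hP => xt_zero_ne_zero hch hP)
    (fun P _ R _ a h => eq_of_xt_eq_smul hch h) B

end Fermat.Agent.S17.Pos.NorthX0
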