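import Mathlib
import Fermat.Agent.S17.Adj.AdjX0
import Fermat.Agent.S17.Model.FrameBridge
import Fermat.Agent.S17.Pos.NorthX0

/-!
# PROJECT H (S17), Part B: `h12` of `Pos/Main.lower_bound`, literally

The one-sided adjunction inequality B.12 for the reduced divisors `D_x` of the rational points
`x ∈ Γ = J₀(N)(ℚ)` and a FINITE family `E l` of fixed divisors (B.8), with ONE constant `C6`:

`h(D_x) - h_Δ(D_x, E_l) ≤ κ_τ(D_x) + C6 r_x`   whenever `supp D_x ∩ supp E_l = ∅`.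

Inputs per `l`: two rational linear forms `a1 l`, `a2 l` with `Z(a_b l) = E l + E_b l`, disjoint
residuals `E_1 l`, `E_2 l`, and the rational differential `hE l • dj` with divisor `δ∞ - E l`.
The hand-over `(A*)` is needed for RATIONAL forms only (lower half).
-/

set_option autoImplicit false
set_option linter.unusedSectionVars false
set_option linter.style.haveILetI false
set_option synthInstance.maxHeartbeats 400000
set_option maxHeartbeats 1600000

noncomputable section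

namespace Fermat.Agent.S17.Pos.AdjunctionDx

open AlgebraicCurve AlgebraicCurve.SemilinearAut ModularCurve KaehlerDifferential
open Fermat.Agent.S18.NonSpecial Fermat.Agent.S17.Model.Lift Fermat.Agent.S17.Model.Embed
open Fermat.Agent.S17.B.Frame Fermat.Agent.S17.Ht Fermat.Agent.S17.Model.Global
open Fermat.Agent.S17.Model.FrameBridge
open Fermat.Agent.S17.Adj.AdjX0
open Fermat.Agent.S17.Model.ReducedX0 (Gam Dx rx)
open Fermat.Agent.S24.DegreeAlg (jgen)

open scoped Classical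

local notation "Kb" => AlgebraicClosure ℚ
local notation "ooN" => Fermat.Agent.S17.Model.ReducedX0.oo

variable {N : ℕ} [NeZero N] {δ : ℕ} {Φ : RatFrame N δ}
variable {ix : X N → Fin (Φ.n + 1)} {sp : X N → modularFunctionFieldBar N}
variable {g : ℕ} (hR : RiemannHyp Kb (modularFunctionFieldBar N) g)

/-- `deg D_x = r_x` in the real-valued form of `Ht/Global` -/
theorem degR_Dx (x : Gam N) : degR (Dx hR (x : JZero N)) = ((rx hR (x : JZero N) : ℤ) : ℝ) := by
  have h1 := sum_eq_degree (Dx hR (x : JZero N))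
  rw [Fermat.Agent.S17.Model.ReducedX0.degree_Dx] at h1
  unfold degR
  rw [← h1]
  push_cast
  rfl

/-- the points of `supp D_x` are admissible for B.12 when `supp D_x ∩ supp E = ∅` -/
theorem mem_goodPts_of_mem_support (haff : ∀ P : X N, P ≠ ooN N → ix P = 0) (E : X N →₀ ℕ)
    (x : Gam N) (hdisj : Disjoint (Dx hR (x : JZero N)).support E.support) :
    ∀ P ∈ (Dx hR (x : JZero N)).support, P ∈ goodPts Φ ix E := by
  intro P hP
  have hPoo : P ≠ ooN N := by
    rintro rfl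
    exact (Finsupp.mem_support_iff.mp hP) (Fermat.Agent.S17.Model.ReducedX0.Dx_apply_oo hR _)
  refine ⟨?_, ?_, ?_⟩
  · rw [haff P hPoo]
    rfl
  · by_contra h
    exact (Finset.disjoint_left.mp hdisj hP) (Finsupp.mem_support_iff.mpr h)
  · unfold dOO
    rw [Finsupp.single_apply, if_neg]
    exact fun h => hPoo h.symm

include hR in
/-- **`h12` of `Pos/Main.lower_bound`**: B.12 for all `D_x`, `x ∈ Γ`, and a finite family of fixed
divisors, with one constant. -/
theorem h12_Dx (hch : IsEquivChoice Φ ix sp)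
    (hsp : ∀ (σ : GQ) (P : X N), sp (gal N σ • P) = gal N σ • sp P)
    (haff : ∀ P : X N, P ≠ ooN N → ix P = 0)
    {gam : Pl → ℝ} (hgam : AZ gam)
    (hA : ∀ a : Fin (Φ.n + 1) → Qbar, a ≠ 0 → IsRat Φ a → ∀ v P,
      |starDefect (xt Φ ix) (w Φ ix) (tau Φ ix sp) 1 a (Zdiv Φ a) (lcG Φ ix sp a) v P| ≤ gam v)
    {L : Type} [Fintype L] (E E1 E2 : L → X N →₀ ℕ)
    (a1 a2 : L → Fin (Φ.n + 1) → Qbar) (ha1 : ∀ l, a1 l ≠ 0) (ha2 : ∀ l, a2 l ≠ 0)
    (hrat1 : ∀ l, IsRat Φ (a1 l)) (hrat2 : ∀ l, IsRat Φ (a2 l))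
    (hZ1 : ∀ l, Zdiv Φ (a1 l) = E l + E1 l) (hZ2 : ∀ l, Zdiv Φ (a2 l) = E l + E2 l)
    (hsep : ∀ l, Disjoint (E1 l).support (E2 l).support)
    (hE : L → modularFunctionFieldBar N) (hE0 : ∀ l, hE l ≠ 0)
    (hhE : ∀ (σ : GQ) l, gal N σ • hE l = hE l)
    (hdiv : ∀ l (P : X N), P.ordDifferential (hE l • D Kb (modularFunctionFieldBar N) (jgen N))
      = dOO N δ P - (E l P : ℤ)) :
    ∃ C6 : ℝ, ∀ (l : L) (x : Gam N),
      Disjoint (Dx hR (x : JZero N)).support (E l).support →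
      ((1 : ℕ) : ℝ) * hgt (xt Φ ix) (Dx hR (x : JZero N))
          - hDelta (xt Φ ix) (w Φ ix) (Dx hR (x : JZero N)) (zInt (E l))
        ≤ kapTau (xt Φ ix) (tau Φ ix sp) (Dx hR (x : JZero N))
          + C6 * ((rx hR (x : JZero N) : ℤ) : ℝ) := by
  letI := actX N
  have key : ∀ l, ∃ C : ℝ, ∀ D : X N →₀ ℤ, Stable D → (∀ P, 0 ≤ D P) →
      (∀ P ∈ D.support, P ∈ goodPts Φ ix (E l)) →
      ((1 : ℕ) : ℝ) * hgt (xt Φ ix) D - hDelta (xt Φ ix) (w Φ ix) D (zInt (E l))
        ≤ kapTau (xt Φ ix) (tau Φ ix sp) D + C * degR D := by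
    intro l
    have ha : ∀ b : Fin 2, (![a1 l, a2 l] : Fin 2 → Fin (Φ.n + 1) → Qbar) b ≠ 0 := by
      intro b
      fin_cases b
      · exact ha1 l
      · exact ha2 l
    have hrat : ∀ b : Fin 2, IsRat Φ ((![a1 l, a2 l] : Fin 2 → Fin (Φ.n + 1) → Qbar) b) := by
      intro b
      fin_cases b
      · exact hrat1 l
      · exact hrat2 l
    have hZ : ∀ b : Fin 2, Zdiv Φ ((![a1 l, a2 l] : Fin 2 → Fin (Φ.n + 1) → Qbar) b)
        = E l + (![E1 l, E2 l] : Fin 2 → X N →₀ ℕ) b := by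
      intro b
      fin_cases b
      · exact hZ1 l
      · exact hZ2 l
    exact kapE_le_kapTau_X0 (Φ := Φ) (ix := ix) (sp := sp) hch hsp (hE0 l) (fun σ => hhE σ l)
      ![a1 l, a2 l] ha (E l) ![E1 l, E2 l] hZ (hsep l) (hdiv l) hgam
      (fun b v P => neg_le_of_abs_le (hA _ (ha b) (hrat b) v P))
  choose C hC using key
  refine ⟨∑ l, |C l|, fun l x hdisj => ?_⟩
  have h1 := hC l (Dx hR (x : JZero N)) (Fermat.Agent.S17.Pos.NorthX0.stable_Dx hR x)
    (fun P => Finsupp.le_def.mp (Fermat.Agent.S17.Model.ReducedX0.Dx_nonneg hR (x : JZero N)) P)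
    (mem_goodPts_of_mem_support hR haff (E l) x hdisj)
  rw [degR_Dx hR x] at h1
  have hr0 : (0 : ℝ) ≤ ((rx hR (x : JZero N) : ℤ) : ℝ) := by exact_mod_cast Nat.zero_le _
  have h2 : C l ≤ ∑ l, |C l| :=
    (le_abs_self _).trans
      (Finset.single_le_sum (f := fun l => |C l|) (fun _ _ => abs_nonneg _) (Finset.mem_univ l))
  have h3 := mul_le_mul_of_nonneg_right h2 hr0
  linarith

end Fermat.Agent.S17.Pos.AdjunctionDx
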