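import Fermat.Agent.S17.Ht.Global
import Fermat.Agent.S17.Abs.DegZeroT

/-!
# PROJECT H (S17), Part B: B.13-prime in the language of `Ht/Global.lean`

`Abs/DegZeroT.lean` for `b := bGlob xt w tau δ`, `h P := totalLam (xt P)`, `c₀ := log 2`:
the trivial bound `b(P,R) ≤ log 2 + (h P + h R)/δ` (`P ≠ R`) comes from the local wedge bounds
`‖w P R‖_v ≤ c_v ‖xt P‖_v ‖xt R‖_v` (`c_∞ = 2`, `c_p = 1`), and the conclusion reads
`|Bil b (D - r ∞) E₀| ≤ ε * Nht xt δ D + C₁`, literally the hypothesis `h13` of the B-form of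
B.14 (5).
-/

set_option autoImplicit false

namespace Fermat.Agent.S17.Pos.DegZeroHt

open Fermat.Agent.S17.Ht Fermat.Agent.S17.Abs.PairQuad Fermat.Agent.S17.Abs.DegZeroT Finsupp

variable {X : Type*} [DecidableEq X] {ι κ : Type*} [Finite ι] [Finite κ]
variable (xt : X → ι → Qbar) (w : X → X → κ → Qbar) (tau : X → κ → Qbar) (δ : ℕ)

omit [DecidableEq X] in
/-- the local wedge bounds give `λ(P,R) ≥ - log 2` -/
theorem neg_log_two_le_lamG (hxt : ∀ P, xt P ≠ 0) {P R : X} (hw : w P R ≠ 0)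
    (hloc : ∀ v : Pl, nrm v (w P R) ≤ (if v = none then 2 else 1) * (nrm v (xt P) * nrm v (xt R))) :
    -Real.log 2 ≤ lamG xt w P R := by
  rw [lamG_eq_tot xt w hxt hw]
  have h0 : tot (fun v : Pl => if v = none then -Real.log 2 else 0) = -Real.log 2 := by
    unfold tot
    simp
  rw [← h0]
  refine tot_mono (az_const_none _) (az_lamD xt w hxt hw) fun v => ?_
  have hP := nrm_pos (v := v) (hxt P)
  have hR := nrm_pos (v := v) (hxt R)
  have hW := nrm_pos (v := v) hw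
  have hl := hloc v
  unfold lamD lam
  by_cases hv : v = none
  · rw [if_pos hv] at hl ⊢
    have : Real.log (nrm v (w P R)) ≤ Real.log (2 * (nrm v (xt P) * nrm v (xt R))) :=
      Real.log_le_log hW hl
    rw [Real.log_mul two_ne_zero (mul_pos hP hR).ne', Real.log_mul hP.ne' hR.ne'] at this
    linarith
  · rw [if_neg hv] at hl ⊢
    have : Real.log (nrm v (w P R)) ≤ Real.log (1 * (nrm v (xt P) * nrm v (xt R))) :=
      Real.log_le_log hW hl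
    rw [one_mul, Real.log_mul hP.ne' hR.ne'] at this
    linarith

/-- the trivial bound for the global symbol off the diagonal (LEMMA T (i), pointwise) -/
theorem bGlob_le_of_ne (hxt : ∀ P, xt P ≠ 0) {P R : X} (hPR : P ≠ R) (hw : w P R ≠ 0)
    (hlam : -Real.log 2 ≤ lamG xt w P R) :
    bGlob xt w tau δ P R ≤ Real.log 2 + (totalLam (xt P) + totalLam (xt R)) / (δ : ℝ) := by
  rw [bGlob_of_ne_eq_lamG xt w tau δ hxt hPR hw]
  linarith

omit [DecidableEq X] [Finite ι] in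
theorem hgtF_eq_hgt (D : X →₀ ℤ) : hgtF (fun P => totalLam (xt P)) D = hgt xt D := rfl

omit [DecidableEq X] in
theorem degF_eq_degR (D : X →₀ ℤ) : degF D = degR D := rfl

/-- **B.13-prime in `Ht/Global` language** (with the corrections): for `E₀ = ρ y + ∑ ± E_j`
(`E_j ∈ EE`) and `ε > 0` there is `C₁` with
`|Bil b (D - r ∞) E₀| ≤ ε * Nht xt δ D + C₁` for every effective packet `D` of degree `r ≤ g`
off `∞`. -/
theorem degZero_bGlob {γ : ℝ} (hδ : 0 < δ) (hγ : 0 ≤ γ) (hxt : ∀ P, xt P ≠ 0)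
    (hw : ∀ P R, P ≠ R → w P R ≠ 0)
    (hlam : ∀ P R, P ≠ R → -Real.log 2 ≤ lamG xt w P R)
    (hh : ∀ P, 0 ≤ totalLam (xt P))
    (PP PP0 : AddSubgroup (X →₀ ℤ)) (oo : X) (κoo : ℝ)
    (hB4oo : ∀ D ∈ PP, |Bil (bGlob xt w tau δ) D (single oo (δ : ℤ)) - degR D * κoo|
      ≤ γ * nrm1 D)
    (hPP0 : ∀ D ∈ PP, ∀ r : ℤ, (r : ℝ) = degR D → D - single oo r ∈ PP0)
    (EE : Set (X →₀ ℤ)) {C : ℝ} (hC : 0 ≤ C)
    (hR : ∀ D ∈ PP0, ∀ E ∈ EE, |Bil (bGlob xt w tau δ) D E| ≤ C * nrm1 D)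
    {J : Type*} [AddCommGroup J] (ρ : J → X →₀ ℤ)
    (hdbl : ∀ z : J, ∃ E ∈ EE, ρ (z + z) = ρ z + ρ z + E)
    (hρ : ∀ y : J, ∃ W Z : X →₀ ℤ, ∃ κZ : ℝ, ∃ ry : ℤ, 0 ≤ W ∧ W ≤ Z ∧ degR Z = δ ∧
      (∀ D ∈ PP, |Bil (bGlob xt w tau δ) D Z - degR D * κZ| ≤ γ * nrm1 D) ∧
      ρ y = W - single oo ry)
    (g : ℝ) (y : J) (l : List (X →₀ ℤ)) (hl : ∀ E ∈ l, E ∈ EE ∨ -E ∈ EE) {E0 : X →₀ ℤ}
    (hE0 : E0 = ρ y + l.sum) {ε : ℝ} (hε : 0 < ε) :
    ∃ C1 : ℝ, ∀ D ∈ PP, 0 ≤ D → degR D ≤ g → D oo = 0 → ∀ r : ℤ, (r : ℝ) = degR D →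
      |Bil (bGlob xt w tau δ) (D - single oo r) E0| ≤ ε * Nht xt δ D + C1 := by
  have hdl : (0 : ℝ) < (δ : ℝ) := by exact_mod_cast hδ
  exact degZero_T_add (b := bGlob xt w tau δ) (h := fun P => totalLam (xt P))
    (c0 := Real.log 2) (dl := (δ : ℝ)) (Real.log_nonneg one_le_two) hdl hγ
    (fun P R hPR => bGlob_le_of_ne xt w tau δ hxt hPR (hw P R hPR) (hlam P R hPR)) hh
    PP PP0 oo (δ : ℤ) (by push_cast; rfl) κoo hB4oo hPP0 EE hC hR ρ hdbl hρ g y l hl hE0 hε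

end Fermat.Agent.S17.Pos.DegZeroHt
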