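import Mathlib
import Fermat.Agent.S17.Dict.QStructure
import Fermat.Agent.S17.RR.X0
import Fermat.Agent.S17.RR.Avoid
import Fermat.Agent.S17.RR.Fibres
import Fermat.Agent.S18.A.Instances

/-!
# PROJECT H (S17), Part B: the fixed data of B.8 (in the form of amendments (A1), (A2))

`F = ℚ̄(X₀(N))`, `∞ = oo N`, `G_ℚ` acting through `arithmeticGalois (modularFunctionFieldFull N)`,
`KX0 N = div(dj)`, genus `g ≥ 1`, `δ ≥ 4g - 2`.  "Rational" = fixed by `G_ℚ`.

ONE hypothesis is left to the dictionary (helper25 (G5) `canDiv_gal`):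
`hK : ∀ σ, gal σ • KX0 N = KX0 N`.

* `smul_eq_of_zmult` : the zero divisor `div a + D` of a rational section `a` of a stable `D` is
  stable;
* `exists_ratForm`   : the `ℚ`-form `U0` of `L(D)` for a stable divisor `D`;
* `exists_EE`        : `m` pairwise disjoint stable effective divisors `E l` in the class
  `δ∞ - KX0`, off `∞`, cut out by rational sections `a l` (so `(a l)⁻¹ • dj` is a rational
  differential with divisor `δ∞ - E l`);
* `exists_WE`        : for such an `E`: `ℓ(δ∞ - E) = g`, a rational basis `G i` of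
  `W_E = L(δ∞ - E)` and two rational members `G1`, `G2` with disjoint residual divisors, both
  off `∞`;
* `exists_u`, `exists_TT` : a rational nonconstant `u ∈ L((g+1)∞)` and `r` rational fibres of `u`
  off a given finite set: stable, nonempty, pairwise disjoint, with at most `g + 1` points;
* `Data N g δ`, `exists_data` : everything together.
-/

set_option autoImplicit false

noncomputable section

namespace Fermat.Agent.S17.Pos.FixedData

open AlgebraicCurve AlgebraicCurve.SemilinearAut ModularCurve Module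
open Fermat.Agent.S17.Dict.QStructure Fermat.Agent.S17.RR.Avoid Fermat.Agent.S17.RR.X0
open Fermat.Agent.S18.A

local notation "Kb" => AlgebraicClosure ℚ
local notation "GQ" => (AlgebraicClosure ℚ ≃ₐ[ℚ] AlgebraicClosure ℚ)
local notation "ℓ" => Fermat.Agent.S18.NonSpecial.ell

/-! ### abstract: stability of zero divisors, fixed elements of a `ℚ`-span -/

section Abstract

variable {K F : Type*} [Field K] [Field F] [Algebra K F]

/-- the zero divisor `div a + D` of a `g`-fixed section `a` of a `g`-stable divisor `D` is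
`g`-stable -/
theorem smul_eq_of_zmult (g : SemilinearAut K F) {D E : Divisor K F} {a : F} (ha : g • a = a)
    (hD : g • D = D) (hE : ∀ P, E P = zmult D a P) : g • E = E := by
  ext P
  rw [divisor_smul_apply, hE, hE]
  unfold zmult
  have h1 : (g⁻¹ • P).ord a = P.ord a := by
    have h := ord_smul g (g⁻¹ • P) a
    rw [smul_inv_smul, ha] at h
    exact h.symm
  have h2 : D (g⁻¹ • P) = D P := by
    have h := divisor_smul_apply g D P
    rw [hD] at h
    exact h.symm
  rw [h1, h2]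

/-- a `ℚ`-combination of `g`-fixed elements is `g`-fixed -/
theorem smul_eq_of_mem_span [Module ℚ F] (g : SemilinearAut K F) {ι : Type*} {v : ι → F}
    (hv : ∀ i, g • v i = v i) {f : F} (hf : f ∈ Submodule.span ℚ (Set.range v)) : g • f = f := by
  induction hf using Submodule.span_induction with
  | mem x hx =>
    obtain ⟨i, rfl⟩ := hx
    exact hv i
  | zero => exact smul_zero g
  | add x y _ _ hx hy => rw [smul_add, hx, hy]
  | smul c x _ hx =>
    rw [smul_def, map_rat_smul (toRingAut g) c x, ← smul_def, hx]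

/-- rational constants are fixed by every semilinear automorphism -/
theorem smul_algebraMap_rat [Algebra ℚ K] (g : SemilinearAut K F) (q : ℚ) :
    g • algebraMap K F (algebraMap ℚ K q) = algebraMap K F (algebraMap ℚ K q) := by
  have h : algebraMap K F (algebraMap ℚ K q) = (q : F) := by
    rw [eq_ratCast (algebraMap ℚ K) q, map_ratCast]
  rw [h, smul_def, map_ratCast]

/-- the fibres of a `g`-fixed function over rational constants are `g`-stable -/
theorem ord_smul_sub_rat [Algebra ℚ K] (g : SemilinearAut K F) {u : F} (hu : g • u = u) (q : ℚ)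
    (P : Place K F) :
    (g • P).ord (u - algebraMap K F (algebraMap ℚ K q))
      = P.ord (u - algebraMap K F (algebraMap ℚ K q)) := by
  have h := ord_smul g P (u - algebraMap K F (algebraMap ℚ K q))
  rw [smul_sub, hu, smul_algebraMap_rat] at h
  exact h

end Abstract

variable (N : ℕ) [NeZero N]

local notation "gal" => arithmeticGalois (modularFunctionFieldFull N)

/-- the `ℚ`-form of `L(D)` for a `G_ℚ`-stable divisor `D` -/
theorem exists_ratForm (D : Divisor Kb (modularFunctionFieldBar N))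
    (hD : ∀ σ : GQ, gal σ • D = D) :
    ∃ U0 : Submodule ℚ (modularFunctionFieldBar N), (∀ u ∈ U0, u ∈ riemannRochSpace D) ∧
      riemannRochSpace D ≤ Submodule.span Kb (U0 : Set (modularFunctionFieldBar N)) ∧
      ∀ u ∈ U0, ∀ σ : GQ, gal σ • u = u := by
  obtain ⟨d, v, s, -, -, hfix⟩ := exists_rational_basis_rr_X0 N D hD
  let w : Fin d → modularFunctionFieldBar N := fun i => ((v i : riemannRochSpace D) : _)
  have hspan : riemannRochSpace D ≤ Submodule.span Kb (Set.range w) := by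
    intro f hf
    have h := v.mem_span (⟨f, hf⟩ : riemannRochSpace D)
    have h2 := Submodule.apply_mem_span_image_of_mem_span (riemannRochSpace D).subtype h
    rw [← Set.range_comp] at h2
    exact h2
  refine ⟨Submodule.span ℚ (Set.range w), mem_of_mem_span_range w fun j => (v j).2,
    le_span_of_le_span_range w hspan, fun u hu σ => ?_⟩
  exact smul_eq_of_mem_span (gal σ) (fun i => hfix σ i) hu

/-- `δ∞ - KX0` is stable -/
theorem smul_dOO_sub_KX0 (hK : ∀ σ : GQ, gal σ • KX0 N = KX0 N) (δ : ℕ) (σ : GQ) :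
    gal σ • ((Finsupp.single (oo N) (δ : ℤ) : Divisor Kb (modularFunctionFieldBar N)) - KX0 N)
      = Finsupp.single (oo N) (δ : ℤ) - KX0 N := by
  rw [smul_sub, smul_single_oo, hK σ]

theorem degree_dOO_sub_KX0 {g : ℕ}
    (hR : Fermat.Agent.S18.NonSpecial.RiemannHyp Kb (modularFunctionFieldBar N) g) (δ : ℕ) :
    Divisor.degree ((Finsupp.single (oo N) (δ : ℤ) : Divisor Kb (modularFunctionFieldBar N))
      - KX0 N) = (δ : ℤ) - (2 * (g : ℤ) - 2) := by
  have := Instances.hasPrincipalDivisors_bar N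
  have hK : Divisor.degree (KX0 N) = 2 * (g : ℤ) - 2 :=
    Fermat.Agent.S17.RR.degree_canDiv (Instances.isFF_jgen N) (Instances.isSeparable_jgen N) hR
  rw [map_sub, Divisor.degree_single, hR.deg_one, hK]
  simp

/-- **B.8 (i), the set `EE`**: `m` pairwise disjoint `G_ℚ`-stable effective divisors in the class
`δ∞ - KX0`, off `∞`, each the zero divisor of a rational section `a l` of `δ∞ - KX0`. -/
theorem exists_EE {g : ℕ}
    (hR : Fermat.Agent.S18.NonSpecial.RiemannHyp Kb (modularFunctionFieldBar N) g) {δ : ℕ}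
    (hδ : 4 * g ≤ δ + 2) (hK : ∀ σ : GQ, gal σ • KX0 N = KX0 N) (m : ℕ) :
    ∃ (a : Fin m → modularFunctionFieldBar N)
      (E : Fin m → Divisor Kb (modularFunctionFieldBar N)),
      (∀ l, a l ≠ 0) ∧ (∀ (σ : GQ) l, gal σ • a l = a l) ∧
      (∀ l P, E l P = P.ord (a l) + ((Finsupp.single (oo N) (δ : ℤ) :
        Divisor Kb (modularFunctionFieldBar N)) - KX0 N) P) ∧
      (∀ l, 0 ≤ E l) ∧ (∀ l, Divisor.degree (E l) = (δ : ℤ) - (2 * (g : ℤ) - 2)) ∧
      (∀ l, Divisor.IsPrincipal (E l - (Finsupp.single (oo N) (δ : ℤ) - KX0 N))) ∧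
      (∀ l, E l (oo N) = 0) ∧ (∀ (σ : GQ) l, gal σ • E l = E l) ∧
      ∀ l l', l ≠ l' → Disjoint (E l).support (E l').support := by
  classical
  have := Instances.hasPrincipalDivisors_bar N
  set D : Divisor Kb (modularFunctionFieldBar N) := Finsupp.single (oo N) (δ : ℤ) - KX0 N with hDdef
  have hDst : ∀ σ : GQ, gal σ • D = D := smul_dOO_sub_KX0 N hK δ
  have hDdeg : Divisor.degree D = (δ : ℤ) - (2 * (g : ℤ) - 2) := degree_dOO_sub_KX0 N hR δ
  obtain ⟨U0, hU0, hspan, hfix⟩ := exists_ratForm N D hDst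
  obtain ⟨a, E, ha, hE, hE0, hEdeg, hEpr, hEoo, hEdisj⟩ :=
    exists_family_divisors_of_le_degree (k0 := ℚ) (Instances.isFF_jgen N)
      (Instances.isSeparable_jgen N) hR (D := D) (by rw [hDdeg]; omega) U0 hU0 hspan {oo N} m
  refine ⟨a, E, fun l => (ha l).2, fun σ l => hfix _ (ha l).1 σ, hE, hE0,
    fun l => by rw [hEdeg l, hDdeg], hEpr, fun l => hEoo l (oo N) (Finset.mem_singleton_self _),
    fun σ l => ?_, hEdisj⟩
  exact smul_eq_of_zmult (gal σ) (hfix _ (ha l).1 σ) (hDst σ) (hE l)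

/-- **B.8 (i), the data of one `E ∈ EE`**: `W_E = L(δ∞ - E)` has dimension `g`, a rational basis
`G`, and two rational members `G1`, `G2` whose residual divisors
`E'_j = div (G_j) + δ∞ - E` are disjoint. -/
theorem exists_WE {g : ℕ}
    (hR : Fermat.Agent.S18.NonSpecial.RiemannHyp Kb (modularFunctionFieldBar N) g) (hg : 1 ≤ g)
    {δ : ℕ} {E : Divisor Kb (modularFunctionFieldBar N)} (hEst : ∀ σ : GQ, gal σ • E = E)
    (hEpr : Divisor.IsPrincipal (E - (Finsupp.single (oo N) (δ : ℤ) - KX0 N))) :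
    ℓ ((Finsupp.single (oo N) (δ : ℤ) : Divisor Kb (modularFunctionFieldBar N)) - E) = g ∧
    ∃ (G : Fin g → modularFunctionFieldBar N) (G1 G2 : modularFunctionFieldBar N),
      (∀ i, G i ∈ riemannRochSpace (Finsupp.single (oo N) (δ : ℤ) - E)) ∧
      (∀ (σ : GQ) i, gal σ • G i = G i) ∧ LinearIndependent Kb G ∧
      riemannRochSpace (Finsupp.single (oo N) (δ : ℤ) - E) ≤ Submodule.span Kb (Set.range G) ∧
      G1 ∈ riemannRochSpace (Finsupp.single (oo N) (δ : ℤ) - E) ∧
      G2 ∈ riemannRochSpace (Finsupp.single (oo N) (δ : ℤ) - E) ∧ G1 ≠ 0 ∧ G2 ≠ 0 ∧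
      (∀ σ : GQ, gal σ • G1 = G1) ∧ (∀ σ : GQ, gal σ • G2 = G2) ∧
      (∀ P, zmult (Finsupp.single (oo N) (δ : ℤ) - E) G1 P = 0 ∨
        zmult (Finsupp.single (oo N) (δ : ℤ) - E) G2 P = 0) ∧
      zmult (Finsupp.single (oo N) (δ : ℤ) - E) G1 (oo N) = 0 ∧
      zmult (Finsupp.single (oo N) (δ : ℤ) - E) G2 (oo N) = 0 := by
  classical
  have := Instances.hasPrincipalDivisors_bar N
  have hx := Instances.isFF_jgen N
  have hsep := Instances.isSeparable_jgen N
  set D' : Divisor Kb (modularFunctionFieldBar N) := Finsupp.single (oo N) (δ : ℤ) - E with hD'def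
  have hD'st : ∀ σ : GQ, gal σ • D' = D' := by
    intro σ
    rw [hD'def, smul_sub, smul_single_oo, hEst σ]
  have hD'pr : Divisor.IsPrincipal (D' - KX0 N) := isPrincipal_sub_sub hEpr
  have hell : ℓ D' = g := by
    obtain ⟨t, ht0, ht⟩ := hD'pr
    have h1 := Fermat.Agent.S18.A.Riemann.ell_add_div (D := KX0 N) (E := D' - KX0 N) ht0 ht
    rw [add_sub_cancel] at h1
    have h2 : ℓ (KX0 N) = g := Fermat.Agent.S37.Diff.CanonicalCount.ell_canonical hx hsep hR
    exact h1.trans h2
  refine ⟨hell, ?_⟩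
  obtain ⟨d, v, s, -, -, hfix⟩ := exists_rational_basis_rr_X0 N D' hD'st
  have hd : d = g := by
    have h1 := Module.finrank_eq_card_basis v
    rw [Fintype.card_fin] at h1
    unfold Fermat.Agent.S18.NonSpecial.ell at hell
    omega
  subst hd
  obtain ⟨U0, hU0, hspan, hU0fix⟩ := exists_ratForm N D' hD'st
  obtain ⟨f, hf1, hf2, hf3⟩ := exists_family_of_linEquiv_canDiv (k0 := ℚ) hx hsep hR hg
    (D := D') hD'pr U0 hU0 hspan {oo N} 2
  refine ⟨fun i => ((v i : riemannRochSpace D') : modularFunctionFieldBar N), f 0, f 1,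
    fun i => (v i).2, fun σ i => hfix σ i, ?_, ?_, hU0 _ (hf1 0).1, hU0 _ (hf1 1).1, (hf1 0).2,
    (hf1 1).2, fun σ => hU0fix _ (hf1 0).1 σ, fun σ => hU0fix _ (hf1 1).1 σ,
    fun P => hf3 0 1 (by decide) P, hf2 0 (oo N) (Finset.mem_singleton_self _),
    hf2 1 (oo N) (Finset.mem_singleton_self _)⟩
  · exact v.linearIndependent.map' (riemannRochSpace D').subtype (Submodule.ker_subtype _)
  · intro h hh
    have h1 := v.mem_span (⟨h, hh⟩ : riemannRochSpace D')
    have h2 := Submodule.apply_mem_span_image_of_mem_span (riemannRochSpace D').subtype h1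
    rw [← Set.range_comp] at h2
    exact h2

/-- **B.8 (ii), the function `u`**: a rational nonconstant function in `L((g+1)∞)` -/
theorem exists_u {g : ℕ}
    (hR : Fermat.Agent.S18.NonSpecial.RiemannHyp Kb (modularFunctionFieldBar N) g) :
    ∃ u : modularFunctionFieldBar N, (∀ σ : GQ, gal σ • u = u) ∧
      u ∈ riemannRochSpace (Finsupp.single (oo N) (((g + 1 : ℕ) : ℤ)) :
        Divisor Kb (modularFunctionFieldBar N)) ∧
      ∀ c : Kb, u ≠ algebraMap Kb (modularFunctionFieldBar N) c := by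
  classical
  have := Instances.hasPrincipalDivisors_bar N
  set D : Divisor Kb (modularFunctionFieldBar N) :=
    Finsupp.single (oo N) (((g + 1 : ℕ) : ℤ)) with hDdef
  have hDst : ∀ σ : GQ, gal σ • D = D := fun σ => smul_single_oo N σ _
  obtain ⟨d, v, s, -, -, hfix⟩ := exists_rational_basis_rr_X0 N D hDst
  have hd : 2 ≤ d := by
    have h1 := Module.finrank_eq_card_basis v
    rw [Fintype.card_fin] at h1
    have h2 := Fermat.Agent.S18.NonSpecial.riemann_ineq hR D
    rw [hDdef, Divisor.degree_single, hR.deg_one] at h2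
    unfold Fermat.Agent.S18.NonSpecial.ell at h2
    rw [h1] at h2
    push_cast at h2
    omega
  have hli : LinearIndependent Kb
      (fun i => ((v i : riemannRochSpace D) : modularFunctionFieldBar N)) :=
    v.linearIndependent.map' (riemannRochSpace D).subtype (Submodule.ker_subtype _)
  have hne : (⟨0, by omega⟩ : Fin d) ≠ ⟨1, by omega⟩ := by
    intro h
    have := congrArg Fin.val h
    simp at this
  obtain ⟨l, hl⟩ := Fermat.Agent.S17.RR.Fibres.exists_nonconstant hli hne
  exact ⟨_, fun σ => hfix σ l, (v l).2, hl⟩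

/-- **B.8 (ii), the set `TT`**: `r` fibres `O i = {u = c i}`, `c i ∈ ℚ` distinct, of a rational
nonconstant `u ∈ L(m∞)`: `G_ℚ`-stable, nonempty, pairwise disjoint, at most `m` points each,
off `∞` and off a given finite set `S`. -/
theorem exists_TT {g : ℕ}
    (hR : Fermat.Agent.S18.NonSpecial.RiemannHyp Kb (modularFunctionFieldBar N) g) {m : ℕ}
    {u : modularFunctionFieldBar N} (hufix : ∀ σ : GQ, gal σ • u = u)
    (hu : u ∈ riemannRochSpace (Finsupp.single (oo N) ((m : ℕ) : ℤ) :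
      Divisor Kb (modularFunctionFieldBar N)))
    (hnc : ∀ c : Kb, u ≠ algebraMap Kb (modularFunctionFieldBar N) c)
    (S : Finset (Place Kb (modularFunctionFieldBar N))) (r : ℕ) :
    ∃ (c : Fin r → ℚ) (O : Fin r → Finset (Place Kb (modularFunctionFieldBar N))),
      Function.Injective c ∧
      (∀ i P, P ∈ O i ↔ 0 < P.ord (u - algebraMap Kb (modularFunctionFieldBar N)
        (algebraMap ℚ Kb (c i)))) ∧
      (∀ i, (O i).Nonempty) ∧ (∀ i, (O i).card ≤ m) ∧ (∀ i, oo N ∉ O i) ∧
      (∀ i, ∀ P ∈ S, P ∉ O i) ∧ (∀ i j, i ≠ j → Disjoint (O i) (O j)) ∧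
      ∀ (σ : GQ) i P, P ∈ O i → gal σ • P ∈ O i := by
  have := Instances.hasPrincipalDivisors_bar N
  obtain ⟨c, O, hc, hO, h1, h2, h3, h4, h5⟩ :=
    Fermat.Agent.S17.RR.Fibres.exists_fibres (k0 := ℚ) hR.deg_one hu hnc S r
  refine ⟨c, O, hc, hO, h1, h2, h3, h4, h5, fun σ i P hP => ?_⟩
  rw [hO] at hP ⊢
  rw [ord_smul_sub_rat (gal σ) (hufix σ)]
  exact hP

/-! ### the package -/

/-- **the fixed data of B.8** (amended form): `EE = {E 0, …, E g}`, for each `l` the rational basis
`G l` of `W_E = L(δ∞ - E l)` and the two rational members `G1 l`, `G2 l` with disjoint residual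
divisors off `∞`, the rational sections `a l` with `div (a l) = E l - δ∞ + KX0` (so that
`(a l)⁻¹ • dj` is the rational differential with divisor `δ∞ - E l`), the rational function `u`
and the `2g - 1` rational fibres `O i` of `u` (whose union is `TT`). -/
structure Data (g δ : ℕ) where
  /-- rational sections of `δ∞ - KX0` -/
  a : Fin (g + 1) → modularFunctionFieldBar N
  /-- the members of `EE` -/
  E : Fin (g + 1) → Divisor Kb (modularFunctionFieldBar N)
  a_ne : ∀ l, a l ≠ 0
  a_fixed : ∀ (σ : GQ) l, gal σ • a l = a l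
  E_apply : ∀ l P, E l P = P.ord (a l) + ((Finsupp.single (oo N) (δ : ℤ) :
    Divisor Kb (modularFunctionFieldBar N)) - KX0 N) P
  E_nonneg : ∀ l, 0 ≤ E l
  E_degree : ∀ l, Divisor.degree (E l) = (δ : ℤ) - (2 * (g : ℤ) - 2)
  E_principal : ∀ l, Divisor.IsPrincipal (E l - (Finsupp.single (oo N) (δ : ℤ) - KX0 N))
  E_oo : ∀ l, E l (oo N) = 0
  E_stable : ∀ (σ : GQ) l, gal σ • E l = E l
  E_disjoint : ∀ l l', l ≠ l' → Disjoint (E l).support (E l').support
  ell_W : ∀ l, ℓ ((Finsupp.single (oo N) (δ : ℤ) : Divisor Kb (modularFunctionFieldBar N)) - E l) = g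
  /-- rational bases of the `W_E` -/
  G : Fin (g + 1) → Fin g → modularFunctionFieldBar N
  G_mem : ∀ l i, G l i ∈ riemannRochSpace (Finsupp.single (oo N) (δ : ℤ) - E l)
  G_fixed : ∀ (σ : GQ) l i, gal σ • G l i = G l i
  G_linInd : ∀ l, LinearIndependent Kb (G l)
  G_span : ∀ l, riemannRochSpace (Finsupp.single (oo N) (δ : ℤ) - E l) ≤
    Submodule.span Kb (Set.range (G l))
  /-- two rational members of `W_E` with disjoint residual divisors -/
  G1 : Fin (g + 1) → modularFunctionFieldBar N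
  G2 : Fin (g + 1) → modularFunctionFieldBar N
  G1_mem : ∀ l, G1 l ∈ riemannRochSpace (Finsupp.single (oo N) (δ : ℤ) - E l)
  G2_mem : ∀ l, G2 l ∈ riemannRochSpace (Finsupp.single (oo N) (δ : ℤ) - E l)
  G1_ne : ∀ l, G1 l ≠ 0
  G2_ne : ∀ l, G2 l ≠ 0
  G1_fixed : ∀ (σ : GQ) l, gal σ • G1 l = G1 l
  G2_fixed : ∀ (σ : GQ) l, gal σ • G2 l = G2 l
  G12_disjoint : ∀ l P, zmult (Finsupp.single (oo N) (δ : ℤ) - E l) (G1 l) P = 0 ∨
    zmult (Finsupp.single (oo N) (δ : ℤ) - E l) (G2 l) P = 0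
  G1_oo : ∀ l, zmult (Finsupp.single (oo N) (δ : ℤ) - E l) (G1 l) (oo N) = 0
  G2_oo : ∀ l, zmult (Finsupp.single (oo N) (δ : ℤ) - E l) (G2 l) (oo N) = 0
  /-- a rational nonconstant function with a pole of order `≤ g + 1` at `∞` and no other pole -/
  u : modularFunctionFieldBar N
  u_fixed : ∀ σ : GQ, gal σ • u = u
  u_mem : u ∈ riemannRochSpace (Finsupp.single (oo N) (((g + 1 : ℕ) : ℤ)) :
    Divisor Kb (modularFunctionFieldBar N))
  u_nonconst : ∀ c : Kb, u ≠ algebraMap Kb (modularFunctionFieldBar N) c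
  /-- the rational values of `u` whose fibres make up `TT` -/
  c : Fin (2 * g - 1) → ℚ
  c_injective : Function.Injective c
  /-- the fibres `u = c i` -/
  O : Fin (2 * g - 1) → Finset (Place Kb (modularFunctionFieldBar N))
  mem_O : ∀ i P, P ∈ O i ↔ 0 < P.ord (u - algebraMap Kb (modularFunctionFieldBar N)
    (algebraMap ℚ Kb (c i)))
  O_nonempty : ∀ i, (O i).Nonempty
  O_card : ∀ i, (O i).card ≤ g + 1
  hO_oo : ∀ i, oo N ∉ O i
  O_off : ∀ i l, ∀ P ∈ O i, E l P = 0
  O_disjoint : ∀ i j, i ≠ j → Disjoint (O i) (O j)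
  hO_stable : ∀ (σ : GQ) i, ∀ P ∈ O i, gal σ • P ∈ O i

/-- **the fixed data exist** (`g ≥ 1`, `δ ≥ 4g - 2`), given the `G_ℚ`-stability of `div(dj)`. -/
theorem exists_data {g : ℕ}
    (hR : Fermat.Agent.S18.NonSpecial.RiemannHyp Kb (modularFunctionFieldBar N) g) (hg : 1 ≤ g)
    {δ : ℕ} (hδ : 4 * g ≤ δ + 2) (hK : ∀ σ : GQ, gal σ • KX0 N = KX0 N) :
    Nonempty (Data N g δ) := by
  classical
  obtain ⟨a, E, ha, hafix, hE, hE0, hEdeg, hEpr, hEoo, hEst, hEdisj⟩ :=
    exists_EE N hR hδ hK (g + 1)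
  have hW := fun l => exists_WE N hR hg (δ := δ) (fun σ => hEst σ l) (hEpr l)
  have hell := fun l => (hW l).1
  choose G G1 G2 hGmem hGfix hGli hGspan hG1mem hG2mem hG1ne hG2ne hG1fix hG2fix hG12 hG1oo
    hG2oo using fun l => (hW l).2
  obtain ⟨u, hufix, hu, hnc⟩ := exists_u N hR
  obtain ⟨c, O, hc, hO, hOne, hOcard, hOoo, hOoff, hOdisj, hOst⟩ :=
    exists_TT N hR hufix hu hnc (Finset.univ.biUnion fun l => (E l).support) (2 * g - 1)
  refine ⟨⟨a, E, ha, hafix, hE, hE0, hEdeg, hEpr, hEoo, hEst, hEdisj, hell, G, hGmem,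
    fun σ l i => hGfix l σ i, hGli, hGspan, G1, G2, hG1mem, hG2mem, hG1ne, hG2ne,
    fun σ l => hG1fix l σ, fun σ l => hG2fix l σ, hG12, hG1oo, hG2oo, u, hufix, hu, hnc,
    c, hc, O, hO, hOne, hOcard, hOoo, ?_, hOdisj, hOst⟩⟩
  intro i l P hP
  by_contra hne
  exact hOoff i P (Finset.mem_biUnion.mpr ⟨l, Finset.mem_univ l, Finsupp.mem_support_iff.mpr hne⟩)
    hP

namespace Data

variable {N} {g δ : ℕ} (Φ : Data N g δ)

/-- the set `TT`: the union of the fibres -/
def TT : Finset (Place Kb (modularFunctionFieldBar N)) := by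
  classical
  exact Finset.univ.biUnion Φ.O

theorem mem_TT {P : Place Kb (modularFunctionFieldBar N)} : P ∈ Φ.TT ↔ ∃ i, P ∈ Φ.O i := by
  classical
  unfold TT
  simp

theorem TT_stable (σ : GQ) {P : Place Kb (modularFunctionFieldBar N)} (hP : P ∈ Φ.TT) :
    gal σ • P ∈ Φ.TT := by
  obtain ⟨i, hi⟩ := Φ.mem_TT.mp hP
  exact Φ.mem_TT.mpr ⟨i, Φ.hO_stable σ i P hi⟩

theorem oo_notMem_TT : oo N ∉ Φ.TT := fun h => by
  obtain ⟨i, hi⟩ := Φ.mem_TT.mp h
  exact Φ.hO_oo i hi

theorem TT_off {P : Place Kb (modularFunctionFieldBar N)} (hP : P ∈ Φ.TT) (l : Fin (g + 1)) :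
    Φ.E l P = 0 := by
  obtain ⟨i, hi⟩ := Φ.mem_TT.mp hP
  exact Φ.O_off i l P hi

/-- `TT` has at least `2g - 1` points -/
theorem card_TT : 2 * g - 1 ≤ Φ.TT.card := by
  classical
  unfold TT
  rw [Finset.card_biUnion fun i _ j _ hij => Φ.O_disjoint i j hij]
  calc 2 * g - 1 = ∑ _i : Fin (2 * g - 1), 1 := by simp
    _ ≤ ∑ i : Fin (2 * g - 1), (Φ.O i).card :=
      Finset.sum_le_sum fun i _ => Finset.card_pos.mpr (Φ.O_nonempty i)

end Data

end Fermat.Agent.S17.Pos.FixedData
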