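import Mathlib
import Fermat.Agent.S17.Pos.FixedData

/-!
# PROJECT H (S17), Part B: consequences of the fixed data `Pos/FixedData.Data`

Convenience lemmas for the consumers of `Data N g δ` (Pos/Main, Pos/DetGlobalX0, Adj/AdjX0,
Pos/DegZeroX0), all in function language.

* `inv_a_ne`, `inv_a_fixed`, `hcan` : `h := (a l)⁻¹` is rational, nonzero and
  `(δ∞ - E l) v = KX0 v + ord_v h` (so `h • dj` has divisor `δ∞ - E l`);
* `dOO_sub_E_stable`, `degree_dOO_sub_E` (`= 2g - 2`), `mem_dOO_of_mem` (`W_E ⊆ L(δ∞)`);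
* `exists_residual` : the residual divisors `E'_1, E'_2` of `G1 l`, `G2 l` as divisors:
  effective, stable, of degree `2g - 2`, with disjoint supports, off `∞`,
  `E'_b P = ord_P (G_b) + δ∞ P - E l P`;
* `exists_E_off` (pigeonhole, B.11): a finite set of at most `g` places misses some `E l`;
* `card_TT_sdiff` : `2g ≤ |TT ∖ S| + r + 1` for `|S| ≤ r` (the hypothesis `hcard` of
  `ChoiceB.exists_complement` / `DetGlobalX0.XX_nonempty`).
-/

set_option autoImplicit false

namespace Fermat.Agent.S17.Pos.FixedData.Data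

open AlgebraicCurve AlgebraicCurve.SemilinearAut ModularCurve Module
open Fermat.Agent.S17.Dict.QStructure Fermat.Agent.S17.RR.Avoid Fermat.Agent.S17.RR.X0
open Fermat.Agent.S18.A

local notation "Kb" => AlgebraicClosure ℚ
local notation "GQ" => (AlgebraicClosure ℚ ≃ₐ[ℚ] AlgebraicClosure ℚ)
local notation "ℓ" => Fermat.Agent.S18.NonSpecial.ell

variable {N : ℕ} [NeZero N] {g δ : ℕ} (Φ : Data N g δ)

local notation "gal" => arithmeticGalois (modularFunctionFieldFull N)

theorem inv_a_ne (l : Fin (g + 1)) : (Φ.a l)⁻¹ ≠ 0 := inv_ne_zero (Φ.a_ne l)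

theorem inv_a_fixed (σ : GQ) (l : Fin (g + 1)) : gal σ • (Φ.a l)⁻¹ = (Φ.a l)⁻¹ := by
  rw [smul_inv'', Φ.a_fixed σ l]

/-- `δ∞ - E l = KX0 + div ((a l)⁻¹)` -/
theorem hcan (l : Fin (g + 1)) (v : Place Kb (modularFunctionFieldBar N)) :
    ((Finsupp.single (oo N) (δ : ℤ) : Divisor Kb (modularFunctionFieldBar N)) - Φ.E l) v
      = KX0 N v + v.ord (Φ.a l)⁻¹ := by
  rw [Finsupp.sub_apply, Φ.E_apply l v, Finsupp.sub_apply, Place.ord_inv]
  ring

theorem dOO_sub_E_stable (σ : GQ) (l : Fin (g + 1)) :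
    gal σ • ((Finsupp.single (oo N) (δ : ℤ) : Divisor Kb (modularFunctionFieldBar N)) - Φ.E l)
      = Finsupp.single (oo N) (δ : ℤ) - Φ.E l := by
  rw [smul_sub, smul_single_oo, Φ.E_stable σ l]

theorem degree_dOO_sub_E {g₀ : ℕ}
    (hR : Fermat.Agent.S18.NonSpecial.RiemannHyp Kb (modularFunctionFieldBar N) g₀)
    (l : Fin (g + 1)) :
    Divisor.degree ((Finsupp.single (oo N) (δ : ℤ) : Divisor Kb (modularFunctionFieldBar N))
      - Φ.E l) = 2 * (g : ℤ) - 2 := by
  rw [map_sub, Divisor.degree_single, hR.deg_one, Φ.E_degree l]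
  simp

/-- `W_E ⊆ L(δ∞)` -/
theorem mem_dOO_of_mem (l : Fin (g + 1)) {h : modularFunctionFieldBar N}
    (hh : h ∈ riemannRochSpace ((Finsupp.single (oo N) (δ : ℤ) :
      Divisor Kb (modularFunctionFieldBar N)) - Φ.E l)) :
    h ∈ riemannRochSpace (Finsupp.single (oo N) (δ : ℤ) :
      Divisor Kb (modularFunctionFieldBar N)) :=
  Fermat.Agent.S18.NonSpecial.riemannRochSpace_mono (sub_le_self _ (Φ.E_nonneg l)) hh

/-- the residual divisors of `G1 l` and `G2 l` -/
theorem exists_residual {g₀ : ℕ}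
    (hR : Fermat.Agent.S18.NonSpecial.RiemannHyp Kb (modularFunctionFieldBar N) g₀)
    (l : Fin (g + 1)) :
    ∃ E1 E2 : Divisor Kb (modularFunctionFieldBar N),
      (∀ P, E1 P = P.ord (Φ.G1 l) + (Finsupp.single (oo N) (δ : ℤ) :
        Divisor Kb (modularFunctionFieldBar N)) P - Φ.E l P) ∧
      (∀ P, E2 P = P.ord (Φ.G2 l) + (Finsupp.single (oo N) (δ : ℤ) :
        Divisor Kb (modularFunctionFieldBar N)) P - Φ.E l P) ∧
      0 ≤ E1 ∧ 0 ≤ E2 ∧ Divisor.degree E1 = 2 * (g : ℤ) - 2 ∧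
      Divisor.degree E2 = 2 * (g : ℤ) - 2 ∧ (∀ σ : GQ, gal σ • E1 = E1) ∧
      (∀ σ : GQ, gal σ • E2 = E2) ∧ Disjoint E1.support E2.support ∧
      E1 (oo N) = 0 ∧ E2 (oo N) = 0 := by
  classical
  have := Instances.hasPrincipalDivisors_bar N
  obtain ⟨E1, hE1, hE1deg⟩ := exists_zeroDivisor
    ((Finsupp.single (oo N) (δ : ℤ) : Divisor Kb (modularFunctionFieldBar N)) - Φ.E l)
    (Φ.G1_ne l)
  obtain ⟨E2, hE2, hE2deg⟩ := exists_zeroDivisor
    ((Finsupp.single (oo N) (δ : ℤ) : Divisor Kb (modularFunctionFieldBar N)) - Φ.E l)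
    (Φ.G2_ne l)
  have hz : ∀ (G : modularFunctionFieldBar N) (P : Place Kb (modularFunctionFieldBar N)),
      zmult ((Finsupp.single (oo N) (δ : ℤ) : Divisor Kb (modularFunctionFieldBar N)) - Φ.E l) G P
        = P.ord G + (Finsupp.single (oo N) (δ : ℤ) :
          Divisor Kb (modularFunctionFieldBar N)) P - Φ.E l P := by
    intro G P
    unfold zmult
    rw [Finsupp.sub_apply]
    ring
  refine ⟨E1, E2, fun P => by rw [hE1 P, hz], fun P => by rw [hE2 P, hz], ?_, ?_,
    by rw [hE1deg, Φ.degree_dOO_sub_E hR l], by rw [hE2deg, Φ.degree_dOO_sub_E hR l],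
    fun σ => smul_eq_of_zmult (gal σ) (Φ.G1_fixed σ l) (Φ.dOO_sub_E_stable σ l) hE1,
    fun σ => smul_eq_of_zmult (gal σ) (Φ.G2_fixed σ l) (Φ.dOO_sub_E_stable σ l) hE2, ?_,
    by rw [hE1 (oo N), Φ.G1_oo l], by rw [hE2 (oo N), Φ.G2_oo l]⟩
  · rw [Finsupp.le_def]
    intro P
    rw [hE1 P, Finsupp.zero_apply]
    exact zmult_nonneg (Φ.G1_ne l) (Φ.G1_mem l) P
  · rw [Finsupp.le_def]
    intro P
    rw [hE2 P, Finsupp.zero_apply]
    exact zmult_nonneg (Φ.G2_ne l) (Φ.G2_mem l) P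
  · rw [Finset.disjoint_left]
    intro P h1 h2
    rw [Finsupp.mem_support_iff, hE1 P] at h1
    rw [Finsupp.mem_support_iff, hE2 P] at h2
    rcases Φ.G12_disjoint l P with h | h
    · exact h1 h
    · exact h2 h

/-- **pigeonhole** (B.11): a set of at most `g` places is disjoint from the support of some
`E l` -/
theorem exists_E_off (S : Finset (Place Kb (modularFunctionFieldBar N))) (hS : S.card ≤ g) :
    ∃ l, ∀ P ∈ S, Φ.E l P = 0 := by
  classical
  by_contra hcon
  push Not at hcon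
  choose Q hQS hQ using hcon
  have hinj : Function.Injective Q := by
    intro l l' hll'
    by_contra hne
    have h1 : Q l ∈ (Φ.E l).support := Finsupp.mem_support_iff.mpr (hQ l)
    have h2 : Q l ∈ (Φ.E l').support := by
      rw [hll']
      exact Finsupp.mem_support_iff.mpr (hQ l')
    exact Finset.disjoint_left.mp (Φ.E_disjoint l l' hne) h1 h2
  have hcard : (Finset.univ : Finset (Fin (g + 1))).card ≤ S.card :=
    Finset.card_le_card_of_injOn Q (fun l _ => hQS l) hinj.injOn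
  rw [Finset.card_univ, Fintype.card_fin] at hcard
  omega

/-- the counting hypothesis of `ChoiceB.exists_complement` for `TT ∖ S`, `|S| ≤ r` -/
theorem card_TT_sdiff (S : Finset (Place Kb (modularFunctionFieldBar N))) {r : ℕ}
    (hS : S.card ≤ r) [DecidableEq (Place Kb (modularFunctionFieldBar N))] :
    2 * g ≤ (Φ.TT \ S).card + r + 1 := by
  have h1 := Φ.card_TT
  have h2 := Finset.le_card_sdiff S Φ.TT
  omega

end Fermat.Agent.S17.Pos.FixedData.Data
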