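import Mathlib
import Fermat.Agent.S17.Model.FrameSection
import Fermat.Agent.S17.North.Divisor
import Fermat.Agent.S17.Pos.FixedDataAux

/-!
# PROJECT H (S17), Part B: from the fixed data of B.8 to the frame of `Model/Global`

`Φ : RatFrame N δ` a rational frame, `Dat : FixedData.Data N g δ` the fixed data.

* `EN Dat l : X N →₀ ℕ` : the divisor `E l ≥ 0` as a function to `ℕ`; `zInt_EN`, `support_EN`;
* `exists_coeffs` : a nonzero `G_ℚ`-fixed member `G` of `L(δ∞ - E l)` is a rational linear form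
  `a` of the frame, and `Z(a) = E l + R` for every effective divisor `R` with
  `R P = ord_P G + δ∞ P - E l P`;
* `exists_glue'`, `exists_glue` : the rational linear forms `a₁, a₂` of `G1 l`, `G2 l` and their
  residual divisors `R₁, R₂` (stable, effective, of degree `2g - 2`, off `∞`, with disjoint
  supports): `Z(a_b) = E l + R_b`.
-/

set_option autoImplicit false
set_option linter.unusedSectionVars false

noncomputable section

namespace Fermat.Agent.S17.Pos.DataGlue

open AlgebraicCurve AlgebraicCurve.SemilinearAut ModularCurve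
open Fermat.Agent.S18.NonSpecial Fermat.Agent.S17.Model.Lift Fermat.Agent.S17.Model.Embed
open Fermat.Agent.S17.Dict.QStructure Fermat.Agent.S17.B.Frame Fermat.Agent.S17.Ht
open Fermat.Agent.S17.Model.Global
open Fermat.Agent.S17.Model.Reciprocity Fermat.Agent.S17.Model.Parallelogram
open Fermat.Agent.S17.Model.FrameBridge
open Fermat.Agent.S17.Model.FrameSection (degR_eq_degree)
open Fermat.Agent.S17.North (natPart natPart_apply natPart_cast support_natPart)
open Fermat.Agent.S36.K0Descent (mem_rr_iff_of_ne_zero)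

local notation "Kb" => AlgebraicClosure ℚ
local notation "ooN" => Fermat.Agent.S17.Model.ReducedX0.oo

variable {N : ℕ} [NeZero N] {g δ : ℕ}

open scoped Classical

/-! ### effective divisors as functions to `ℕ` -/

/-- `zInt` of the natural part of an effective divisor -/
theorem zInt_natPart {D : X N →₀ ℤ} (hD : 0 ≤ D) : zInt (natPart D) = D := by
  ext P
  rw [zInt_apply]
  exact natPart_cast (fun P => hD P) P

/-- `zInt` is injective -/
theorem zInt_injective {A B : X N →₀ ℕ} (h : zInt A = zInt B) : A = B := by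
  ext P
  have h1 := DFunLike.congr_fun h P
  rw [zInt_apply, zInt_apply] at h1
  exact_mod_cast h1

/-- `zInt` is additive -/
theorem zInt_add (A B : X N →₀ ℕ) : zInt (A + B) = zInt A + zInt B := by
  ext P
  rw [Finsupp.add_apply, zInt_apply, zInt_apply, zInt_apply, Finsupp.add_apply]
  push_cast
  rfl

/-- the member `E l` of `EE` as a function to `ℕ` -/
def EN (Dat : Fermat.Agent.S17.Pos.FixedData.Data N g δ) (l : Fin (g + 1)) : X N →₀ ℕ :=
  natPart (Dat.E l)

theorem zInt_EN (Dat : Fermat.Agent.S17.Pos.FixedData.Data N g δ) (l : Fin (g + 1)) :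
    zInt (EN Dat l) = Dat.E l :=
  zInt_natPart (Dat.E_nonneg l)

theorem support_EN (Dat : Fermat.Agent.S17.Pos.FixedData.Data N g δ) (l : Fin (g + 1)) :
    (EN Dat l).support = (Dat.E l).support :=
  support_natPart fun P => Dat.E_nonneg l P

theorem EN_apply_cast (Dat : Fermat.Agent.S17.Pos.FixedData.Data N g δ) (l : Fin (g + 1))
    (P : X N) : ((EN Dat l P : ℕ) : ℤ) = Dat.E l P :=
  natPart_cast (fun P => Dat.E_nonneg l P) P

theorem EN_apply_oo (Dat : Fermat.Agent.S17.Pos.FixedData.Data N g δ) (l : Fin (g + 1)) :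
    EN Dat l (ooN N) = 0 := by
  have h := EN_apply_cast Dat l (ooN N)
  have h2 : Dat.E l (ooN N) = 0 := Dat.E_oo l
  rw [h2] at h
  exact_mod_cast h

/-- the `E l` have pairwise disjoint supports (`hEdisj` of `Pos/Main.lower_bound`) -/
theorem EN_disjoint (Dat : Fermat.Agent.S17.Pos.FixedData.Data N g δ) :
    ∀ l l', l ≠ l' → Disjoint (EN Dat l).support (EN Dat l').support := by
  intro l l' hll
  rw [support_EN, support_EN]
  exact Dat.E_disjoint l l' hll

/-- the degree of `E l` (`hEdeg` of `Pos/Main.lower_bound`) -/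
theorem degR_zInt_EN (Dat : Fermat.Agent.S17.Pos.FixedData.Data N g δ) (l : Fin (g + 1)) :
    degR (zInt (EN Dat l)) = (((δ : ℤ) - 2 * g + 2 : ℤ) : ℝ) := by
  rw [degR_eq_degree, zInt_EN, Dat.E_degree l]
  push_cast
  ring

/-- the fibres have at most `2g` points (`hOcard` of `Pos/Main.lower_bound`) -/
theorem O_card_le (Dat : Fermat.Agent.S17.Pos.FixedData.Data N g δ) (hg : 1 ≤ g)
    (i : Fin (2 * g - 1)) : (Dat.O i).card ≤ 2 * g := by
  have := Dat.O_card i
  omega

/-- the fibres are off the `E l` (`hOE` of `Pos/H11`) -/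
theorem EN_apply_of_mem_O (Dat : Fermat.Agent.S17.Pos.FixedData.Data N g δ) (i : Fin (2 * g - 1))
    (l : Fin (g + 1)) {T : X N} (hT : T ∈ Dat.O i) : EN Dat l T = 0 := by
  have h := EN_apply_cast Dat l T
  rw [Dat.O_off i l T hT] at h
  exact_mod_cast h

/-! ### rational coefficient vectors of the rational members of `W_E` -/

variable (Φ : RatFrame N δ)

/-- a nonzero `G_ℚ`-fixed member `G` of `L(δ∞ - E l)` is a rational linear form `a` of the frame;
its zero divisor is `E l + R` for the effective divisor `R P = ord_P G + δ∞ P - E l P`. -/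
theorem exists_coeffs (Dat : Fermat.Agent.S17.Pos.FixedData.Data N g δ) (l : Fin (g + 1))
    {G : modularFunctionFieldBar N} (hG0 : G ≠ 0)
    (hGfix : ∀ σ : GQ, gal N σ • G = G)
    (hGmem : G ∈ riemannRochSpace ((Finsupp.single (oo N) (δ : ℤ) :
      Divisor Kb (modularFunctionFieldBar N)) - Dat.E l)) :
    ∃ a : Fin (Φ.n + 1) → Qbar, a ≠ 0 ∧ IsRat Φ a ∧ formOf Φ.f a = G ∧
      ∀ R : Divisor Kb (modularFunctionFieldBar N), 0 ≤ R →
        (∀ P, R P = P.ord G + (Finsupp.single (oo N) (δ : ℤ) :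
          Divisor Kb (modularFunctionFieldBar N)) P - Dat.E l P) →
        Zdiv Φ a = EN Dat l + natPart R := by
  have := Fermat.Agent.S18.A.Instances.hasPrincipalDivisors_bar N
  have hGmem' : G ∈ riemannRochSpace (dOO N δ) := Dat.mem_dOO_of_mem l hGmem
  obtain ⟨a, rfl⟩ := Φ.model.span G hGmem'
  have ha : a ≠ 0 := by
    rintro rfl
    apply hG0
    unfold formOf
    simp
  have hrat : IsRat Φ a := by
    intro σ j
    have h1 : gal N σ • formOf Φ.f a = formOf Φ.f a := hGfix σ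
    rw [gal_smul_formOf] at h1
    have h2 : formOf Φ.f (fun j => σ (a j) - a j) = 0 := by
      have e : (fun j => σ (a j) - a j) = (fun j => σ (a j)) + (-1 : Qbar) • a := by
        funext j
        simp [sub_eq_add_neg]
      rw [e, Fermat.Agent.S17.Model.EmbedRR.formOf_add, Fermat.Agent.S17.Model.EmbedRR.formOf_smul,
        h1]
      simp
    have h3 := Fermat.Agent.S17.Model.EmbedRR.formOf_injective Φ.linInd h2
    have h4 := congrFun h3 j
    exact sub_eq_zero.mp h4
  refine ⟨a, ha, hrat, rfl, fun R hR0 hR => ?_⟩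
  apply zInt_injective
  rw [zInt_add, zInt_EN, zInt_natPart hR0]
  ext P
  rw [zInt_apply, Zdiv_apply_eq_ord Φ ha, Finsupp.add_apply, hR P]
  show P.ord (formOf Φ.f a) + (Finsupp.single (oo N) (δ : ℤ) :
    Divisor Kb (modularFunctionFieldBar N)) P = _
  ring

/-! ### the glue -/

variable {g₀ : ℕ}

/-- **the glue, full form**: the rational linear forms of `G1 l`, `G2 l` and their residual
divisors, with all the properties of both residuals. -/
theorem exists_glue' (Dat : Fermat.Agent.S17.Pos.FixedData.Data N g δ)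
    (hR : RiemannHyp Kb (modularFunctionFieldBar N) g₀) (l : Fin (g + 1)) :
    ∃ (a1 a2 : Fin (Φ.n + 1) → Qbar) (R1 R2 : X N →₀ ℕ),
      a1 ≠ 0 ∧ a2 ≠ 0 ∧ IsRat Φ a1 ∧ IsRat Φ a2 ∧
      formOf Φ.f a1 = Dat.G1 l ∧ formOf Φ.f a2 = Dat.G2 l ∧
      Zdiv Φ a1 = EN Dat l + R1 ∧ Zdiv Φ a2 = EN Dat l + R2 ∧
      Disjoint R1.support R2.support ∧
      zInt R1 ∈ stableDiv (HX0 N) ∧ zInt R2 ∈ stableDiv (HX0 N) ∧
      R1 (ooN N) = 0 ∧ R2 (ooN N) = 0 ∧
      Divisor.degree (zInt R1) = ((2 * g - 2 : ℕ) : ℤ) ∧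
      Divisor.degree (zInt R2) = ((2 * g - 2 : ℕ) : ℤ) ∧ 1 ≤ g := by
  obtain ⟨E1, E2, hE1, hE2, hE10, hE20, hd1, hd2, hst1, hst2, hdisj, hoo1, hoo2⟩ :=
    Dat.exists_residual hR l
  obtain ⟨a1, ha1, hrat1, hf1, hZ1⟩ :=
    exists_coeffs Φ Dat l (Dat.G1_ne l) (fun σ => Dat.G1_fixed σ l) (Dat.G1_mem l)
  obtain ⟨a2, ha2, hrat2, hf2, hZ2⟩ :=
    exists_coeffs Φ Dat l (Dat.G2_ne l) (fun σ => Dat.G2_fixed σ l) (Dat.G2_mem l)
  -- `g ≥ 1` since the effective divisor `E1` has degree `2g - 2`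
  have hg : 1 ≤ g := by
    have h0 := Fermat.Agent.S17.Model.Reduced.degree_nonneg
      (Fermat.Agent.S18.A.Instances.deg_one_bar N) hE10
    rw [hd1] at h0
    omega
  have hcast : ((2 * g - 2 : ℕ) : ℤ) = 2 * (g : ℤ) - 2 := by omega
  have hoo1' : natPart E1 (ooN N) = 0 := by
    rw [natPart_apply]
    have : E1 (ooN N) = 0 := hoo1
    rw [this]
    rfl
  have hoo2' : natPart E2 (ooN N) = 0 := by
    rw [natPart_apply]
    have : E2 (ooN N) = 0 := hoo2
    rw [this]
    rfl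
  refine ⟨a1, a2, natPart E1, natPart E2, ha1, ha2, hrat1, hrat2, hf1, hf2, hZ1 E1 hE10 hE1,
    hZ2 E2 hE20 hE2, ?_, ?_, ?_, hoo1', hoo2', ?_, ?_, hg⟩
  · rw [support_natPart fun P => hE10 P, support_natPart fun P => hE20 P]
    exact hdisj
  · rw [zInt_natPart hE10]
    exact (isStable_HX0_iff N).mpr hst1
  · rw [zInt_natPart hE20]
    exact (isStable_HX0_iff N).mpr hst2
  · rw [zInt_natPart hE10, hd1, hcast]
  · rw [zInt_natPart hE20, hd2, hcast]

/-- **the glue** (leaf (G) of the Part-B architect, literal conjunct list): this feeds both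
`Pos/Main.lower_bound` (`a1`, `E' := R1`, `hZ1`, `hE'st`, `hE'oo`, `hE'deg`) and
`Pos/Adjunction.h12_X0` (`a1`, `a2`, `EN ≤ Zdiv`, `Zdiv a_b - EN = R_b` disjoint). -/
theorem exists_glue (Dat : Fermat.Agent.S17.Pos.FixedData.Data N g δ)
    (hR : RiemannHyp Kb (modularFunctionFieldBar N) g₀) (l : Fin (g + 1)) :
    ∃ (a1 a2 : Fin (Φ.n + 1) → Qbar) (R1 R2 : X N →₀ ℕ),
      a1 ≠ 0 ∧ a2 ≠ 0 ∧ IsRat Φ a1 ∧ IsRat Φ a2 ∧
      Zdiv Φ a1 = EN Dat l + R1 ∧ Zdiv Φ a2 = EN Dat l + R2 ∧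
      Disjoint R1.support R2.support ∧
      zInt R1 ∈ stableDiv (HX0 N) ∧ R1 (ooN N) = 0 ∧
      Divisor.degree (zInt R1) = ((2 * g - 2 : ℕ) : ℤ) := by
  obtain ⟨a1, a2, R1, R2, ha1, ha2, hr1, hr2, -, -, hZ1, hZ2, hdisj, hst1, -, hoo1, -, hd1, -, -⟩ :=
    exists_glue' Φ Dat hR l
  exact ⟨a1, a2, R1, R2, ha1, ha2, hr1, hr2, hZ1, hZ2, hdisj, hst1, hoo1, hd1⟩

/-- the two consequences used by `Pos/Adjunction.h12_X0`: `EN ≤ Z(a)` and `Z(a) - EN = R` -/
theorem le_and_sub_of_eq_add {A E R : X N →₀ ℕ} (h : A = E + R) : E ≤ A ∧ A - E = R := by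
  subst h
  exact ⟨le_self_add, add_tsub_cancel_left E R⟩

end Fermat.Agent.S17.Pos.DataGlue
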