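import Mathlib
import Fermat.Agent.S17.Abs.ConfluentDet

/-!
# PROJECT H (S17), Part B item B.11-prime, abstract global side: the Galois set of determinants

Frame: fields `k ⊆ Om`, the group `Om ≃ₐ[k] Om` acting on a set `X` of points; `ev P j a` the
`j`-th Hasse coefficient at `P` of the `a`-th basis form (`a : Fin g`), equivariant;
`D : X →₀ ℕ` a stable divisor; `TT` a finite stable set of points.

* list calculus on top of `Abs/ConfluentDet` : the confluent determinant `cdet ev pt` of a list of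
  `g` conditions depends on the list only through its divisor `totDiv pt`, up to sign;
* `Delta ev D B` : the confluent determinant of the conditions `D + ∑_{T ∈ B} T`;
  `map_Delta : σ (Delta ev D B) = ± Delta ev D (σ • B)`;
* `Delta_ne_zero_iff` : nonvanishing means that the conditions are independent;
* `XX ev D TT n` : the finite set of `n`-subsets `B` of `TT` off `supp D` with `Delta ev D B ≠ 0`,
  stable under the group; the action on the subtype (`mulActionXX`);
* `nT` : the number of members of a family through a point, and the regrouping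
  `∑_{B} ∑_{T ∈ B} T = ∑_T nT T • T`.
-/

set_option autoImplicit false
set_option linter.unusedSectionVars false

noncomputable section

namespace Fermat.Agent.S17.Pos.DetGlobal

open Finset Fermat.Agent.S17.Abs.ConfluentDet
open scoped Pointwise

/-! ### lists of conditions -/

section Lists

variable {X : Type*} [DecidableEq X]

/-- two lists with the same divisor differ by a permutation of the conditions -/
theorem exists_perm_of_totDiv_eq {r : ℕ} (pt pt' : Fin r → X) (h : totDiv pt = totDiv pt') :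
    ∃ π : Equiv.Perm (Fin r), ∀ k, pt' (π k) = pt k ∧ mult pt' (π k) = mult pt k := by
  let ψ : {c : X × ℕ // c.2 < totDiv pt c.1} ≃ {c : X × ℕ // c.2 < totDiv pt' c.1} :=
    Equiv.subtypeEquivRight fun c => by rw [h]
  refine ⟨(condEquiv pt).trans (ψ.trans (condEquiv pt').symm), fun k => ?_⟩
  have h0 : condEquiv pt' (((condEquiv pt).trans (ψ.trans (condEquiv pt').symm)) k)
      = ψ (condEquiv pt k) := by simp
  have h1 := congrArg (fun c => c.1.1) h0
  have h2 := congrArg (fun c => c.1.2) h0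
  simp only [condEquiv_apply_fst, condEquiv_apply_snd] at h1 h2
  exact ⟨h1, h2⟩

/-- the divisor of the image list -/
theorem totDiv_comp {r : ℕ} (pt : Fin r → X) (φ : X → X) :
    totDiv (fun k => φ (pt k)) = (totDiv pt).mapDomain φ := by
  unfold totDiv
  rw [Finsupp.mapDomain_finsetSum]
  simp only [Finsupp.mapDomain_single]

/-- an injective map preserves the Hasse orders of the conditions -/
theorem mult_comp {r : ℕ} (pt : Fin r → X) {φ : X → X} (hφ : Function.Injective φ) (k : Fin r) :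
    mult (fun k => φ (pt k)) k = mult pt k := by
  unfold mult
  congr 1
  ext k'
  simp only [Finset.mem_filter, Finset.mem_univ, true_and]
  exact and_congr_right fun _ => hφ.eq_iff

/-- every divisor of degree `g` is the divisor of a list of `g` conditions -/
theorem exists_list (E : X →₀ ℕ) {g : ℕ} (hg : (E.sum fun _ n => n) = g) :
    ∃ pt : Fin g → X, totDiv pt = E := by
  obtain ⟨r, pt, h1, h2⟩ := exists_pt_totDiv E
  have hr : r = g := h2.trans hg
  subst hr
  exact ⟨pt, h1⟩

/-- the degree of the divisor of a list is its length -/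
theorem sum_totDiv {r : ℕ} (pt : Fin r → X) : ((totDiv pt).sum fun _ n => n) = r := by
  unfold totDiv
  have : ∀ (s : Finset (Fin r)), ((∑ k ∈ s, Finsupp.single (pt k) 1 : X →₀ ℕ).sum fun _ n => n)
      = s.card := by
    intro s
    induction s using Finset.induction_on with
    | empty => simp
    | insert k s hk ih =>
      rw [Finset.sum_insert hk, Finsupp.sum_add_index' (fun _ => rfl) (fun _ _ _ => rfl), ih,
        Finsupp.sum_single_index rfl, Finset.card_insert_of_notMem hk, add_comm]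
  rw [this, Finset.card_univ, Fintype.card_fin]

variable {A : Type*} [CommRing A] {g : ℕ} (ev : X → ℕ → Fin g → A)

/-- the confluent determinant of a list of `g` conditions on the `g` basis forms -/
def cdet (pt : Fin g → X) : A := (Matrix.of fun k l => ev (pt k) (mult pt k) l).det

theorem cdet_eq (pt : Fin g → X) :
    cdet ev pt = (Matrix.of fun k l => ev (pt k) (mult pt k) ((id : Fin g → Fin g) l)).det := rfl

/-- the confluent determinant depends on the list only through its divisor, up to sign -/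
theorem exists_cdet_eq_sign_mul (pt pt' : Fin g → X) (h : totDiv pt = totDiv pt') :
    ∃ π : Equiv.Perm (Fin g), cdet ev pt = ((Equiv.Perm.sign π : ℤ) : A) * cdet ev pt' := by
  obtain ⟨π, hπ⟩ := exists_perm_of_totDiv_eq pt pt' h
  refine ⟨π, ?_⟩
  unfold cdet
  rw [← Matrix.det_permute]
  congr 1
  ext k l
  simp only [Matrix.of_apply, Matrix.submatrix_apply, id_eq]
  rw [(hπ k).1, (hπ k).2]

theorem cdet_eq_or_neg (pt pt' : Fin g → X) (h : totDiv pt = totDiv pt') :
    cdet ev pt = cdet ev pt' ∨ cdet ev pt = - cdet ev pt' := by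
  obtain ⟨π, hπ⟩ := exists_cdet_eq_sign_mul ev pt pt' h
  rcases Int.units_eq_one_or (Equiv.Perm.sign π) with h1 | h1
  · left; rw [hπ, h1]; simp
  · right; rw [hπ, h1]; simp

/-- **nonvanishing = independence of the conditions** -/
theorem cdet_ne_zero_iff [IsDomain A] (pt : Fin g → X) :
    cdet ev pt ≠ 0 ↔ ∀ c : Fin g → A,
      (∀ R : X, ∀ j < totDiv pt R, ∑ a, c a * ev R j a = 0) → c = 0 := by
  have hcond : ∀ c : Fin g → A, (∀ R : X, ∀ j < totDiv pt R, ∑ a, c a * ev R j a = 0) ↔
      Matrix.mulVec (Matrix.of fun k l => ev (pt k) (mult pt k) l) c = 0 := by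
    intro c
    constructor
    · intro hc
      funext k
      have := hc (pt k) (mult pt k) (mult_lt_totDiv pt k)
      simp only [Matrix.mulVec, dotProduct, Matrix.of_apply, Pi.zero_apply]
      rw [← this]
      exact Finset.sum_congr rfl fun a _ => mul_comm _ _
    · intro hc R j hj
      obtain ⟨k, hk, hm⟩ := exists_cond_tot pt R j hj
      have := congrFun hc k
      simp only [Matrix.mulVec, dotProduct, Matrix.of_apply, Pi.zero_apply] at this
      rw [← this, hk, hm]
      exact Finset.sum_congr rfl fun a _ => mul_comm _ _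
  unfold cdet
  rw [Ne, ← Matrix.exists_mulVec_eq_zero_iff]
  constructor
  · intro h c hc
    by_contra hne
    exact h ⟨c, hne, (hcond c).mp hc⟩
  · rintro h ⟨c, hne, hc⟩
    exact hne (h c ((hcond c).mpr hc))

end Lists

/-! ### the Galois set -/

section Galois

variable {k : Type*} {Om : Type*} [Field k] [Field Om] [Algebra k Om]
  {X : Type*} [DecidableEq X] [MulAction (Om ≃ₐ[k] Om) X] {g : ℕ}

/-- the divisor of the conditions: `D` and the points of `B` -/
def condDiv (D : X →₀ ℕ) (B : Finset X) : X →₀ ℕ := D + ∑ T ∈ B, Finsupp.single T 1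

theorem condDiv_apply_of_mem {D : X →₀ ℕ} {B : Finset X} {T : X} (hT : T ∈ B) :
    condDiv D B T = D T + 1 := by
  unfold condDiv
  rw [Finsupp.add_apply, Finsupp.finsetSum_apply]
  simp only [Finsupp.single_apply]
  rw [Finset.sum_ite_eq' B T, if_pos hT]

theorem condDiv_apply_of_notMem {D : X →₀ ℕ} {B : Finset X} {T : X} (hT : T ∉ B) :
    condDiv D B T = D T := by
  unfold condDiv
  rw [Finsupp.add_apply, Finsupp.finsetSum_apply]
  simp only [Finsupp.single_apply]
  rw [Finset.sum_ite_eq' B T, if_neg hT, add_zero]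

theorem sum_condDiv (D : X →₀ ℕ) (B : Finset X) :
    ((condDiv D B).sum fun _ n => n) = (D.sum fun _ n => n) + B.card := by
  unfold condDiv
  rw [Finsupp.sum_add_index' (fun _ => rfl) (fun _ _ _ => rfl)]
  congr 1
  induction B using Finset.induction_on with
  | empty => simp
  | insert T s hT ih =>
    rw [Finset.sum_insert hT, Finsupp.sum_add_index' (fun _ => rfl) (fun _ _ _ => rfl), ih,
      Finsupp.sum_single_index rfl, Finset.card_insert_of_notMem hT, add_comm]

/-- a stable divisor is its own push-forward -/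
theorem mapDomain_smul_eq {D : X →₀ ℕ} (hD : ∀ (σ : Om ≃ₐ[k] Om) (P : X), D (σ • P) = D P)
    (σ : Om ≃ₐ[k] Om) : D.mapDomain (σ • ·) = D := by
  ext P
  obtain ⟨Q, rfl⟩ : ∃ Q, σ • Q = P := ⟨σ⁻¹ • P, smul_inv_smul σ P⟩
  rw [Finsupp.mapDomain_apply (MulAction.injective σ), hD]

theorem condDiv_smul {D : X →₀ ℕ} (hD : ∀ (σ : Om ≃ₐ[k] Om) (P : X), D (σ • P) = D P)
    (σ : Om ≃ₐ[k] Om) (B : Finset X) :
    condDiv D (σ • B) = (condDiv D B).mapDomain (σ • ·) := by
  unfold condDiv
  rw [Finsupp.mapDomain_add, mapDomain_smul_eq hD σ, Finsupp.mapDomain_finsetSum,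
    Finset.smul_finset_def, Finset.sum_image fun _ _ _ _ h => MulAction.injective σ h]
  simp only [Finsupp.mapDomain_single]

/-- the image of a list of conditions for `D + B` is a list of conditions for `D + σ B` -/
theorem totDiv_smul {D : X →₀ ℕ} (hD : ∀ (σ : Om ≃ₐ[k] Om) (P : X), D (σ • P) = D P)
    (σ : Om ≃ₐ[k] Om) {B : Finset X} {pt : Fin g → X} (hpt : totDiv pt = condDiv D B) :
    totDiv (fun k => σ • pt k) = condDiv D (σ • B) := by
  rw [totDiv_comp pt (σ • ·), hpt, condDiv_smul hD]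

variable (ev : X → ℕ → Fin g → Om)

/-- equivariance of the confluent determinant of a list -/
theorem map_cdet (hev : ∀ (σ : Om ≃ₐ[k] Om) (P : X) (j : ℕ) (a : Fin g),
    σ (ev P j a) = ev (σ • P) j a) (σ : Om ≃ₐ[k] Om) (pt : Fin g → X) :
    σ (cdet ev pt) = cdet ev (fun k => σ • pt k) := by
  unfold cdet
  rw [AlgEquiv.map_det]
  congr 1
  ext i l
  simp only [AlgEquiv.mapMatrix_apply, Matrix.map_apply, Matrix.of_apply]
  rw [hev, mult_comp pt (MulAction.injective σ)]

open Classical in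
/-- **the determinant `Δ(D, B)`** of the conditions `D + ∑_{T ∈ B} T` on the `g` basis forms
(for a chosen ordering of the conditions; `0` if the number of conditions is not `g`) -/
def Delta (D : X →₀ ℕ) (B : Finset X) : Om :=
  if h : ∃ pt : Fin g → X, totDiv pt = condDiv D B then cdet ev h.choose else 0

/-- `Δ(D, B)` is, up to sign, the confluent determinant of ANY list with divisor `D + B` -/
theorem Delta_eq_or_neg {D : X →₀ ℕ} {B : Finset X} (pt : Fin g → X)
    (hpt : totDiv pt = condDiv D B) :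
    Delta ev D B = cdet ev pt ∨ Delta ev D B = - cdet ev pt := by
  have h : ∃ pt : Fin g → X, totDiv pt = condDiv D B := ⟨pt, hpt⟩
  unfold Delta
  rw [dif_pos h]
  exact cdet_eq_or_neg ev _ pt (h.choose_spec.trans hpt.symm)

theorem exists_list_Delta {D : X →₀ ℕ} {B : Finset X}
    (hg : (D.sum fun _ n => n) + B.card = g) :
    ∃ pt : Fin g → X, totDiv pt = condDiv D B ∧
      (Delta ev D B = cdet ev pt ∨ Delta ev D B = - cdet ev pt) := by
  obtain ⟨pt, hpt⟩ := exists_list (condDiv D B) ((sum_condDiv D B).trans hg)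
  exact ⟨pt, hpt, Delta_eq_or_neg ev pt hpt⟩

/-- if `Δ(D, B) ≠ 0` then the number of conditions is `g` -/
theorem card_of_Delta_ne_zero {D : X →₀ ℕ} {B : Finset X} (h : Delta ev D B ≠ 0) :
    (D.sum fun _ n => n) + B.card = g := by
  unfold Delta at h
  by_cases hex : ∃ pt : Fin g → X, totDiv pt = condDiv D B
  · obtain ⟨pt, hpt⟩ := hex
    rw [← sum_condDiv, ← hpt, sum_totDiv]
  · rw [dif_neg hex] at h
    exact absurd rfl h

/-- **nonvanishing of `Δ(D, B)` = independence of the conditions `D + B`** -/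
theorem Delta_ne_zero_iff {D : X →₀ ℕ} {B : Finset X}
    (hg : (D.sum fun _ n => n) + B.card = g) :
    Delta ev D B ≠ 0 ↔ ∀ c : Fin g → Om,
      (∀ R : X, ∀ j < condDiv D B R, ∑ a, c a * ev R j a = 0) → c = 0 := by
  obtain ⟨pt, hpt, h⟩ := exists_list_Delta ev hg
  have h1 : Delta ev D B ≠ 0 ↔ cdet ev pt ≠ 0 := by
    rcases h with h | h <;> rw [h]
    exact neg_ne_zero
  rw [h1, cdet_ne_zero_iff, hpt]

/-- **equivariance up to sign** -/
theorem map_Delta (hev : ∀ (σ : Om ≃ₐ[k] Om) (P : X) (j : ℕ) (a : Fin g),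
    σ (ev P j a) = ev (σ • P) j a) {D : X →₀ ℕ}
    (hD : ∀ (σ : Om ≃ₐ[k] Om) (P : X), D (σ • P) = D P) (σ : Om ≃ₐ[k] Om) (B : Finset X) :
    σ (Delta ev D B) = Delta ev D (σ • B) ∨ σ (Delta ev D B) = - Delta ev D (σ • B) := by
  by_cases hex : ∃ pt : Fin g → X, totDiv pt = condDiv D B
  · obtain ⟨pt, hpt⟩ := hex
    have hpt' := totDiv_smul hD σ hpt
    have e1 := map_cdet ev hev σ pt
    rcases Delta_eq_or_neg ev pt hpt with h | h <;>
      rcases Delta_eq_or_neg ev _ hpt' with h' | h'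
    · left; rw [h, h', e1]
    · right; rw [h, h', e1, neg_neg]
    · right; rw [h, h', map_neg, e1]
    · left; rw [h, h', map_neg, e1]
  · have hex' : ¬ ∃ pt : Fin g → X, totDiv pt = condDiv D (σ • B) := by
      rintro ⟨pt, hpt⟩
      refine hex ⟨fun k => σ⁻¹ • pt k, ?_⟩
      have := totDiv_smul hD σ⁻¹ hpt
      rwa [inv_smul_smul] at this
    left
    unfold Delta
    rw [dif_neg hex, dif_neg hex', map_zero]

open Classical in
/-- **the Galois set `XX`**: the `n`-subsets `B` of `TT` off `supp D` with `Δ(D, B) ≠ 0` -/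
def XX (D : X →₀ ℕ) (TT : Finset X) (n : ℕ) : Finset (Finset X) :=
  ((TT \ D.support).powersetCard n).filter fun B => Delta ev D B ≠ 0

theorem mem_XX {D : X →₀ ℕ} {TT : Finset X} {n : ℕ} {B : Finset X} :
    B ∈ XX ev D TT n ↔ (B ⊆ TT ∧ Disjoint D.support B) ∧ B.card = n ∧ Delta ev D B ≠ 0 := by
  classical
  unfold XX
  rw [Finset.mem_filter, Finset.mem_powersetCard, Finset.subset_sdiff, and_assoc, and_assoc,
    and_assoc]
  constructor
  · rintro ⟨h1, h2, h3, h4⟩
    exact ⟨h1, h2.symm, h3, h4⟩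
  · rintro ⟨h1, h2, h3, h4⟩
    exact ⟨h1, h2.symm, h3, h4⟩

/-- `XX` is stable under the group -/
theorem smul_mem_XX (hev : ∀ (σ : Om ≃ₐ[k] Om) (P : X) (j : ℕ) (a : Fin g),
    σ (ev P j a) = ev (σ • P) j a) {D : X →₀ ℕ}
    (hD : ∀ (σ : Om ≃ₐ[k] Om) (P : X), D (σ • P) = D P) {TT : Finset X}
    (hTT : ∀ (σ : Om ≃ₐ[k] Om), ∀ T ∈ TT, σ • T ∈ TT) {n : ℕ} (σ : Om ≃ₐ[k] Om)
    {B : Finset X} (hB : B ∈ XX ev D TT n) : σ • B ∈ XX ev D TT n := by
  rw [mem_XX] at hB ⊢
  obtain ⟨⟨h1, h2⟩, h3, h4⟩ := hB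
  refine ⟨⟨?_, ?_⟩, ?_, ?_⟩
  · intro T hT
    obtain ⟨T', hT', rfl⟩ := Finset.mem_smul_finset.mp hT
    exact hTT σ T' (h1 hT')
  · rw [Finset.disjoint_left]
    intro T hTD hT
    obtain ⟨T', hT', rfl⟩ := Finset.mem_smul_finset.mp hT
    rw [Finsupp.mem_support_iff, hD] at hTD
    exact Finset.disjoint_left.mp h2 (Finsupp.mem_support_iff.mpr hTD) hT'
  · rw [Finset.card_smul_finset, h3]
  · intro h0
    rcases map_Delta ev hev hD σ B with h | h
    · rw [h0] at h
      exact h4 ((map_eq_zero_iff σ σ.injective).mp h)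
    · rw [h0, neg_zero] at h
      exact h4 ((map_eq_zero_iff σ σ.injective).mp h)

/-- the action of the group on `XX` (as a definition, not an instance) -/
@[reducible] def mulActionXX (hev : ∀ (σ : Om ≃ₐ[k] Om) (P : X) (j : ℕ) (a : Fin g),
    σ (ev P j a) = ev (σ • P) j a) {D : X →₀ ℕ}
    (hD : ∀ (σ : Om ≃ₐ[k] Om) (P : X), D (σ • P) = D P) {TT : Finset X}
    (hTT : ∀ (σ : Om ≃ₐ[k] Om), ∀ T ∈ TT, σ • T ∈ TT) (n : ℕ) :
    MulAction (Om ≃ₐ[k] Om) {B : Finset X // B ∈ XX ev D TT n} where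
  smul σ s := ⟨σ • s.1, smul_mem_XX ev hev hD hTT σ s.2⟩
  one_smul s := Subtype.ext (one_smul _ s.1)
  mul_smul σ τ s := Subtype.ext (mul_smul σ τ s.1)

theorem mulActionXX_smul_coe (hev : ∀ (σ : Om ≃ₐ[k] Om) (P : X) (j : ℕ) (a : Fin g),
    σ (ev P j a) = ev (σ • P) j a) {D : X →₀ ℕ}
    (hD : ∀ (σ : Om ≃ₐ[k] Om) (P : X), D (σ • P) = D P) {TT : Finset X}
    (hTT : ∀ (σ : Om ≃ₐ[k] Om), ∀ T ∈ TT, σ • T ∈ TT) (n : ℕ) (σ : Om ≃ₐ[k] Om)
    (s : {B : Finset X // B ∈ XX ev D TT n}) :
    ((mulActionXX ev hev hD hTT n).smul σ s).1 = σ • s.1 := rfl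

/-- the hypotheses `h0`, `hΔ` of the product formula up to signs, for `Δ` on `XX` -/
theorem Delta_ne_zero_of_mem {D : X →₀ ℕ} {TT : Finset X} {n : ℕ}
    (s : {B : Finset X // B ∈ XX ev D TT n}) : Delta ev D s.1 ≠ 0 :=
  ((mem_XX ev).mp s.2).2.2

theorem map_Delta_XX (hev : ∀ (σ : Om ≃ₐ[k] Om) (P : X) (j : ℕ) (a : Fin g),
    σ (ev P j a) = ev (σ • P) j a) {D : X →₀ ℕ}
    (hD : ∀ (σ : Om ≃ₐ[k] Om) (P : X), D (σ • P) = D P) {TT : Finset X}
    (hTT : ∀ (σ : Om ≃ₐ[k] Om), ∀ T ∈ TT, σ • T ∈ TT) (n : ℕ) (σ : Om ≃ₐ[k] Om)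
    (s : {B : Finset X // B ∈ XX ev D TT n}) :
    letI := mulActionXX ev hev hD hTT n
    σ (Delta ev D s.1) = Delta ev D (σ • s).1 ∨ σ (Delta ev D s.1) = - Delta ev D (σ • s).1 :=
  map_Delta ev hev hD σ s.1

end Galois

/-! ### regrouping the sum of the members of a family by points -/

section Regroup

variable {X : Type*} [DecidableEq X]

/-- the number of members of the family through the point `T` -/
def nT (S : Finset (Finset X)) (T : X) : ℕ := (S.filter fun B => T ∈ B).card

theorem nT_le (S : Finset (Finset X)) (T : X) : nT S T ≤ S.card :=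
  Finset.card_le_card (Finset.filter_subset _ _)

/-- `∑_{B ∈ S} ∑_{T ∈ B} f T = ∑_{T ∈ TT} nT S T • f T` -/
theorem sum_sum_eq_sum_nT {M : Type*} [AddCommMonoid M] (S : Finset (Finset X)) (TT : Finset X)
    (hS : ∀ B ∈ S, B ⊆ TT) (f : X → M) :
    ∑ B ∈ S, ∑ T ∈ B, f T = ∑ T ∈ TT, nT S T • f T := by
  have h1 : ∀ B ∈ S, ∑ T ∈ B, f T = ∑ T ∈ TT, if T ∈ B then f T else 0 := by
    intro B hB
    rw [← Finset.sum_filter]
    congr 1
    ext T
    simp only [Finset.mem_filter]
    exact ⟨fun h => ⟨hS B hB h, h⟩, fun h => h.2⟩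
  rw [Finset.sum_congr rfl h1, Finset.sum_comm]
  refine Finset.sum_congr rfl fun T _ => ?_
  rw [← Finset.sum_filter, Finset.sum_const]
  rfl

/-- the divisor form: `∑_{B ∈ S} ∑_{T ∈ B} T = ∑_{T ∈ TT} nT S T • T` -/
theorem sum_sum_single_eq (S : Finset (Finset X)) (TT : Finset X) (hS : ∀ B ∈ S, B ⊆ TT) :
    ∑ B ∈ S, ∑ T ∈ B, Finsupp.single T (1 : ℤ) =
      ∑ T ∈ TT, (nT S T : ℤ) • Finsupp.single T (1 : ℤ) := by
  rw [sum_sum_eq_sum_nT S TT hS]
  refine Finset.sum_congr rfl fun T _ => ?_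
  rw [natCast_zsmul]

/-- `∑_T nT S T = |S| · n` when every member has `n` points -/
theorem sum_nT (S : Finset (Finset X)) (TT : Finset X) (hS : ∀ B ∈ S, B ⊆ TT) {n : ℕ}
    (hn : ∀ B ∈ S, B.card = n) : ∑ T ∈ TT, nT S T = S.card * n := by
  have h := sum_sum_eq_sum_nT S TT hS (fun _ => (1 : ℕ))
  simp only [smul_eq_mul, mul_one, Finset.sum_const] at h
  rw [← h, Finset.sum_congr rfl hn, Finset.sum_const, smul_eq_mul]

/-- `nT` is constant on the orbits of a group which permutes the family -/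
theorem nT_smul {G : Type*} [Group G] [MulAction G X] (S : Finset (Finset X))
    (hS : ∀ (σ : G), ∀ B ∈ S, σ • B ∈ S) (σ : G) (T : X) : nT S (σ • T) = nT S T := by
  unfold nT
  refine Finset.card_bij' (fun B _ => σ⁻¹ • B) (fun B _ => σ • B) ?_ ?_ ?_ ?_
  · intro B hB
    rw [Finset.mem_filter] at hB ⊢
    refine ⟨hS σ⁻¹ B hB.1, ?_⟩
    rw [← Finset.smul_mem_smul_finset_iff σ, smul_inv_smul]
    exact hB.2
  · intro B hB
    rw [Finset.mem_filter] at hB ⊢
    exact ⟨hS σ B hB.1, Finset.smul_mem_smul_finset hB.2⟩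
  · intro B _
    exact smul_inv_smul σ B
  · intro B _
    exact inv_smul_smul σ B

/-- regrouping a sum over the points by the fibres of a labelling (e.g. the orbits) on which the
weights are constant -/
theorem sum_nsmul_fiberwise {M : Type*} [AddCommMonoid M] {J : Type*} [DecidableEq J]
    (TT : Finset X) (cls : X → J) (nX : X → ℕ) (nJ : J → ℕ)
    (h : ∀ T ∈ TT, nX T = nJ (cls T)) (f : X → M) :
    ∑ T ∈ TT, nX T • f T =
      ∑ j ∈ TT.image cls, nJ j • ∑ T ∈ TT.filter (fun T => cls T = j), f T := by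
  rw [← Finset.sum_fiberwise_of_maps_to (g := cls) (t := TT.image cls)
    (fun T hT => Finset.mem_image_of_mem cls hT)]
  refine Finset.sum_congr rfl fun j _ => ?_
  rw [Finset.smul_sum]
  refine Finset.sum_congr rfl fun T hT => ?_
  rw [h T (Finset.mem_filter.mp hT).1, (Finset.mem_filter.mp hT).2]

end Regroup

end Fermat.Agent.S17.Pos.DetGlobal
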