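import Mathlib
import Fermat.Agent.S17.Pos.DetGlobal
import Fermat.Agent.S17.Ht.GlobalDet

/-!
# PROJECT H (S17), Part B item B.11-prime: the global determinant inequality on the Galois set `XX`

`Pos/DetGlobal` (the finite `G_ℚ`-set `XX` of complementary point sets `B` with `Δ(D, B) ≠ 0`,
`σ Δ(D, B) = ± Δ(D, σ B)`) fed into `Ht/GlobalDet` (product formula up to signs and
`prox_le_of_local_det`):  from the local determinant bounds at every `(B, v)`,

`prox D ≤ (e h(D) - h_Δ(D, E)) - (1/|XX|) h_Δ(D, ∑_T n_T T) + κ₂(D) + (1/|XX|) ∑_B tot (K B)`.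
-/

set_option autoImplicit false
set_option linter.unusedSectionVars false

noncomputable section

namespace Fermat.Agent.S17.Pos.DetGlobalHt

open Finset Fermat.Agent.S17.Ht Fermat.Agent.S17.Pos.DetGlobal
open scoped Pointwise

variable {X : Type*} [DecidableEq X] [MulAction GQ X] {ι κ : Type*} [Finite ι] [Finite κ]
  (xt : X → ι → Qbar) (w : X → X → κ → Qbar) (tau : X → κ → Qbar) {g : ℕ}
  (ev : X → ℕ → Fin g → Qbar)

/-- the divisor of a finite set of points -/
def ptsDiv (B : Finset X) : X →₀ ℤ := ∑ T ∈ B, Finsupp.single T (1 : ℤ)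

theorem ptsDiv_apply (B : Finset X) (T : X) : ptsDiv B T = if T ∈ B then 1 else 0 := by
  unfold ptsDiv
  rw [Finsupp.finsetSum_apply]
  simp only [Finsupp.single_apply]
  rw [Finset.sum_ite_eq' B T]

theorem support_ptsDiv (B : Finset X) : (ptsDiv B).support = B := by
  ext T
  rw [Finsupp.mem_support_iff, ptsDiv_apply]
  by_cases h : T ∈ B <;> simp [h]

/-- the product formula for the determinants `Δ(D, B)`, `B ∈ XX` -/
theorem sum_totalLog_Delta (hev : ∀ (σ : GQ) (P : X) (j : ℕ) (a : Fin g),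
    σ (ev P j a) = ev (σ • P) j a) {D : X →₀ ℕ} (hD : ∀ (σ : GQ) (P : X), D (σ • P) = D P)
    {TT : Finset X} (hTT : ∀ (σ : GQ), ∀ T ∈ TT, σ • T ∈ TT) (n : ℕ) :
    ∑ s : {B : Finset X // B ∈ XX ev D TT n}, totalLog (Delta ev D s.1) = 0 := by
  letI := mulActionXX ev hev hD hTT n
  exact sum_totalLog_eq_zero_of_sign (fun s : {B : Finset X // B ∈ XX ev D TT n} =>
    Delta ev D s.1) (Delta_ne_zero_of_mem ev) (map_Delta_XX ev hev hD hTT n)

/-- **B.11-prime, global form on `XX`.** -/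
theorem prox_le_of_local_det_XX (hdata : GoodData xt w tau)
    (hev : ∀ (σ : GQ) (P : X) (j : ℕ) (a : Fin g), σ (ev P j a) = ev (σ • P) j a)
    {D : X →₀ ℕ} (hD : ∀ (σ : GQ) (P : X), D (σ • P) = D P)
    {TT : Finset X} (hTT : ∀ (σ : GQ), ∀ T ∈ TT, σ • T ∈ TT) (n : ℕ)
    (hne : (XX ev D TT n).Nonempty) (Dz E : X →₀ ℤ) (hDz : ∀ P, Dz P = (D P : ℤ))
    (hDE : Disjoint Dz.support E.support) (K : Finset X → Pl → ℝ)
    (hK : ∀ B ∈ XX ev D TT n, AZ (K B)) (e : ℕ)
    (hloc : ∀ B ∈ XX ev D TT n, ∀ v, logAbs v (Delta ev D B) ≤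
      K B v - proxLoc xt w v Dz + (e : ℝ) * hgtLoc xt v Dz - hDeltaLoc xt w v Dz E
        - hDeltaLoc xt w v Dz (ptsDiv B) + kap2Loc xt tau v Dz) :
    prox xt w Dz ≤ ((e : ℝ) * hgt xt Dz - hDelta xt w Dz E)
      - (1 / ((XX ev D TT n).card : ℝ)) *
          hDelta xt w Dz (∑ T ∈ TT, (nT (XX ev D TT n) T : ℤ) • Finsupp.single T (1 : ℤ))
      + kap2 xt tau Dz
      + (1 / ((XX ev D TT n).card : ℝ)) * ∑ B ∈ XX ev D TT n, tot (K B) := by
  haveI : Nonempty {B : Finset X // B ∈ XX ev D TT n} := hne.to_subtype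
  have hsupp : Dz.support = D.support := by
    ext P
    rw [Finsupp.mem_support_iff, Finsupp.mem_support_iff, hDz]
    exact Int.natCast_ne_zero
  have key := prox_le_of_local_det xt w tau hdata Dz E
    (fun s : {B : Finset X // B ∈ XX ev D TT n} => ptsDiv s.1) hDE
    (fun s => by
      rw [support_ptsDiv, hsupp]
      exact ((mem_XX ev).mp s.2).1.2)
    (fun s => Delta ev D s.1) (Delta_ne_zero_of_mem ev)
    (sum_totalLog_Delta ev hev hD hTT n) (fun s => K s.1) (fun s => hK s.1 s.2) e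
    (fun s v => hloc s.1 s.2 v)
  have hcard : Fintype.card {B : Finset X // B ∈ XX ev D TT n} = (XX ev D TT n).card :=
    Fintype.card_coe _
  have h1 : (∑ s : {B : Finset X // B ∈ XX ev D TT n}, ptsDiv s.1) =
      ∑ T ∈ TT, (nT (XX ev D TT n) T : ℤ) • Finsupp.single T (1 : ℤ) := by
    rw [← sum_sum_single_eq (XX ev D TT n) TT fun B hB => ((mem_XX ev).mp hB).1.1]
    exact Finset.sum_coe_sort (XX ev D TT n) ptsDiv
  have h2 : (∑ s : {B : Finset X // B ∈ XX ev D TT n}, tot (K s.1)) =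
      ∑ B ∈ XX ev D TT n, tot (K B) :=
    Finset.sum_coe_sort (XX ev D TT n) fun B => tot (K B)
  rw [hcard, h1, h2] at key
  exact key

end Fermat.Agent.S17.Pos.DetGlobalHt
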