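import Mathlib
import Fermat.Agent.S17.Pos.DetGlobal
import Fermat.Agent.S17.Model.Global
import Fermat.Agent.S17.Model.Rational
import Fermat.Agent.S17.RR.ChoiceB
import Fermat.Agent.S17.RR.X0

/-!
# PROJECT H (S17), Part B item B.11-prime, concrete side for `X₀(N)`

Frame of `Model/Global`: a rational frame `Φ : RatFrame N δ`, an index `ix P` and a local parameter
`sp P` at every place `P` of `ℚ̄(X₀(N))`.  `G : Fin g → ℚ̄(X₀(N))` is a family of `G_ℚ`-fixed
functions (a rational basis of `W_E = L(δ∞ - E)`).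

* `evX Φ ix sp G P j a` : the `j`-th Hasse coefficient at `(P, sp P)` of `G a / f_{ix P}`;
* `evX_gal` : `σ (evX P j a) = evX (σ P) j a` for equivariant choices `ix`, `sp`;
* `eq_zero_of_conditions` : if `δ∞ - E ∼ K`, `l(D + B) = 1`, `deg (D + B) = g`, `D + B` disjoint
  from `E`, then the conditions `D + B` on `∑ c_a G_a` force `c = 0`;
* `Delta_ne_zero` / `XX_nonempty` : hence `Δ(D, B) ≠ 0`, and the Galois set `XX` is nonempty
  (choice of `B` by `RR/ChoiceB.exists_complement`).
-/

set_option autoImplicit false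
set_option linter.unusedSectionVars false

noncomputable section

namespace Fermat.Agent.S17.Pos.DetGlobalX0

open AlgebraicCurve AlgebraicCurve.SemilinearAut ModularCurve
open Fermat.Agent.S18.NonSpecial Fermat.Agent.S17.Model.Lift Fermat.Agent.S17.Model.Embed
open Fermat.Agent.S17.Model.Jet Fermat.Agent.S17.Dict.QStructure Fermat.Agent.S17.B.Frame
open Fermat.Agent.S17.Ht Fermat.Agent.S17.Model.Global Fermat.Agent.S17.Pos.DetGlobal
open Fermat.Agent.S17.RR.X0

local notation "Kb" => AlgebraicClosure ℚ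
local notation "ℓ" => Fermat.Agent.S18.NonSpecial.ell

variable {N : ℕ} [NeZero N] {δ : ℕ} (Φ : RatFrame N δ) (ix : X N → Fin (Φ.n + 1))
  (sp : X N → modularFunctionFieldBar N) {g : ℕ} (G : Fin g → modularFunctionFieldBar N)

/-- the conditions: the `j`-th Hasse coefficient at `(P, sp P)` of the `a`-th basis form of `W_E`
in the chart `ix P` -/
def evX (P : X N) (j : ℕ) (a : Fin g) : Qbar :=
  hasse (hxN N) P (sp P) j (G a / Φ.f (ix P))

/-- **equivariance of the conditions** -/
theorem evX_gal (hix : ∀ (σ : GQ) (P : X N), ix (gal N σ • P) = ix P)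
    (hsp : ∀ (σ : GQ) (P : X N), sp (gal N σ • P) = gal N σ • sp P)
    (hord : ∀ P : X N, P.ord (sp P) = 1)
    (hG : ∀ (σ : GQ) (a : Fin g), gal N σ • G a = G a) (σ : GQ) (P : X N) (j : ℕ) (a : Fin g) :
    σ (evX Φ ix sp G P j a) = evX Φ ix sp G (gal N σ • P) j a := by
  unfold evX
  rw [hix, hsp]
  have hfix : gal N σ • (G a / Φ.f (ix P)) = G a / Φ.f (ix P) := by
    rw [Fermat.Agent.S17.Model.Rational.smul_div', hG, Φ.fixed]
  rw [Fermat.Agent.S17.Model.Rational.hasse_gal_fixed (hxN N) (gal N σ) P (hord P) j hfix,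
    baseAut_arithmeticGalois]
  rfl

/-- the same in the form of the hypothesis `hev` of `Pos/DetGlobal` -/
theorem evX_smul (hix : ∀ (σ : GQ) (P : X N), ix (gal N σ • P) = ix P)
    (hsp : ∀ (σ : GQ) (P : X N), sp (gal N σ • P) = gal N σ • sp P)
    (hord : ∀ P : X N, P.ord (sp P) = 1)
    (hG : ∀ (σ : GQ) (a : Fin g), gal N σ • G a = G a) :
    letI := actX N
    ∀ (σ : GQ) (P : X N) (j : ℕ) (a : Fin g),
      σ (evX Φ ix sp G P j a) = evX Φ ix sp G (σ • P) j a :=
  fun σ P j a => evX_gal Φ ix sp G hix hsp hord hG σ P j a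

section Nonvanishing

variable {Φ ix sp G}

/-- a member of `L(δ∞ - E)`, `E ≥ 0`, divided by an admissible coordinate is regular -/
theorem div_mem_valuationSubring {P : X N} (hadm : Admissible Φ.f P (ix P))
    {E : Divisor Kb (modularFunctionFieldBar N)} (hE : 0 ≤ E)
    {u : modularFunctionFieldBar N} (hu : u ∈ riemannRochSpace (dOO N δ - E)) :
    u / Φ.f (ix P) ∈ P.toValuationSubring := by
  rcases eq_or_ne u 0 with rfl | hu0
  · rw [zero_div]
    exact zero_mem _
  · apply Model.Jet.mem_of_ord_nonneg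
    rw [Model.Jet.ord_div P hu0 (Φ.model.ne_zero _), (admissible_iff P Φ.f (ix P)).mp hadm,
      Φ.model.nuAt_eq]
    have h1 := ((mem_riemannRochSpace_iff.mp hu) P).resolve_left hu0
    have h2 : 0 ≤ E P := by
      have := Finsupp.le_def.mp hE P
      simpa using this
    rw [Finsupp.sub_apply] at h1
    omega

/-- the order of `u / f_i` at an admissible index -/
theorem ord_div_coord {P : X N} (hadm : Admissible Φ.f P (ix P))
    {u : modularFunctionFieldBar N} (hu0 : u ≠ 0) :
    P.ord (u / Φ.f (ix P)) = P.ord u + dOO N δ P := by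
  rw [Model.Jet.ord_div P hu0 (Φ.model.ne_zero _), (admissible_iff P Φ.f (ix P)).mp hadm,
    Φ.model.nuAt_eq]
  ring

/-- the conditions of order `< m` at `P` on the combination `∑ c_a G_a` -/
theorem le_ord_of_conditions {P : X N} (hadm : Admissible Φ.f P (ix P))
    (hord : P.ord (sp P) = 1) {E : Divisor Kb (modularFunctionFieldBar N)} (hE : 0 ≤ E)
    (hGmem : ∀ a, G a ∈ riemannRochSpace (dOO N δ - E)) (c : Fin g → Kb)
    (hu0 : ∑ a, c a • G a ≠ 0) (m : ℕ)
    (hc : ∀ j < m, ∑ a, c a * evX Φ ix sp G P j a = 0) :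
    (m : ℤ) ≤ P.ord (∑ a, c a • G a) + dOO N δ P := by
  have hmem : ∀ a, G a / Φ.f (ix P) ∈ P.toValuationSubring :=
    fun a => div_mem_valuationSubring hadm hE (hGmem a)
  have hmem' : ∀ a ∈ (Finset.univ : Finset (Fin g)),
      c a • (G a / Φ.f (ix P)) ∈ P.toValuationSubring := by
    intro a _
    rw [Algebra.smul_def]
    exact mul_mem (P.algebraMap_mem' (c a)) (hmem a)
  have hdiv : (∑ a, c a • G a) / Φ.f (ix P) = ∑ a, c a • (G a / Φ.f (ix P)) := by
    rw [Finset.sum_div]
    refine Finset.sum_congr rfl fun a _ => ?_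
    rw [smul_div_assoc]
  have hu : (∑ a, c a • G a) / Φ.f (ix P) ∈ P.toValuationSubring := by
    rw [hdiv]
    exact sum_mem hmem'
  have hne : (∑ a, c a • G a) / Φ.f (ix P) ≠ 0 := div_ne_zero hu0 (Φ.model.ne_zero _)
  rw [← ord_div_coord hadm hu0, ord_ge_iff (hxN N) P hord hu hne m]
  intro l hl
  rw [hdiv, hasse_sum (hxN N) P hord Finset.univ l hmem', ← hc l hl]
  refine Finset.sum_congr rfl fun a _ => ?_
  rw [hasse_smul (hxN N) P hord l (c a) (hmem a)]
  rfl

/-- **independence of the conditions**: `δ∞ - E ∼ K` (through `h`), `D + B` of degree `g` with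
`l(D + B) = 1`, disjoint from `supp E`.  A combination of the `G_a ∈ L(δ∞ - E)` which satisfies the
conditions `D + B` vanishes. -/
theorem sum_eq_zero_of_conditions {g₀ : ℕ} (hR : RiemannHyp Kb (modularFunctionFieldBar N) g₀)
    (hadm : ∀ P : X N, Admissible Φ.f P (ix P)) (hord : ∀ P : X N, P.ord (sp P) = 1)
    {E : Divisor Kb (modularFunctionFieldBar N)} (hE : 0 ≤ E)
    (hGmem : ∀ a, G a ∈ riemannRochSpace (dOO N δ - E))
    {h : modularFunctionFieldBar N} (hh : h ≠ 0)
    (hcan : ∀ v : X N, (dOO N δ - E) v = KX0 N v + v.ord h)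
    {A : Divisor Kb (modularFunctionFieldBar N)} (hA : 0 ≤ A) (hell : ℓ A = 1)
    (hdeg : Divisor.degree A = g₀) (hAE : ∀ v : X N, A v ≠ 0 → E v = 0)
    (c : Fin g → Kb)
    (hc : ∀ P : X N, ∀ j : ℕ, (j : ℤ) < A P → ∑ a, c a * evX Φ ix sp G P j a = 0) :
    ∑ a, c a • G a = 0 := by
  have := Fermat.Agent.S18.A.Instances.hasPrincipalDivisors_bar N
  by_contra hu0
  set u : modularFunctionFieldBar N := ∑ a, c a • G a with hu
  have humem : u ∈ riemannRochSpace (dOO N δ - E) :=
    sum_mem fun a _ => Submodule.smul_mem _ _ (hGmem a)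
  -- `u ∈ L(δ∞ - E - A)`
  have h1 : ∀ v : X N, A v ≤ v.ord u + (dOO N δ - E) v := by
    intro v
    have hAv : 0 ≤ A v := by
      have := Finsupp.le_def.mp hA v
      simpa using this
    by_cases hAv0 : A v = 0
    · rw [hAv0]
      have := ((mem_riemannRochSpace_iff.mp humem) v).resolve_left hu0
      omega
    · have hEv := hAE v hAv0
      rw [Finsupp.sub_apply, hEv, sub_zero]
      have key := le_ord_of_conditions (hadm v) (hord v) hE hGmem c hu0 (A v).toNat
        (fun j hj => hc v j (by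
          have := Int.toNat_of_nonneg hAv
          omega))
      rw [Int.toNat_of_nonneg hAv] at key
      exact key
  -- `u h ∈ L(K - A) = 0`
  have h2 := (Fermat.Agent.S17.RR.conditions_of_ell_eq_one (hxN N)
    (Fermat.Agent.S18.A.Instances.isSeparable_jgen N) hR (A := A) (B := 0) hA le_rfl
    (by rw [add_zero]; exact hell) (by rw [add_zero]; exact hdeg)).2.2
  have h3 : u * h ∈ riemannRochSpace (KX0 N - 0 - A) := by
    rw [mem_riemannRochSpace_iff]
    intro v
    right
    rw [Place.ord_mul v hu0 hh, Finsupp.sub_apply, Finsupp.sub_apply, Finsupp.coe_zero,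
      Pi.zero_apply, sub_zero]
    have := h1 v
    have := hcan v
    omega
  have h4 : u * h = 0 := by
    have : u * h ∈ (⊥ : Submodule Kb (modularFunctionFieldBar N)) := by
      rw [← h2]
      exact h3
    exact (Submodule.mem_bot Kb).mp this
  exact (mul_ne_zero hu0 hh) h4

open scoped Classical

/-- the degree of an effective divisor given with natural multiplicities -/
theorem degree_zInt (hdeg1 : ∀ v : X N, v.deg = 1) (D : X N →₀ ℕ) :
    Divisor.degree (zInt D) = ((D.sum fun _ n => n : ℕ) : ℤ) := by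
  rw [Fermat.Agent.S18.A.HurwitzCore.degree_eq_sum_of_deg_one hdeg1]
  have hsupp : (zInt D).support = D.support := by
    ext v
    rw [Finsupp.mem_support_iff, Finsupp.mem_support_iff, zInt_apply]
    exact Int.natCast_ne_zero
  rw [hsupp, Finsupp.sum]
  push_cast
  rfl

theorem zInt_nonneg (D : X N →₀ ℕ) : (0 : Divisor Kb (modularFunctionFieldBar N)) ≤ zInt D := by
  intro v
  show (0 : ℤ) ≤ zInt D v
  rw [zInt_apply]
  exact Int.natCast_nonneg _

/-- the divisor of the conditions, as a divisor of the curve -/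
theorem condDiv_cast (D : X N →₀ ℕ) (B : Finset (X N)) (v : X N) :
    ((condDiv D B v : ℕ) : ℤ) = (zInt D + sumPlaces B) v := by
  rw [Finsupp.add_apply, zInt_apply]
  by_cases hv : v ∈ B
  · rw [condDiv_apply_of_mem hv, sumPlaces_apply_of_mem hv]
    push_cast
    rfl
  · rw [condDiv_apply_of_notMem hv, sumPlaces_apply_of_not_mem hv, add_zero]

/-- **nonvanishing of `Δ(D, B)`** when `l(D + B) = 1`, `deg (D + B) = g`, `D + B` off `supp E` -/
theorem Delta_ne_zero (hR : RiemannHyp Kb (modularFunctionFieldBar N) g)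
    (hadm : ∀ P : X N, Admissible Φ.f P (ix P)) (hord : ∀ P : X N, P.ord (sp P) = 1)
    {E : Divisor Kb (modularFunctionFieldBar N)} (hE : 0 ≤ E)
    (hGmem : ∀ a, G a ∈ riemannRochSpace (dOO N δ - E)) (hGli : LinearIndependent Kb G)
    {h : modularFunctionFieldBar N} (hh : h ≠ 0)
    (hcan : ∀ v : X N, (dOO N δ - E) v = KX0 N v + v.ord h)
    (D : X N →₀ ℕ) (B : Finset (X N)) (hell : ℓ (zInt D + sumPlaces B) = 1)
    (hdeg : Divisor.degree (zInt D + sumPlaces B) = g)
    (hDE : ∀ v : X N, D v ≠ 0 → E v = 0) (hBE : ∀ v ∈ B, E v = 0) :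
    Delta (evX Φ ix sp G) D B ≠ 0 := by
  have hg : (D.sum fun _ n => n) + B.card = g := by
    have h1 := hdeg
    rw [map_add, degree_zInt hR.deg_one, degree_sumPlaces hR.deg_one] at h1
    exact_mod_cast h1
  rw [Delta_ne_zero_iff (evX Φ ix sp G) hg]
  intro c hc
  have hA : (0 : Divisor Kb (modularFunctionFieldBar N)) ≤ zInt D + sumPlaces B :=
    add_nonneg (zInt_nonneg D) (sumPlaces_nonneg B)
  have hsum := sum_eq_zero_of_conditions hR hadm hord hE hGmem hh hcan hA hell hdeg
    (fun v hv => by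
      by_cases hvB : v ∈ B
      · exact hBE v hvB
      · refine hDE v fun h0 => hv ?_
        rw [← condDiv_cast, condDiv_apply_of_notMem hvB, h0]
        rfl)
    c (fun P j hj => hc P j (by
      rw [← condDiv_cast] at hj
      exact_mod_cast hj))
  funext a
  exact Fintype.linearIndependent_iff.mp hGli c hsum a

/-- **the Galois set `XX` is nonempty** (B.9: choice of the complementary points inside `TT`) -/
theorem XX_nonempty (hR : RiemannHyp Kb (modularFunctionFieldBar N) g)
    (hadm : ∀ P : X N, Admissible Φ.f P (ix P)) (hord : ∀ P : X N, P.ord (sp P) = 1)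
    {E : Divisor Kb (modularFunctionFieldBar N)} (hE : 0 ≤ E)
    (hGmem : ∀ a, G a ∈ riemannRochSpace (dOO N δ - E)) (hGli : LinearIndependent Kb G)
    {h : modularFunctionFieldBar N} (hh : h ≠ 0)
    (hcan : ∀ v : X N, (dOO N δ - E) v = KX0 N v + v.ord h)
    (D : X N →₀ ℕ) (hD1 : ℓ (zInt D) = 1) {r : ℕ} (hr : (D.sum fun _ n => n) = r) (hrg : r ≤ g)
    (hDE : ∀ v : X N, D v ≠ 0 → E v = 0) (TT : Finset (X N)) (hTTE : ∀ v ∈ TT, E v = 0)
    (hcard : 2 * g ≤ (TT \ D.support).card + r + 1) :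
    (XX (evX Φ ix sp G) D TT (g - r)).Nonempty := by
  have := Fermat.Agent.S18.A.Instances.hasPrincipalDivisors_bar N
  have hdegD : Divisor.degree (zInt D) = (r : ℤ) := by
    rw [degree_zInt hR.deg_one, hr]
  obtain ⟨S, hST, hScard, hSell, hSdeg⟩ := Fermat.Agent.S17.RR.exists_complement (hxN N)
    (Fermat.Agent.S18.A.Instances.isSeparable_jgen N) hR hD1 hdegD hrg (TT \ D.support) hcard
  refine ⟨S, (mem_XX (evX Φ ix sp G)).mpr ⟨⟨?_, ?_⟩, hScard, ?_⟩⟩
  · exact fun v hv => (Finset.mem_sdiff.mp (hST hv)).1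
  · rw [Finset.disjoint_left]
    exact fun v hvD hvS => (Finset.mem_sdiff.mp (hST hvS)).2 hvD
  · exact Delta_ne_zero hR hadm hord hE hGmem hGli hh hcan D S hSell hSdeg hDE
      (fun v hv => hTTE v (Finset.mem_sdiff.mp (hST hv)).1)

end Nonvanishing

end Fermat.Agent.S17.Pos.DetGlobalX0
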