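import Mathlib
import Fermat.Agent.S17.Pos.DetGlobalHt
import Fermat.Agent.S17.Pos.DetGlobalX0

/-!
# PROJECT H (S17), Part B item B.11-prime for `X₀(N)`: the global determinant inequality

`Pos/DetGlobalHt.prox_le_of_local_det_XX` instantiated in the frame of `Model/Global` with the
conditions `evX` of `Pos/DetGlobalX0`: the only remaining hypothesis is the LOCAL determinant
bound `hloc` (B.10, `Pos/DetLocal`).
-/

set_option autoImplicit false
set_option linter.unusedSectionVars false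

noncomputable section

namespace Fermat.Agent.S17.Pos.DetGlobalMain

open AlgebraicCurve AlgebraicCurve.SemilinearAut ModularCurve
open Fermat.Agent.S18.NonSpecial Fermat.Agent.S17.Model.Lift Fermat.Agent.S17.Model.Embed
open Fermat.Agent.S17.B.Frame Fermat.Agent.S17.Ht Fermat.Agent.S17.Model.Global
open Fermat.Agent.S17.Pos.DetGlobal Fermat.Agent.S17.Pos.DetGlobalHt
open Fermat.Agent.S17.Pos.DetGlobalX0 Fermat.Agent.S17.RR.X0
open scoped Classical

local notation "Kb" => AlgebraicClosure ℚ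
local notation "ℓ" => Fermat.Agent.S18.NonSpecial.ell

variable {N : ℕ} [NeZero N] {δ : ℕ} {Φ : RatFrame N δ} {ix : X N → Fin (Φ.n + 1)}
  {sp : X N → modularFunctionFieldBar N} {g : ℕ} {G : Fin g → modularFunctionFieldBar N}

/-- **B.11-prime for `X₀(N)`**, from the local determinant bounds. -/
theorem prox_le (hch : IsEquivChoice Φ ix sp)
    (hix : ∀ (σ : GQ) (P : X N), ix (gal N σ • P) = ix P)
    (hsp : ∀ (σ : GQ) (P : X N), sp (gal N σ • P) = gal N σ • sp P)
    (hR : RiemannHyp Kb (modularFunctionFieldBar N) g)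
    {E : Divisor Kb (modularFunctionFieldBar N)} (hE : 0 ≤ E)
    (hGfix : ∀ (σ : GQ) (a : Fin g), gal N σ • G a = G a)
    (hGmem : ∀ a, G a ∈ riemannRochSpace (dOO N δ - E)) (hGli : LinearIndependent Kb G)
    {h : modularFunctionFieldBar N} (hh : h ≠ 0)
    (hcan : ∀ v : X N, (dOO N δ - E) v = KX0 N v + v.ord h)
    (D : X N →₀ ℕ) (hDstab : ∀ (σ : GQ) (P : X N), D (gal N σ • P) = D P)
    (hD1 : ℓ (zInt D) = 1) {r : ℕ} (hr : (D.sum fun _ n => n) = r) (hrg : r ≤ g)
    (hDE : Disjoint (zInt D).support E.support)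
    (TT : Finset (X N)) (hTTstab : ∀ (σ : GQ), ∀ T ∈ TT, gal N σ • T ∈ TT)
    (hTTE : ∀ v ∈ TT, E v = 0) (hcard : 2 * g ≤ (TT \ D.support).card + r + 1)
    (K : Finset (X N) → Pl → ℝ) (hK : ∀ B, AZ (K B)) (e : ℕ)
    (hloc : ∀ B ∈ XX (evX Φ ix sp G) D TT (g - r), ∀ v,
      logAbs v (Delta (evX Φ ix sp G) D B) ≤
        K B v - proxLoc (xt Φ ix) (w Φ ix) v (zInt D) + (e : ℝ) * hgtLoc (xt Φ ix) v (zInt D)
          - hDeltaLoc (xt Φ ix) (w Φ ix) v (zInt D) E
          - hDeltaLoc (xt Φ ix) (w Φ ix) v (zInt D) (ptsDiv B)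
          + kap2Loc (xt Φ ix) (tau Φ ix sp) v (zInt D)) :
    prox (xt Φ ix) (w Φ ix) (zInt D) ≤
      ((e : ℝ) * hgt (xt Φ ix) (zInt D) - hDelta (xt Φ ix) (w Φ ix) (zInt D) E)
      - (1 / ((XX (evX Φ ix sp G) D TT (g - r)).card : ℝ)) *
          hDelta (xt Φ ix) (w Φ ix) (zInt D)
            (∑ T ∈ TT, (nT (XX (evX Φ ix sp G) D TT (g - r)) T : ℤ) • Finsupp.single T (1 : ℤ))
      + kap2 (xt Φ ix) (tau Φ ix sp) (zInt D)
      + (1 / ((XX (evX Φ ix sp G) D TT (g - r)).card : ℝ)) *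
          ∑ B ∈ XX (evX Φ ix sp G) D TT (g - r), tot (K B) := by
  letI := actX N
  have hDE' : ∀ v : X N, D v ≠ 0 → E v = 0 := by
    intro v hv
    by_contra hEv
    have hvD : v ∈ (zInt D).support := by
      rw [Finsupp.mem_support_iff, zInt_apply]
      exact_mod_cast hv
    exact Finset.disjoint_left.mp hDE hvD (Finsupp.mem_support_iff.mpr hEv)
  have hne := XX_nonempty hR hch.adm hch.ord_sp hE hGmem hGli hh hcan D hD1 hr hrg hDE' TT hTTE
    hcard
  exact prox_le_of_local_det_XX (xt Φ ix) (w Φ ix) (tau Φ ix sp) (evX Φ ix sp G) (goodData hch)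
    (evX_smul Φ ix sp G hix hsp hch.ord_sp hGfix) (D := D) (fun σ P => hDstab σ P)
    (TT := TT) (fun σ T hT => hTTstab σ T hT) (g - r) hne (zInt D) E (fun P => zInt_apply D P)
    hDE K (fun B _ => hK B) e hloc

end Fermat.Agent.S17.Pos.DetGlobalMain
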