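import Mathlib
import Fermat.Agent.S17.Pos.DetGlobalMain
import Fermat.Agent.S17.Model.ReducedX0

/-!
# PROJECT H (S17), Part B item B.11-prime: hypothesis `h11` of `Pos/Main.lower_bound`

For every rational point `x ∈ Γ = J₀(N)(ℚ)` with reduced divisor `D_x` and every member `E l` of
the fixed family `EE` disjoint from `D_x`, the global determinant inequality
`Pos/DetGlobalMain.prox_le` for `D := D_x`, `TT := ⋃ O i`, with the multiplicity function
`nX := nT XX`, `M := |XX|`, and a constant `C5` which is UNIFORM in `(l, x)` (a sum over the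
finitely many `(l, B ⊆ TT)`).  The local determinant bound enters as the hypothesis `hloc`
(`Pos/DetLocalX0`).
-/

set_option autoImplicit false
set_option linter.unusedSectionVars false

noncomputable section

namespace Fermat.Agent.S17.Pos.H11

open AlgebraicCurve AlgebraicCurve.SemilinearAut ModularCurve
open Fermat.Agent.S18.NonSpecial Fermat.Agent.S17.Model.Lift Fermat.Agent.S17.Model.Embed
open Fermat.Agent.S17.B.Frame Fermat.Agent.S17.Ht Fermat.Agent.S17.Model.Global
open Fermat.Agent.S17.Pos.DetGlobal Fermat.Agent.S17.Pos.DetGlobalHt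
open Fermat.Agent.S17.Pos.DetGlobalX0 Fermat.Agent.S17.RR.X0
open Fermat.Agent.S17.Model.ReducedX0 (Gam Dx rx)
open scoped Classical Pointwise

local notation "Kb" => AlgebraicClosure ℚ
local notation "ℓ" => Fermat.Agent.S18.NonSpecial.ell
local notation "ooN" => Fermat.Agent.S17.Model.ReducedX0.oo

variable {N : ℕ} [NeZero N] {δ : ℕ} {Φ : RatFrame N δ} {ix : X N → Fin (Φ.n + 1)}
  {sp : X N → modularFunctionFieldBar N} {g : ℕ}

/-- the natural-number version of an effective divisor -/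
def toNatDiv (D : X N →₀ ℤ) : X N →₀ ℕ := D.mapRange Int.toNat Int.toNat_zero

theorem zInt_toNatDiv {D : X N →₀ ℤ} (hD : 0 ≤ D) : zInt (toNatDiv D) = D := by
  ext P
  rw [zInt_apply]
  show ((Int.toNat (D P) : ℕ) : ℤ) = D P
  have h0 : 0 ≤ D P := by
    have := Finsupp.le_def.mp hD P
    simpa using this
  exact Int.toNat_of_nonneg h0

theorem toNatDiv_apply (D : X N →₀ ℤ) (P : X N) : toNatDiv D P = (D P).toNat := rfl

theorem support_toNatDiv {D : X N →₀ ℤ} (hD : 0 ≤ D) : (toNatDiv D).support = D.support := by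
  ext P
  have h0 : 0 ≤ D P := by
    have := Finsupp.le_def.mp hD P
    simpa using this
  rw [Finsupp.mem_support_iff, Finsupp.mem_support_iff, toNatDiv_apply]
  omega

/-- **`h11`**: the global determinant inequality for every `D_x`, with a uniform constant. -/
theorem h11 (hR : RiemannHyp Kb (modularFunctionFieldBar N) g) (hch : IsEquivChoice Φ ix sp)
    (hix : ∀ (σ : GQ) (P : X N), ix (gal N σ • P) = ix P)
    (hsp : ∀ (σ : GQ) (P : X N), sp (gal N σ • P) = gal N σ • sp P)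
    -- the fixed data (B.8)
    (E : Fin (g + 1) → X N →₀ ℕ) (G : Fin (g + 1) → Fin g → modularFunctionFieldBar N)
    (hGfix : ∀ (l : Fin (g + 1)) (σ : GQ) (a : Fin g), gal N σ • G l a = G l a)
    (hGmem : ∀ l a, G l a ∈ riemannRochSpace (dOO N δ - zInt (E l)))
    (hGli : ∀ l, LinearIndependent Kb (G l))
    (h : Fin (g + 1) → modularFunctionFieldBar N) (hh : ∀ l, h l ≠ 0)
    (hcan : ∀ l (v : X N), (dOO N δ - zInt (E l)) v = KX0 N v + v.ord (h l))
    {I : Type} [Fintype I] (O : I → Finset (X N))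
    (hOdisj : ∀ i i', i ≠ i' → Disjoint (O i) (O i'))
    (hOst : ∀ (σ : GQ) (i : I), ∀ T ∈ O i, gal N σ • T ∈ O i)
    (hOE : ∀ l i, ∀ T ∈ O i, E l T = 0)
    (hOcard : ∀ (S : Finset (X N)) (r : ℕ), S.card ≤ r →
      2 * g ≤ ((Finset.univ.biUnion O) \ S).card + r + 1)
    -- the local determinant bound (B.10)
    (K : Fin (g + 1) → Finset (X N) → Pl → ℝ) (hK : ∀ l B, AZ (K l B))
    (hloc : ∀ (l : Fin (g + 1)) (D : X N →₀ ℕ),
      Disjoint (zInt D).support (zInt (E l)).support → ∀ (n : ℕ),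
      ∀ B ∈ XX (evX Φ ix sp (G l)) D (Finset.univ.biUnion O) n, ∀ v,
        logAbs v (Delta (evX Φ ix sp (G l)) D B) ≤
          K l B v - proxLoc (xt Φ ix) (w Φ ix) v (zInt D)
            + ((1 : ℕ) : ℝ) * hgtLoc (xt Φ ix) v (zInt D)
            - hDeltaLoc (xt Φ ix) (w Φ ix) v (zInt D) (zInt (E l))
            - hDeltaLoc (xt Φ ix) (w Φ ix) v (zInt D) (ptsDiv B)
            + kap2Loc (xt Φ ix) (tau Φ ix sp) v (zInt D)) :
    ∃ C5 : ℝ, ∀ (l : Fin (g + 1)) (x : Gam N),
      Disjoint (Dx hR (x : JZero N)).support (E l).support →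
      ∃ (nX : X N → ℕ) (M : ℕ), 0 < M ∧ (∀ i, ∀ T ∈ O i, nX T ≤ M) ∧
        (∀ (σ : GQ) (T : X N), nX (gal N σ • T) = nX T) ∧
        (∀ T ∈ (Dx hR (x : JZero N)).support, nX T = 0) ∧
        (∑ i, ∑ T ∈ O i, (nX T : ℝ) = (M : ℝ) * ((g : ℝ) - ((rx hR (x : JZero N) : ℤ) : ℝ))) ∧
        prox (xt Φ ix) (w Φ ix) (Dx hR (x : JZero N))
          ≤ (((1 : ℕ) : ℝ) * hgt (xt Φ ix) (Dx hR (x : JZero N))
              - hDelta (xt Φ ix) (w Φ ix) (Dx hR (x : JZero N)) (zInt (E l)))
            - (1 / (M : ℝ)) * hDelta (xt Φ ix) (w Φ ix) (Dx hR (x : JZero N))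
                (∑ i, ∑ T ∈ O i, (nX T : ℤ) • (Finsupp.single T 1 : X N →₀ ℤ))
            + kap2 (xt Φ ix) (tau Φ ix sp) (Dx hR (x : JZero N)) + C5 := by
  letI := actX N
  set TT : Finset (X N) := Finset.univ.biUnion O with hTT
  have hTTstab : ∀ (σ : GQ), ∀ T ∈ TT, gal N σ • T ∈ TT := by
    intro σ T hT
    obtain ⟨i, _, hi⟩ := Finset.mem_biUnion.mp hT
    exact Finset.mem_biUnion.mpr ⟨i, Finset.mem_univ i, hOst σ i T hi⟩
  have hsumO : ∀ {M : Type} [AddCommMonoid M] (f : X N → M),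
      ∑ T ∈ TT, f T = ∑ i, ∑ T ∈ O i, f T := by
    intro M _ f
    exact Finset.sum_biUnion fun i _ i' _ hii' => hOdisj i i' hii'
  refine ⟨∑ l : Fin (g + 1), ∑ B ∈ TT.powerset, |tot (K l B)|, fun l x hdisj => ?_⟩
  -- the divisor `D_x`
  set Dz : X N →₀ ℤ := Dx hR (x : JZero N) with hDz
  have hDz0 : 0 ≤ Dz := Fermat.Agent.S17.Model.ReducedX0.Dx_nonneg hR (x : JZero N)
  set D : X N →₀ ℕ := toNatDiv Dz with hD
  have hzD : zInt D = Dz := zInt_toNatDiv hDz0
  have hsuppD : D.support = Dz.support := support_toNatDiv hDz0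
  have hDstab : ∀ (σ : GQ) (P : X N), D (gal N σ • P) = D P := by
    intro σ P
    rw [hD, toNatDiv_apply, toNatDiv_apply]
    congr 1
    exact Fermat.Agent.S17.Model.ReducedX0.Dx_galAut_smul_apply hR x.2 σ P
  have hD1 : ℓ (zInt D) = 1 := by
    rw [hzD]
    exact Fermat.Agent.S17.Model.ReducedX0.ell_Dx hR (x : JZero N)
  set r : ℕ := rx hR (x : JZero N) with hr
  have hrsum : (D.sum fun _ n => n) = r := by
    have h1 := degree_zInt hR.deg_one D
    rw [hzD, Fermat.Agent.S17.Model.ReducedX0.degree_Dx hR (x : JZero N)] at h1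
    exact_mod_cast h1.symm
  have hrg : r ≤ g := Fermat.Agent.S17.Model.ReducedX0.rx_le hR (x : JZero N)
  have hE0 : (0 : Divisor Kb (modularFunctionFieldBar N)) ≤ zInt (E l) := zInt_nonneg (E l)
  have hsuppE : (zInt (E l)).support = (E l).support := by
    ext v
    rw [Finsupp.mem_support_iff, Finsupp.mem_support_iff, zInt_apply]
    exact Int.natCast_ne_zero
  have hDE : Disjoint (zInt D).support (zInt (E l)).support := by
    rw [hzD, hsuppE]
    exact hdisj
  have hTTE : ∀ v ∈ TT, zInt (E l) v = 0 := by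
    intro v hv
    obtain ⟨i, _, hi⟩ := Finset.mem_biUnion.mp hv
    rw [zInt_apply, hOE l i v hi]
    rfl
  have hcardS : D.support.card ≤ r := by
    rw [← hrsum, Finsupp.sum, Finset.card_eq_sum_ones]
    refine Finset.sum_le_sum fun v hv => ?_
    exact Nat.one_le_iff_ne_zero.mpr (Finsupp.mem_support_iff.mp hv)
  have hcard : 2 * g ≤ (TT \ D.support).card + r + 1 := hOcard D.support r hcardS
  have hDE' : ∀ v : X N, D v ≠ 0 → zInt (E l) v = 0 := by
    intro v hv
    by_contra hEv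
    have hvD : v ∈ (zInt D).support := by
      rw [Finsupp.mem_support_iff, zInt_apply]
      exact_mod_cast hv
    exact Finset.disjoint_left.mp hDE hvD (Finsupp.mem_support_iff.mpr hEv)
  -- the Galois set
  set S : Finset (Finset (X N)) := XX (evX Φ ix sp (G l)) D TT (g - r) with hS
  have hne : S.Nonempty := XX_nonempty hR hch.adm hch.ord_sp hE0 (hGmem l) (hGli l) (hh l)
    (hcan l) D hD1 hrsum hrg hDE' TT hTTE hcard
  have hev := evX_smul Φ ix sp (G l) hix hsp hch.ord_sp (hGfix l)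
  have hSstab : ∀ (σ : GQ), ∀ B ∈ S, σ • B ∈ S := fun σ B hB =>
    smul_mem_XX (evX Φ ix sp (G l)) hev (D := D) (fun σ P => hDstab σ P)
      (TT := TT) (fun σ T hT => hTTstab σ T hT) σ hB
  have hST : ∀ B ∈ S, B ⊆ TT := fun B hB => ((mem_XX _).mp hB).1.1
  have hSD : ∀ B ∈ S, Disjoint D.support B := fun B hB => ((mem_XX _).mp hB).1.2
  have hScard : ∀ B ∈ S, B.card = g - r := fun B hB => ((mem_XX _).mp hB).2.1
  have key := DetGlobalMain.prox_le hch hix hsp hR hE0 (hGfix l) (hGmem l) (hGli l) (hh l)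
    (hcan l) D hDstab hD1 hrsum hrg hDE TT hTTstab hTTE hcard (K l) (hK l) 1
    (hloc l D hDE (g - r))
  rw [hzD] at key
  refine ⟨nT S, S.card, Finset.card_pos.mpr hne, fun i T _ => nT_le S T,
    fun σ T => nT_smul S hSstab σ T, ?_, ?_, ?_⟩
  · intro T hT
    unfold nT
    rw [Finset.card_eq_zero, Finset.filter_eq_empty_iff]
    intro B hB hTB
    rw [← hsuppD] at hT
    exact Finset.disjoint_left.mp (hSD B hB) hT hTB
  · have h1 := sum_nT S TT hST hScard
    rw [hsumO] at h1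
    have h2 : ((∑ i, ∑ T ∈ O i, nT S T : ℕ) : ℝ) = ((S.card * (g - r) : ℕ) : ℝ) := by
      rw [h1]
    push_cast [Nat.cast_sub hrg] at h2
    rw [h2]
    simp
  · rw [hsumO] at key
    have hC : (1 / (S.card : ℝ)) * ∑ B ∈ S, tot (K l B)
        ≤ ∑ l : Fin (g + 1), ∑ B ∈ TT.powerset, |tot (K l B)| := by
      have hm : (0 : ℝ) < (S.card : ℝ) := by exact_mod_cast Finset.card_pos.mpr hne
      have hb : ∀ B ∈ S, tot (K l B) ≤ ∑ l : Fin (g + 1), ∑ B ∈ TT.powerset, |tot (K l B)| := by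
        intro B hB
        have hBp : B ∈ TT.powerset := Finset.mem_powerset.mpr (hST B hB)
        calc tot (K l B) ≤ |tot (K l B)| := le_abs_self _
          _ ≤ ∑ B ∈ TT.powerset, |tot (K l B)| :=
            Finset.single_le_sum (f := fun B => |tot (K l B)|) (fun _ _ => abs_nonneg _) hBp
          _ ≤ ∑ l : Fin (g + 1), ∑ B ∈ TT.powerset, |tot (K l B)| :=
            Finset.single_le_sum (f := fun l => ∑ B ∈ TT.powerset, |tot (K l B)|)
              (fun _ _ => Finset.sum_nonneg fun _ _ => abs_nonneg _) (Finset.mem_univ l)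
      have h3 := Finset.sum_le_sum hb
      rw [Finset.sum_const, nsmul_eq_mul] at h3
      rw [one_div, inv_mul_le_iff₀ hm]
      exact h3
    linarith

end Fermat.Agent.S17.Pos.H11
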