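/-
PROJECT H (S17), Part B item B.11-prime in its final form (helper4): hypothesis `h11` of
`Pos/Main.lower_bound` (= conclusion of `Pos/H11.h11`, helper22), with the local determinant bound
`(K, hK, hloc)` of `Pos/H11.h11` discharged by `Pos/DetLocalX0` (`KlocX0`, `az_KlocX0`,
`hloc_X0`).  The only analytic input left is the upper half of the hand-over hypothesis `(A*)`
for ALL nonzero `ℚ̄`-forms.
-/
import Fermat.Agent.S17.Pos.H11
import Fermat.Agent.S17.Pos.DetLocalX0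

set_option autoImplicit false
set_option linter.unusedSectionVars false

noncomputable section

namespace Fermat.Agent.S17.Pos.H11X0

open AlgebraicCurve AlgebraicCurve.SemilinearAut ModularCurve
open Fermat.Agent.S18.NonSpecial Fermat.Agent.S17.Model.Lift Fermat.Agent.S17.Model.Embed
open Fermat.Agent.S17.B.Frame Fermat.Agent.S17.Ht Fermat.Agent.S17.Model.Global
open Fermat.Agent.S17.Pos.DetGlobal Fermat.Agent.S17.Pos.DetGlobalHt
open Fermat.Agent.S17.Pos.DetGlobalX0 Fermat.Agent.S17.Pos.DetLocalX0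
open Fermat.Agent.S17.Model.ReducedX0 (Gam Dx rx)
open scoped Classical

local notation "Kb" => AlgebraicClosure ℚ

variable {N : ℕ} [NeZero N] {δ : ℕ} {Φ : RatFrame N δ} {ix : X N → Fin (Φ.n + 1)}
  {sp : X N → modularFunctionFieldBar N} {g : ℕ}

/-- **B.11-prime for `X₀(N)` from `(A*)`** = hypothesis `h11` of `Pos/Main.lower_bound`. -/
theorem h11_X0 (hR : RiemannHyp Kb (modularFunctionFieldBar N) g)
    (hch : IsEquivChoice Φ ix sp) (hg : 0 < g)
    (hix : ∀ (σ : GQ) (P : X N), ix (gal N σ • P) = ix P)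
    (hsp : ∀ (σ : GQ) (P : X N), sp (gal N σ • P) = gal N σ • sp P)
    {gam : Pl → ℝ} (hgam : AZ gam)
    (hA : ∀ a : Fin (Φ.n + 1) → Qbar, a ≠ 0 → ∀ v P,
      starDefect (xt Φ ix) (w Φ ix) (tau Φ ix sp) 1 a (Zdiv Φ a) (lcG Φ ix sp a) v P ≤ gam v)
    -- the fixed data (B.8)
    (E : Fin (g + 1) → X N →₀ ℕ) (G : Fin (g + 1) → Fin g → modularFunctionFieldBar N)
    (hGfix : ∀ (l : Fin (g + 1)) (σ : GQ) (a : Fin g), gal N σ • G l a = G l a)
    (hGmem : ∀ l a, G l a ∈ riemannRochSpace (dOO N δ - zInt (E l)))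
    (hGli : ∀ l, LinearIndependent Kb (G l))
    (h : Fin (g + 1) → modularFunctionFieldBar N) (hh : ∀ l, h l ≠ 0)
    (hcan : ∀ l (v : X N),
      (dOO N δ - zInt (E l)) v = Fermat.Agent.S17.RR.X0.KX0 N v + v.ord (h l))
    {I : Type} [Fintype I] (O : I → Finset (X N))
    (hOdisj : ∀ i i', i ≠ i' → Disjoint (O i) (O i'))
    (hOst : ∀ (σ : GQ) (i : I), ∀ T ∈ O i, gal N σ • T ∈ O i)
    (hOE : ∀ l i, ∀ T ∈ O i, E l T = 0)
    (hOcard : ∀ (S : Finset (X N)) (r : ℕ), S.card ≤ r →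
      2 * g ≤ ((Finset.univ.biUnion O) \ S).card + r + 1) :
    ∃ C5 : ℝ, ∀ (l : Fin (g + 1)) (x : Gam N),
      Disjoint (Dx hR (x : JZero N)).support (E l).support →
      ∃ (nX : X N → ℕ) (M : ℕ), 0 < M ∧ (∀ i, ∀ T ∈ O i, nX T ≤ M) ∧
        (∀ (σ : GQ) (T : X N), nX (gal N σ • T) = nX T) ∧
        (∀ T ∈ (Dx hR (x : JZero N)).support, nX T = 0) ∧
        (∑ i, ∑ T ∈ O i, (nX T : ℝ) = (M : ℝ) * ((g : ℝ) - ((rx hR (x : JZero N) : ℤ) : ℝ))) ∧
        prox (xt Φ ix) (w Φ ix) (Dx hR (x : JZero N))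
          ≤ (((1 : ℕ) : ℝ) * hgt (xt Φ ix) (Dx hR (x : JZero N))
              - hDelta (xt Φ ix) (w Φ ix) (Dx hR (x : JZero N)) (zInt (E l)))
            - (1 / (M : ℝ)) * hDelta (xt Φ ix) (w Φ ix) (Dx hR (x : JZero N))
                (∑ i, ∑ T ∈ O i, (nX T : ℤ) • (Finsupp.single T 1 : X N →₀ ℤ))
            + kap2 (xt Φ ix) (tau Φ ix sp) (Dx hR (x : JZero N)) + C5 := by
  have hTTE : ∀ (l : Fin (g + 1)), ∀ v ∈ Finset.univ.biUnion O, zInt (E l) v = 0 := by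
    intro l v hv
    obtain ⟨i, -, hvi⟩ := Finset.mem_biUnion.mp hv
    rw [zInt_apply, hOE l i v hvi]
    rfl
  exact Fermat.Agent.S17.Pos.H11.h11 hR hch hix hsp E G hGfix hGmem hGli h hh hcan O hOdisj hOst
    hOE hOcard (fun l => KlocX0 Φ ix sp (G l) (zInt (E l)) gam)
    (fun l B => az_KlocX0 hch (zInt (E l)) hgam B)
    (fun l D hDE n => hloc_X0 hch hg (zInt_nonneg (E l)) (hGmem l) hA D hDE
      (Finset.univ.biUnion O) (hTTE l) n)

end Fermat.Agent.S17.Pos.H11X0
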