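import Mathlib

/-!
# PROJECT H (S17), Part B, B.14 (5b): the layer-cake regrouping

`Bt = ∑_T n_T • T` with `n` constant on Galois orbits is a sum of at most `M · |I|` divisors
`∑_{T ∈ W} T`, `W = {T ∈ O_i | k < n_T}`; each `W` is again Galois stable when the fibres `O_i` and
`n` are.  For an additive functional `F` (`= h_Δ(D, ·)`) with the lower bounds
`(|W| - ε) N - C ≤ F(W)` this gives `(∑ n_T) N - M |I| (ε N + C) ≤ F(Bt)`.

No group action occurs in this file: stability of the pieces is a side condition of the consumer.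
-/

set_option autoImplicit false

namespace Fermat.Agent.S17.Pos.Layers

open Finsupp

variable {X : Type*}

/-- the divisor `∑_{T ∈ W} T` -/
noncomputable def pts (W : Finset X) : X →₀ ℤ := ∑ T ∈ W, single T 1

theorem pts_empty : pts (∅ : Finset X) = 0 := by
  unfold pts
  exact Finset.sum_empty

/-- the layer `{T ∈ O | k < n_T}` -/
def layer (O : Finset X) (nX : X → ℕ) (k : ℕ) : Finset X := O.filter fun T => k < nX T

theorem layer_subset (O : Finset X) (nX : X → ℕ) (k : ℕ) : layer O nX k ⊆ O :=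
  Finset.filter_subset _ _

theorem mem_layer {O : Finset X} {nX : X → ℕ} {k : ℕ} {T : X} :
    T ∈ layer O nX k ↔ T ∈ O ∧ k < nX T := by
  unfold layer
  rw [Finset.mem_filter]

/-- **layer cake**: `∑_{T ∈ O} n_T • T = ∑_{k < M} ∑_{T ∈ O, k < n_T} T` when `n ≤ M` on `O` -/
theorem sum_nsmul_single_eq_sum_layers (O : Finset X) (nX : X → ℕ) (M : ℕ)
    (hM : ∀ T ∈ O, nX T ≤ M) :
    ∑ T ∈ O, (nX T : ℤ) • (single T 1 : X →₀ ℤ) = ∑ k ∈ Finset.range M, pts (layer O nX k) := by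
  unfold pts layer
  have h1 : ∀ k ∈ Finset.range M, ∑ T ∈ O.filter (fun T => k < nX T), (single T 1 : X →₀ ℤ)
      = ∑ T ∈ O, if k < nX T then (single T 1 : X →₀ ℤ) else 0 := by
    intro k _
    rw [Finset.sum_filter]
  rw [Finset.sum_congr rfl h1, Finset.sum_comm]
  refine Finset.sum_congr rfl fun T hT => ?_
  rw [← Finset.sum_filter, Finset.sum_const, ← natCast_zsmul]
  congr 2
  have : (Finset.range M).filter (fun k => k < nX T) = Finset.range (nX T) := by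
    ext k
    rw [Finset.mem_filter, Finset.mem_range, Finset.mem_range]
    exact ⟨fun h => h.2, fun h => ⟨lt_of_lt_of_le h (hM T hT), h⟩⟩
  rw [this, Finset.card_range]

/-- the number of points of all layers is `∑ n_T` -/
theorem sum_card_layers (O : Finset X) (nX : X → ℕ) (M : ℕ) (hM : ∀ T ∈ O, nX T ≤ M) :
    ∑ k ∈ Finset.range M, ((layer O nX k).card : ℝ) = ∑ T ∈ O, (nX T : ℝ) := by
  unfold layer
  have h1 : ∀ k ∈ Finset.range M, (((O.filter fun T => k < nX T).card : ℕ) : ℝ)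
      = ∑ T ∈ O, if k < nX T then (1 : ℝ) else 0 := by
    intro k _
    rw [Finset.card_filter]
    push_cast
    rfl
  rw [Finset.sum_congr rfl h1, Finset.sum_comm]
  refine Finset.sum_congr rfl fun T hT => ?_
  rw [← Finset.sum_filter, Finset.sum_const, nsmul_eq_mul, mul_one]
  have : (Finset.range M).filter (fun k => k < nX T) = Finset.range (nX T) := by
    ext k
    rw [Finset.mem_filter, Finset.mem_range, Finset.mem_range]
    exact ⟨fun h => h.2, fun h => ⟨lt_of_lt_of_le h (hM T hT), h⟩⟩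
  rw [this, Finset.card_range]

/-- an additive functional commutes with finite sums -/
theorem map_sum_of_add (F : (X →₀ ℤ) → ℝ) (hF0 : F 0 = 0) (hFadd : ∀ A B, F (A + B) = F A + F B)
    {J : Type*} (s : Finset J) (A : J → X →₀ ℤ) : F (∑ j ∈ s, A j) = ∑ j ∈ s, F (A j) := by
  classical
  induction s using Finset.induction_on with
  | empty => rw [Finset.sum_empty, Finset.sum_empty, hF0]
  | insert j s hj ih => rw [Finset.sum_insert hj, Finset.sum_insert hj, hFadd, ih]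

/-- **one fibre**: lower bound for `F(∑_{T ∈ O} n_T • T)` from the lower bounds on the layers -/
theorem ge_of_layers (O : Finset X) (nX : X → ℕ) (M : ℕ) (hM : ∀ T ∈ O, nX T ≤ M)
    (F : (X →₀ ℤ) → ℝ) (hF0 : F 0 = 0) (hFadd : ∀ A B, F (A + B) = F A + F B)
    {ε Nn Cmax : ℝ} (hN : 0 ≤ Nn) (hε : 0 ≤ ε) (hC : 0 ≤ Cmax)
    (hpiece : ∀ k < M, (layer O nX k).Nonempty →
      (((layer O nX k).card : ℝ) - ε) * Nn - Cmax ≤ F (pts (layer O nX k))) :
    (∑ T ∈ O, (nX T : ℝ)) * Nn - (M : ℝ) * (ε * Nn + Cmax)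
      ≤ F (∑ T ∈ O, (nX T : ℤ) • (single T 1 : X →₀ ℤ)) := by
  rw [sum_nsmul_single_eq_sum_layers O nX M hM, map_sum_of_add F hF0 hFadd,
    ← sum_card_layers O nX M hM]
  have h1 : ∀ k ∈ Finset.range M,
      (((layer O nX k).card : ℝ) - ε) * Nn - Cmax ≤ F (pts (layer O nX k)) := by
    intro k hk
    rcases (layer O nX k).eq_empty_or_nonempty with h0 | hne
    · rw [h0, pts_empty, hF0, Finset.card_empty, Nat.cast_zero]
      nlinarith [mul_nonneg hε hN]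
    · exact hpiece k (Finset.mem_range.mp hk) hne
  have h2 := Finset.sum_le_sum h1
  have h3 : ∑ k ∈ Finset.range M, ((((layer O nX k).card : ℝ) - ε) * Nn - Cmax)
      = (∑ k ∈ Finset.range M, ((layer O nX k).card : ℝ)) * Nn - (M : ℝ) * (ε * Nn + Cmax) := by
    rw [Finset.sum_sub_distrib, Finset.sum_const, Finset.card_range, nsmul_eq_mul]
    have : ∑ k ∈ Finset.range M, (((layer O nX k).card : ℝ) - ε) * Nn
        = (∑ k ∈ Finset.range M, ((layer O nX k).card : ℝ)) * Nn - (M : ℝ) * (ε * Nn) := by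
      rw [Finset.sum_mul]
      simp only [sub_mul]
      rw [Finset.sum_sub_distrib, Finset.sum_const, Finset.card_range, nsmul_eq_mul]
    rw [this]
    ring
  linarith [h2, h3.le, h3.ge]

/-- **all fibres**: `TT = ⨆ O_i`; lower bound for `F(∑_i ∑_{T ∈ O_i} n_T • T)` -/
theorem ge_of_fibre_layers {I : Type*} (s : Finset I) (O : I → Finset X) (nX : X → ℕ) (M : ℕ)
    (hM : ∀ i ∈ s, ∀ T ∈ O i, nX T ≤ M)
    (F : (X →₀ ℤ) → ℝ) (hF0 : F 0 = 0) (hFadd : ∀ A B, F (A + B) = F A + F B)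
    {ε Nn Cmax : ℝ} (hN : 0 ≤ Nn) (hε : 0 ≤ ε) (hC : 0 ≤ Cmax)
    (hpiece : ∀ i ∈ s, ∀ k < M, (layer (O i) nX k).Nonempty →
      (((layer (O i) nX k).card : ℝ) - ε) * Nn - Cmax ≤ F (pts (layer (O i) nX k))) :
    (∑ i ∈ s, ∑ T ∈ O i, (nX T : ℝ)) * Nn - (M : ℝ) * (s.card : ℝ) * (ε * Nn + Cmax)
      ≤ F (∑ i ∈ s, ∑ T ∈ O i, (nX T : ℤ) • (single T 1 : X →₀ ℤ)) := by
  rw [map_sum_of_add F hF0 hFadd]
  have h1 : ∀ i ∈ s, (∑ T ∈ O i, (nX T : ℝ)) * Nn - (M : ℝ) * (ε * Nn + Cmax)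
      ≤ F (∑ T ∈ O i, (nX T : ℤ) • (single T 1 : X →₀ ℤ)) := fun i hi =>
    ge_of_layers (O i) nX M (hM i hi) F hF0 hFadd hN hε hC (hpiece i hi)
  have h2 := Finset.sum_le_sum h1
  have h3 : ∑ i ∈ s, ((∑ T ∈ O i, (nX T : ℝ)) * Nn - (M : ℝ) * (ε * Nn + Cmax))
      = (∑ i ∈ s, ∑ T ∈ O i, (nX T : ℝ)) * Nn - (M : ℝ) * (s.card : ℝ) * (ε * Nn + Cmax) := by
    rw [Finset.sum_sub_distrib, Finset.sum_const, nsmul_eq_mul, Finset.sum_mul]
    ring
  linarith [h2, h3.le, h3.ge]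

/-- **(5b) in the shape of `h13b`**: with `∑ n_T = m (g - r)`, `n ≤ M = m`, `ε |I| ≤ 1/3`:
`(g - r - 1/3) N - |I| C ≤ (1/m) F(Bt)`. -/
theorem inv_mul_ge_of_fibre_layers {I : Type*} (s : Finset I) (O : I → Finset X) (nX : X → ℕ)
    (M : ℕ) (hM0 : 0 < M) (hM : ∀ i ∈ s, ∀ T ∈ O i, nX T ≤ M)
    (F : (X →₀ ℤ) → ℝ) (hF0 : F 0 = 0) (hFadd : ∀ A B, F (A + B) = F A + F B)
    {ε Nn Cmax n : ℝ} (hN : 0 ≤ Nn) (hε : 0 ≤ ε) (hC : 0 ≤ Cmax)
    (hεs : ε * (s.card : ℝ) ≤ 1 / 3)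
    (hsum : ∑ i ∈ s, ∑ T ∈ O i, (nX T : ℝ) = (M : ℝ) * n)
    (hpiece : ∀ i ∈ s, ∀ k < M, (layer (O i) nX k).Nonempty →
      (((layer (O i) nX k).card : ℝ) - ε) * Nn - Cmax ≤ F (pts (layer (O i) nX k))) :
    (n - 1 / 3) * Nn - (s.card : ℝ) * Cmax
      ≤ (1 / (M : ℝ)) * F (∑ i ∈ s, ∑ T ∈ O i, (nX T : ℤ) • (single T 1 : X →₀ ℤ)) := by
  have h := ge_of_fibre_layers s O nX M hM F hF0 hFadd hN hε hC hpiece
  rw [hsum] at h
  have hMpos : (0 : ℝ) < (M : ℝ) := by exact_mod_cast hM0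
  rw [show (1 / (M : ℝ)) * F (∑ i ∈ s, ∑ T ∈ O i, (nX T : ℤ) • (single T 1 : X →₀ ℤ))
      = F (∑ i ∈ s, ∑ T ∈ O i, (nX T : ℤ) • (single T 1 : X →₀ ℤ)) / (M : ℝ) from by ring,
    le_div_iff₀ hMpos]
  have h5 : ε * (s.card : ℝ) * Nn ≤ 1 / 3 * Nn := mul_le_mul_of_nonneg_right hεs hN
  nlinarith [h, h5, hMpos]

end Fermat.Agent.S17.Pos.Layers
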