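import Mathlib
import Fermat.Agent.S17.Model.FrameSection
import Fermat.Agent.S17.Ht.PositivityB
import Fermat.Agent.S17.Pos.Layers

/-!
# PROJECT H (S17), Part B: the literal inputs of `Pos/Main` (B.14)

Frame: `Φ : RatFrame N δ`, choices `ix`, `sp`, `b := bGlob (xt Φ ix) (w Φ ix) (tau Φ ix sp) δ`,
`PP := stableDiv (HX0 N)`, `∞ := ReducedX0.oo N`.

* `DZ` : the conclusion of `FrameSection.degZero_X0` (B.13′ on `X₀(N)`), as a `Prop`;
* `HOO` : `|B(D, ∞)| ≤ C_∞ deg D` for stable effective `D`; `hoo_X0` proves it from (A*);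
* `pts_mem_stableDiv` : the divisor of a Galois stable finite set of places is stable.
-/

set_option autoImplicit false
set_option linter.unusedSectionVars false

noncomputable section

namespace Fermat.Agent.S17.Pos.Inputs

open AlgebraicCurve AlgebraicCurve.SemilinearAut ModularCurve
open Fermat.Agent.S18.NonSpecial Fermat.Agent.S17.Model.Lift Fermat.Agent.S17.Model.Embed
open Fermat.Agent.S17.Dict.QStructure Fermat.Agent.S17.B.Frame Fermat.Agent.S17.Ht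
open Fermat.Agent.S17.Abs.PairQuad Fermat.Agent.S17.Model.Global
open Fermat.Agent.S17.Model.Reciprocity Fermat.Agent.S17.Model.Parallelogram
open Fermat.Agent.S17.Model.FrameGamma Fermat.Agent.S17.Model.FrameBridge
open Fermat.Agent.S17.Model.FrameSection
open Fermat.Agent.S17.Model.ReducedX0 (Gam Dx rx)

local notation "Kb" => AlgebraicClosure ℚ
local notation "ooN" => Fermat.Agent.S17.Model.ReducedX0.oo

variable {N : ℕ} [NeZero N] {δ : ℕ} (Φ : RatFrame N δ)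
variable (ix : X N → Fin (Φ.n + 1)) (sp : X N → modularFunctionFieldBar N)
variable {g : ℕ} (hR : RiemannHyp Kb (modularFunctionFieldBar N) g)

open scoped Classical

/-- **B.13′ on `X₀(N)`**, the conclusion of `FrameSection.degZero_X0` -/
def DZ : Prop :=
  ∀ (y : Gam N) (l : List (X N →₀ ℤ)),
    (∀ E ∈ l, E ∈ EE (HX0 N) (3 * g) ∨ -E ∈ EE (HX0 N) (3 * g)) →
    ∀ E0 : X N →₀ ℤ, E0 = rhoX0 hR y + l.sum → ∀ ε : ℝ, 0 < ε →
      ∃ C1 : ℝ, ∀ D ∈ stableDiv (HX0 N), 0 ≤ D → degR D ≤ g → D (ooN N) = 0 →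
        ∀ r : ℤ, (r : ℝ) = degR D →
          |Bil (bGlob (xt Φ ix) (w Φ ix) (tau Φ ix sp) δ) (D - Finsupp.single (ooN N) r) E0|
            ≤ ε * Nht (xt Φ ix) δ D + C1

/-- `|B(D, ∞)| ≤ C_∞ deg D` for stable effective `D` -/
def HOO (Coo : ℝ) : Prop :=
  ∀ D ∈ stableDiv (HX0 N), 0 ≤ D →
    |Bil (bGlob (xt Φ ix) (w Φ ix) (tau Φ ix sp) δ) D (Finsupp.single (ooN N) 1)| ≤ Coo * degR D

variable {Φ ix sp}

/-- `DZ` from (A*) and the two elementary bounds -/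
theorem dz_of_starDefect (hch : IsEquivChoice Φ ix sp) (hδ : 4 * g ≤ δ) (hδ0 : 0 < δ)
    {gam : Pl → ℝ} (hgam : AZ gam)
    (hA : ∀ a : Fin (Φ.n + 1) → Qbar, a ≠ 0 → IsRat Φ a → ∀ v P,
      |starDefect (xt Φ ix) (w Φ ix) (tau Φ ix sp) 1 a (Zdiv Φ a) (lcG Φ ix sp a) v P| ≤ gam v)
    (hlam : ∀ P R : X N, P ≠ R → -Real.log 2 ≤ lamG (xt Φ ix) (w Φ ix) P R)
    (hh : ∀ P : X N, 0 ≤ totalLam (xt Φ ix P)) : DZ Φ ix sp hR :=
  fun y l hl _ hE0 _ hε => degZero_X0 hR hch hδ hδ0 hgam hA hlam hh y l hl hE0 hε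

/-- for an effective divisor `nrm1 = degR` -/
theorem nrm1_eq_degR {D : X N →₀ ℤ} (hD : 0 ≤ D) : nrm1 D = degR D := by
  unfold nrm1 degR
  refine Finset.sum_congr rfl fun P _ => ?_
  have : (0 : ℤ) ≤ D P := hD P
  rw [abs_of_nonneg (by exact_mod_cast this)]

/-- **(T)(iii) = `hoo`**: `|B(D, ∞)| ≤ ((|κ₀| + γ)/δ) deg D` from B.4 for the form `e₀` -/
theorem hoo_X0 (hch : IsEquivChoice Φ ix sp) (hδ0 : 0 < δ) {gam : Pl → ℝ} (hgam : AZ gam)
    (hA : ∀ a : Fin (Φ.n + 1) → Qbar, a ≠ 0 → IsRat Φ a → ∀ v P,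
      |starDefect (xt Φ ix) (w Φ ix) (tau Φ ix sp) 1 a (Zdiv Φ a) (lcG Φ ix sp a) v P| ≤ gam v) :
    ∃ Coo : ℝ, 0 ≤ Coo ∧ HOO Φ ix sp Coo := by
  have hδR : (0 : ℝ) < (δ : ℝ) := by exact_mod_cast hδ0
  have hγ : 0 ≤ tot gam := tot_nonneg (gam_nonneg hA)
  refine ⟨(|kap (xt Φ ix) δ (e0 Φ) (Zdiv Φ (e0 Φ))| + tot gam) / δ,
    div_nonneg (add_nonneg (abs_nonneg _) hγ) hδR.le, ?_⟩
  intro D hD hD0
  have h := hB4oo hch hδ0.ne' hgam hA D hD
  rw [nrm1_eq_degR hD0] at h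
  have hdeg : 0 ≤ degR D := by
    unfold degR
    exact Finset.sum_nonneg fun P _ => by exact_mod_cast hD0 P
  have hsingle : Bil (bGlob (xt Φ ix) (w Φ ix) (tau Φ ix sp) δ) D (Finsupp.single (ooN N) (δ : ℤ))
      = (δ : ℝ) * Bil (bGlob (xt Φ ix) (w Φ ix) (tau Φ ix sp) δ) D (Finsupp.single (ooN N) 1) := by
    rw [Fermat.Agent.S17.Ht.PosB.Bil_single_right, Fermat.Agent.S17.Ht.PosB.Bil_single_right]
    push_cast
    ring
  rw [hsingle] at h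
  set B1 := Bil (bGlob (xt Φ ix) (w Φ ix) (tau Φ ix sp) δ) D (Finsupp.single (ooN N) 1) with hB1
  set κ := kap (xt Φ ix) δ (e0 Φ) (Zdiv Φ (e0 Φ)) with hκ
  have h1 : |(δ : ℝ) * B1| ≤ (|κ| + tot gam) * degR D := by
    have := abs_sub_abs_le_abs_sub ((δ : ℝ) * B1) (degR D * κ)
    have h2 : |degR D * κ| = degR D * |κ| := by rw [abs_mul, abs_of_nonneg hdeg]
    nlinarith [this, h, h2.le, h2.ge]
  rw [abs_mul, abs_of_pos hδR] at h1
  rw [div_mul_eq_mul_div, le_div_iff₀ hδR]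
  linarith [h1, mul_comm (δ : ℝ) |B1|]

end Fermat.Agent.S17.Pos.Inputs
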