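import Mathlib
import Fermat.Agent.S17.Pos.Inputs
import Fermat.Agent.S17.Model.FrameResidual

/-!
# PROJECT H (S17), Part B, B.14 (5a): the degree-zero input `h13` of `pos_main` on `X₀(N)`

* `h13_X0`  : `|B(D - r∞, E - d_E ∞)| ≤ (1/3) N(D) + C` for `E` with `Z(a) = E + E'`, `a` rational,
  `E'` stable effective of degree `≤ 2g` off `∞` (the residual canonical divisor).

One call of `Model/FrameResidual.degZero_X0_residual` and the degree count `d_E = δ - w'`.
-/

set_option autoImplicit false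
set_option linter.unusedSectionVars false
set_option linter.unusedVariables false

noncomputable section

namespace Fermat.Agent.S17.Pos.H13

open AlgebraicCurve AlgebraicCurve.SemilinearAut ModularCurve
open Fermat.Agent.S18.NonSpecial Fermat.Agent.S17.Model.Lift Fermat.Agent.S17.Model.Embed
open Fermat.Agent.S17.Dict.QStructure Fermat.Agent.S17.B.Frame Fermat.Agent.S17.Ht
open Fermat.Agent.S17.Abs.PairQuad Fermat.Agent.S17.Model.Global
open Fermat.Agent.S17.Model.Reciprocity Fermat.Agent.S17.Model.Parallelogram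
open Fermat.Agent.S17.Model.FrameGamma Fermat.Agent.S17.Model.FrameBridge
open Fermat.Agent.S17.Model.FrameSection Fermat.Agent.S17.Pos.Inputs
open Fermat.Agent.S17.Model.ReducedX0 (Gam Dx rx)

local notation "Kb" => AlgebraicClosure ℚ
local notation "ooN" => Fermat.Agent.S17.Model.ReducedX0.oo

variable {N : ℕ} [NeZero N] {δ : ℕ} {Φ : RatFrame N δ}
variable {ix : X N → Fin (Φ.n + 1)} {sp : X N → modularFunctionFieldBar N}
variable {g : ℕ} (hR : RiemannHyp Kb (modularFunctionFieldBar N) g)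

open scoped Classical

/-- `zInt` is additive -/
theorem h13A_zInt_add (A B : X N →₀ ℕ) : zInt (A + B) = zInt A + zInt B := by
  ext P
  rw [Finsupp.add_apply, zInt_apply, zInt_apply, zInt_apply, Finsupp.add_apply]
  push_cast
  rfl

/-- `zInt` of a natural divisor is effective -/
theorem h13A_zInt_nonneg (A : X N →₀ ℕ) : 0 ≤ zInt A := by
  intro P
  show (0 : ℤ) ≤ zInt A P
  rw [zInt_apply]
  exact_mod_cast Nat.zero_le _

include hR in
/-- **(5a) for `E`** through the residual `E'`: `Z(a) = E + E'`, `a` rational. -/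
theorem h13_X0 (hch : IsEquivChoice Φ ix sp) (hδ : 4 * g ≤ δ) (hδ0 : 0 < δ)
    {gam : Pl → ℝ} (hgam : AZ gam)
    (hA : ∀ a : Fin (Φ.n + 1) → Qbar, a ≠ 0 → IsRat Φ a → ∀ v P,
      |starDefect (xt Φ ix) (w Φ ix) (tau Φ ix sp) 1 a (Zdiv Φ a) (lcG Φ ix sp a) v P| ≤ gam v)
    (hDZ : DZ Φ ix sp hR)
    (a : Fin (Φ.n + 1) → Qbar) (ha : a ≠ 0) (hrat : IsRat Φ a) (E E' : X N →₀ ℕ)
    (hZ : Zdiv Φ a = E + E') (hE'st : zInt E' ∈ stableDiv (HX0 N)) (hE'oo : E' (ooN N) = 0)
    {w' : ℕ} (hE'deg : Divisor.degree (zInt E') = w') (hw' : w' ≤ 2 * g) {dE : ℤ}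
    (hdE : degR (zInt E) = dE) :
    ∃ C : ℝ, ∀ D ∈ stableDiv (HX0 N), 0 ≤ D → degR D ≤ g → D (ooN N) = 0 →
      ∀ r : ℤ, (r : ℝ) = degR D →
        |Bil (bGlob (xt Φ ix) (w Φ ix) (tau Φ ix sp) δ) (D - Finsupp.single (ooN N) r)
            (zInt E - Finsupp.single (ooN N) dE)|
          ≤ 1 / 3 * Nht (xt Φ ix) δ D + C := by
  have hsum : zInt (Zdiv Φ a) = zInt E + zInt E' := by rw [hZ, h13A_zInt_add]
  -- the degree count `dE = δ - w'`
  have hdeg : dE = (δ : ℤ) - (w' : ℤ) := by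
    have h1 : degR (zInt (Zdiv Φ a)) = δ := degR_zInt_Zdiv ha
    rw [degR_eq_degree, hsum, map_add, hE'deg] at h1
    rw [degR_eq_degree] at hdE
    have h2 : Divisor.degree (zInt E) = dE := by exact_mod_cast hdE
    rw [h2] at h1
    have h3 : dE + (w' : ℤ) = (δ : ℤ) := by exact_mod_cast h1
    linarith
  rw [hdeg]
  exact Fermat.Agent.S17.Model.FrameResidual.degZero_X0_residual hR hch hδ hδ0 hgam hA ha hrat
    hsum (h13A_zInt_nonneg E') hE'st hE'deg hw' (by norm_num)

end Fermat.Agent.S17.Pos.H13
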