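import Mathlib
import Fermat.Agent.S17.Pos.Inputs
import Fermat.Agent.S17.Model.FrameResidual

/-!
# PROJECT H (S17), Part B, B.14 (5b): the degree-zero input `h13b` of `pos_main` on `X₀(N)`

* `h13b_X0` : `(g - r - 1/3) N(D) - C₈ ≤ (1/M) h_Δ(D, ∑_T n_T T)` for `n` Galois invariant,
  supported on the fibres `O i`, vanishing on `supp D`, `n ≤ M`, `∑ n_T = M (g - r)`, with `C₈`
  independent of `D`, `n`, `M`.

`Pos/Layers.inv_mul_ge_of_fibre_layers` with `F := h_Δ(D, ·)`; every layer `W = {T ∈ O i | k < n_T}`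
is a Galois stable set of at most `2 g` points disjoint from `supp D`, so
`W - |W| ∞ = ρ(y) + E`, `E ∈ EE (3 g)` (`FrameGamma.sub_rhoX0_mem_EE`), the degree-zero lemma `DZ`
bounds `B(D - r ∞, W - |W| ∞)` and `PosB.hDelta_ge` converts.  The constants are made uniform by a
choice over the finitely many subsets of `⋃ O i`.
-/

set_option autoImplicit false
set_option linter.unusedSectionVars false
set_option linter.unusedVariables false

noncomputable section

namespace Fermat.Agent.S17.Pos.H13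

open AlgebraicCurve AlgebraicCurve.SemilinearAut ModularCurve
open Fermat.Agent.S18.NonSpecial Fermat.Agent.S17.Model.Lift Fermat.Agent.S17.Model.Embed
open Fermat.Agent.S17.Dict.QStructure Fermat.Agent.S17.B.Frame Fermat.Agent.S17.Ht
open Fermat.Agent.S17.Abs.PairQuad Fermat.Agent.S17.Model.Global
open Fermat.Agent.S17.Model.Reciprocity Fermat.Agent.S17.Model.Parallelogram
open Fermat.Agent.S17.Model.FrameGamma Fermat.Agent.S17.Model.FrameBridge
open Fermat.Agent.S17.Model.FrameSection Fermat.Agent.S17.Pos.Inputs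
open Fermat.Agent.S17.Pos.Layers Fermat.Agent.S17.Ht.PosB
open Fermat.Agent.S17.Model.ReducedX0 (Gam Dx rx)

local notation "Kb" => AlgebraicClosure ℚ
local notation "ooN" => Fermat.Agent.S17.Model.ReducedX0.oo

variable {N : ℕ} [NeZero N] {δ : ℕ} {Φ : RatFrame N δ}
variable {ix : X N → Fin (Φ.n + 1)} {sp : X N → modularFunctionFieldBar N}
variable {g : ℕ} (hR : RiemannHyp Kb (modularFunctionFieldBar N) g)

open scoped Classical

/-! ### the divisor of a finite set of points -/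

theorem h13B_pts_apply (W : Finset (X N)) (P : X N) : pts W P = if P ∈ W then 1 else 0 := by
  unfold pts
  rw [Finsupp.finsetSum_apply]
  simp only [Finsupp.single_apply]
  rw [Finset.sum_ite_eq' W P]

theorem h13B_support_pts (W : Finset (X N)) : (pts W).support = W := by
  ext T
  rw [Finsupp.mem_support_iff, h13B_pts_apply]
  by_cases h : T ∈ W <;> simp [h]

theorem h13B_pts_nonneg (W : Finset (X N)) : 0 ≤ pts W := by
  intro P
  show (0 : ℤ) ≤ pts W P
  rw [h13B_pts_apply]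
  split_ifs <;> norm_num

theorem h13B_degR_pts (W : Finset (X N)) : degR (pts W) = (W.card : ℝ) := by
  unfold degR
  rw [h13B_support_pts]
  have : ∀ P ∈ W, ((pts W P : ℤ) : ℝ) = 1 := by
    intro P hP
    rw [h13B_pts_apply, if_pos hP]
    norm_num
  rw [Finset.sum_congr rfl this]
  simp

theorem h13B_degree_pts (W : Finset (X N)) : Divisor.degree (pts W) = (W.card : ℤ) := by
  have h := h13B_degR_pts W
  rw [degR_eq_degree] at h
  exact_mod_cast h

/-- the divisor of a Galois stable finite set of points is stable -/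
theorem h13B_isStable_pts {W : Finset (X N)} (hW : ∀ σ : GQ, ∀ T ∈ W, gal N σ • T ∈ W) :
    IsStable (HX0 N) (pts W) := by
  rw [← stable_iff_isStable]
  let _ := actX N
  have hW' : ∀ σ : GQ, ∀ T ∈ W, σ • T ∈ W := hW
  intro σ P
  rw [h13B_pts_apply, h13B_pts_apply]
  have : σ • P ∈ W ↔ P ∈ W :=
    ⟨fun h => by simpa using hW' σ⁻¹ _ h, fun h => hW' σ P h⟩
  simp only [this]

include hR in
/-- **B.13′ against `W - |W| ∞`** for a Galois stable set `W` of at most `2 g` points, from `DZ` -/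
theorem h13B_degZero_pts (hDZ : DZ Φ ix sp hR) {W : Finset (X N)}
    (hWst : ∀ σ : GQ, ∀ T ∈ W, gal N σ • T ∈ W) (hWcard : W.card ≤ 2 * g) {ε : ℝ} (hε : 0 < ε) :
    ∃ C1 : ℝ, ∀ D ∈ stableDiv (HX0 N), 0 ≤ D → degR D ≤ g → D (ooN N) = 0 →
      ∀ r : ℤ, (r : ℝ) = degR D →
        |Bil (bGlob (xt Φ ix) (w Φ ix) (tau Φ ix sp) δ) (D - Finsupp.single (ooN N) r)
            (pts W - Finsupp.single (ooN N) (W.card : ℤ))|
          ≤ ε * Nht (xt Φ ix) δ D + C1 := by
  obtain ⟨y, hy⟩ := sub_rhoX0_mem_EE hR (h13B_pts_nonneg W) (h13B_isStable_pts hWst)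
    (h13B_degree_pts W)
  have hy' : (pts W - Finsupp.single (ooN N) (W.card : ℤ)) - rhoX0 hR y ∈ EE (HX0 N) (3 * g) :=
    Fermat.Agent.S17.Model.FrameResidual.EE_mono (by omega) hy
  refine hDZ y [(pts W - Finsupp.single (ooN N) (W.card : ℤ)) - rhoX0 hR y] ?_ _ ?_ ε hε
  · intro E hE
    rw [List.mem_singleton] at hE
    subst hE
    exact Or.inl hy'
  · rw [List.sum_cons, List.sum_nil, add_zero]
    abel

/-! ### (5b) -/

include hR in
/-- **(5b)** in the literal shape of `h13b` of `Ht.PosB.pos_main` (`m := M`, `Bt := ∑ n_T • T`). -/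
theorem h13b_X0 (hch : IsEquivChoice Φ ix sp) (hδ0 : 0 < δ) (hDZ : DZ Φ ix sp hR) {Coo : ℝ}
    (hCoo : 0 ≤ Coo) (hoo : HOO Φ ix sp Coo)
    (hh : ∀ P : X N, 0 ≤ totalLam (xt Φ ix P))
    {I : Type*} [Fintype I] (O : I → Finset (X N))
    (hOst : ∀ (σ : GQ) (i : I), ∀ T ∈ O i, gal N σ • T ∈ O i)
    (hOoo : ∀ i, ooN N ∉ O i) (hOcard : ∀ i, (O i).card ≤ 2 * g) :
    ∃ C8 : ℝ, ∀ D ∈ stableDiv (HX0 N), 0 ≤ D → D (ooN N) = 0 →
      ∀ r : ℤ, (r : ℝ) = degR D → r ≤ g →
      ∀ (nX : X N → ℕ) (M : ℕ), 0 < M → (∀ i, ∀ T ∈ O i, nX T ≤ M) →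
        (∀ (σ : GQ) (T : X N), nX (gal N σ • T) = nX T) → (∀ T ∈ D.support, nX T = 0) →
        (∑ i, ∑ T ∈ O i, (nX T : ℝ) = (M : ℝ) * ((g : ℝ) - r)) →
        ((g : ℝ) - r - 1 / 3) * Nht (xt Φ ix) δ D - C8
          ≤ (1 / (M : ℝ)) * hDelta (xt Φ ix) (w Φ ix) D
              (∑ i, ∑ T ∈ O i, (nX T : ℤ) • (Finsupp.single T 1 : X N →₀ ℤ)) := by
  set b := bGlob (xt Φ ix) (w Φ ix) (tau Φ ix sp) δ with hb
  set TT : Finset (X N) := Finset.univ.biUnion O with hTT
  set ε : ℝ := 1 / (3 * ((Fintype.card I : ℝ) + 1)) with hε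
  have hc1 : (0 : ℝ) < (Fintype.card I : ℝ) + 1 := by positivity
  have hε0 : 0 < ε := by positivity
  have hεs : ε * ((Finset.univ : Finset I).card : ℝ) ≤ 1 / 3 := by
    rw [Finset.card_univ]
    have h1 : ε * ((Fintype.card I : ℝ) + 1) = 1 / 3 := by
      rw [hε]
      field_simp
    nlinarith [hε0.le]
  -- a set of points to which the degree-zero lemma applies
  let Good : Finset (X N) → Prop := fun W =>
    (∀ σ : GQ, ∀ T ∈ W, gal N σ • T ∈ W) ∧ W.card ≤ 2 * g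
  have hex : ∀ W : Finset (X N), ∃ C : ℝ, Good W →
      ∀ D ∈ stableDiv (HX0 N), 0 ≤ D → degR D ≤ g → D (ooN N) = 0 →
        ∀ r : ℤ, (r : ℝ) = degR D →
        |Bil b (D - Finsupp.single (ooN N) r) (pts W - Finsupp.single (ooN N) (W.card : ℤ))|
          ≤ ε * Nht (xt Φ ix) δ D + C := by
    intro W
    by_cases hW : Good W
    · obtain ⟨C, hC⟩ := h13B_degZero_pts hR hDZ hW.1 hW.2 hε0
      exact ⟨C, fun _ => hC⟩
    · exact ⟨0, fun h => absurd h hW⟩
  choose Cz hCz using hex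
  set K : Finset (X N) → ℝ := fun W =>
    Cz W + (((W.card : ℤ) : ℝ)) * Coo * g
      + (g : ℝ) * |Bil b (Finsupp.single (ooN N) 1) (pts W)|
      + (g : ℝ) * (((W.card : ℤ) : ℝ)) * |b (ooN N) (ooN N)|
      + (g : ℝ) * |hgt (xt Φ ix) (pts W)| / (δ : ℝ) with hK
  set Cmax : ℝ := ∑ W ∈ TT.powerset, |K W| with hCmax
  have hCmax0 : 0 ≤ Cmax := Finset.sum_nonneg fun W _ => abs_nonneg _
  refine ⟨((Finset.univ : Finset I).card : ℝ) * Cmax, ?_⟩
  intro D hD hD0 hDoo r hr hrg nX M hM0 hM hninv hnD hsum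
  have hdata := goodData hch
  have hdegD0 : 0 ≤ degR D := by
    unfold degR
    exact Finset.sum_nonneg fun P _ => by exact_mod_cast hD0 P
  have hr0' : (0 : ℝ) ≤ (r : ℝ) := by rw [hr]; exact hdegD0
  have hr0 : 0 ≤ r := by exact_mod_cast hr0'
  have hrg' : (r : ℝ) ≤ (g : ℝ) := by exact_mod_cast hrg
  have hdegD : degR D ≤ g := by rw [← hr]; exact hrg'
  have hN : 0 ≤ Nht (xt Φ ix) δ D := by
    unfold Nht hgt
    exact div_nonneg (Finset.sum_nonneg fun P _ =>
      mul_nonneg (by exact_mod_cast hD0 P) (hh P)) (Nat.cast_nonneg δ)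
  have hooD : |Bil b D (Finsupp.single (ooN N) 1)| ≤ Coo * r := by
    rw [hr]
    exact hoo D hD hD0
  have key := inv_mul_ge_of_fibre_layers (Finset.univ : Finset I) O nX M hM0
    (fun i _ => hM i) (fun E => hDelta (xt Φ ix) (w Φ ix) D E)
    (hDelta_zero_right (xt Φ ix) (w Φ ix) D) (hDelta_add_right (xt Φ ix) (w Φ ix) D)
    (ε := ε) (Nn := Nht (xt Φ ix) δ D) (Cmax := Cmax) (n := (g : ℝ) - r) hN hε0.le hCmax0 hεs hsum
    ?_
  · exact key
  -- the layers
  intro i _ k _ hne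
  set W := layer (O i) nX k with hW
  have hWO : W ⊆ O i := layer_subset (O i) nX k
  have hWgood : Good W := by
    refine ⟨fun σ T hT => ?_, (Finset.card_le_card hWO).trans (hOcard i)⟩
    rw [hW, mem_layer] at hT ⊢
    exact ⟨hOst σ i T hT.1, by rw [hninv σ T]; exact hT.2⟩
  have hWTT : W ∈ TT.powerset := by
    rw [Finset.mem_powerset]
    intro T hT
    rw [hTT, Finset.mem_biUnion]
    exact ⟨i, Finset.mem_univ i, hWO hT⟩
  have hDE : Disjoint D.support (pts W).support := by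
    rw [h13B_support_pts, Finset.disjoint_left]
    intro T hTD hTW
    rw [hW, mem_layer] at hTW
    have := hnD T hTD
    omega
  have hdE : degR (pts W) = (((W.card : ℤ) : ℝ)) := by
    rw [h13B_degR_pts, Int.cast_natCast]
  have hge := hDelta_ge (xt Φ ix) (w Φ ix) (tau Φ ix sp) δ hdata (ooN N) hDE hr.symm hdE hr0
    (Int.natCast_nonneg _) (hCz W hWgood D hD hD0 hdegD hDoo r hr) hooD
  -- compare the constants
  have hcd : (0 : ℝ) ≤ (((W.card : ℤ) : ℝ)) := by
    rw [Int.cast_natCast]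
    exact Nat.cast_nonneg _
  have e1 : (((W.card : ℤ) : ℝ)) * Coo * r ≤ (((W.card : ℤ) : ℝ)) * Coo * g :=
    mul_le_mul_of_nonneg_left hrg' (mul_nonneg hcd hCoo)
  have e2 : (r : ℝ) * |Bil b (Finsupp.single (ooN N) 1) (pts W)| ≤
      (g : ℝ) * |Bil b (Finsupp.single (ooN N) 1) (pts W)| :=
    mul_le_mul_of_nonneg_right hrg' (abs_nonneg _)
  have e3 : (r : ℝ) * (((W.card : ℤ) : ℝ)) * |b (ooN N) (ooN N)| ≤
      (g : ℝ) * (((W.card : ℤ) : ℝ)) * |b (ooN N) (ooN N)| :=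
    mul_le_mul_of_nonneg_right (mul_le_mul_of_nonneg_right hrg' hcd) (abs_nonneg _)
  have e4 : (r : ℝ) * |hgt (xt Φ ix) (pts W)| / (δ : ℝ) ≤
      (g : ℝ) * |hgt (xt Φ ix) (pts W)| / (δ : ℝ) :=
    div_le_div_of_nonneg_right (mul_le_mul_of_nonneg_right hrg' (abs_nonneg _))
      (Nat.cast_nonneg δ)
  have hKW : K W ≤ Cmax := (le_abs_self _).trans
    (Finset.single_le_sum (f := fun W => |K W|) (fun W _ => abs_nonneg _) hWTT)
  have hKdef : K W = Cz W + (((W.card : ℤ) : ℝ)) * Coo * g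
      + (g : ℝ) * |Bil b (Finsupp.single (ooN N) 1) (pts W)|
      + (g : ℝ) * (((W.card : ℤ) : ℝ)) * |b (ooN N) (ooN N)|
      + (g : ℝ) * |hgt (xt Φ ix) (pts W)| / (δ : ℝ) := rfl
  rw [Int.cast_natCast] at hge hKdef e1 e3
  linarith

end Fermat.Agent.S17.Pos.H13
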