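import Mathlib
import Fermat.Agent.S17.Pos.H13A
import Fermat.Agent.S17.Pos.H13B

/-!
# PROJECT H (S17), Part B, B.14 – B.16: the lower bound and the height package on `J₀(N)(ℚ)`

`q x := Qf b (D_x - r_x ∞)`, `b := bGlob (xt Φ ix) (w Φ ix) (tau Φ ix sp) δ`.

* `exists_disjoint` : pigeonhole, one of `g + 1` pairwise disjoint sets misses a set of `≤ g` points;
* `lower_bound` : **B.14** `q x ≥ (1/2) N(D_x) - C₄`, from `pos_main` with the four global inputs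
  `h11` (B.11′), `h12` (B.12), `h13` (`H13.h13_X0`), `h13b` (`H13.h13b_X0`) and `hoo`;
* `heightPackage_of_inputs` : `hlow`, `hpar`, `hfin` for `q`.
-/

set_option autoImplicit false
set_option linter.unusedSectionVars false

noncomputable section

namespace Fermat.Agent.S17.Pos.Main

open AlgebraicCurve AlgebraicCurve.SemilinearAut ModularCurve
open Fermat.Agent.S18.NonSpecial Fermat.Agent.S17.Model.Lift Fermat.Agent.S17.Model.Embed
open Fermat.Agent.S17.Dict.QStructure Fermat.Agent.S17.B.Frame Fermat.Agent.S17.Ht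
open Fermat.Agent.S17.Abs.PairQuad Fermat.Agent.S17.Model.Global
open Fermat.Agent.S17.Model.Reciprocity Fermat.Agent.S17.Model.Parallelogram
open Fermat.Agent.S17.Model.FrameGamma Fermat.Agent.S17.Model.FrameBridge
open Fermat.Agent.S17.Model.FrameSection Fermat.Agent.S17.Pos.Inputs Fermat.Agent.S17.Pos.H13
open Fermat.Agent.S17.Model.ReducedX0 (Gam Dx rx)

local notation "Kb" => AlgebraicClosure ℚ
local notation "ooN" => Fermat.Agent.S17.Model.ReducedX0.oo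

/-- **pigeonhole**: one of `g + 1` pairwise disjoint finite sets misses a set of `≤ g` points -/
theorem exists_disjoint {X : Type*} [DecidableEq X] {g : ℕ} (S : Finset X) (hS : S.card ≤ g)
    (A : Fin (g + 1) → Finset X) (hA : ∀ l l', l ≠ l' → Disjoint (A l) (A l')) :
    ∃ l, Disjoint S (A l) := by
  by_contra hcon
  have hne : ∀ l, ∃ p, p ∈ S ∧ p ∈ A l := fun l => by
    have : ¬ Disjoint S (A l) := fun hl => hcon ⟨l, hl⟩
    rw [Finset.not_disjoint_iff] at this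
    exact this
  choose p hpS hpA using hne
  have hinj : Function.Injective p := by
    intro l l' h
    by_contra hll
    have := Finset.disjoint_left.mp (hA l l' hll) (hpA l)
    exact this (h ▸ hpA l')
  have hcard : Fintype.card (Fin (g + 1)) ≤ S.card := by
    have := Finset.card_le_card_of_injOn p (s := Finset.univ) (t := S)
      (fun l _ => hpS l) (fun l _ l' _ h => hinj h)
    simpa using this
  rw [Fintype.card_fin] at hcard
  omega

variable {N : ℕ} [NeZero N] {δ : ℕ} {Φ : RatFrame N δ}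
variable {ix : X N → Fin (Φ.n + 1)} {sp : X N → modularFunctionFieldBar N}
variable {g : ℕ} (hR : RiemannHyp Kb (modularFunctionFieldBar N) g)

open scoped Classical

/-! ### the divisor `D_x` of a rational point -/

theorem Dx_mem_stableDiv (x : Gam N) : Dx hR (x : JZero N) ∈ stableDiv (HX0 N) :=
  (isStable_HX0_iff N).mpr fun σ =>
    Fermat.Agent.S17.Model.ReducedX0.galAut_smul_Dx_of_mem hR x.2 σ

theorem degR_Dx (x : Gam N) : degR (Dx hR (x : JZero N)) = ((rx hR (x : JZero N) : ℤ) : ℝ) := by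
  rw [degR_eq_degree, Fermat.Agent.S17.Model.ReducedX0.degree_Dx]

theorem card_support_Dx_le (x : Gam N) : (Dx hR (x : JZero N)).support.card ≤ g := by
  have h := Fermat.Agent.S17.Model.ReducedX0.sum_abs_Dx hR (x : JZero N)
  have h1 : ((Dx hR (x : JZero N)).support.card : ℤ) ≤ rx hR (x : JZero N) := by
    rw [← h, Finset.card_eq_sum_ones]
    push_cast
    refine Finset.sum_le_sum fun v hv => ?_
    have : Dx hR (x : JZero N) v ≠ 0 := Finsupp.mem_support_iff.mp hv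
    exact Int.one_le_abs this
  have h2 := Fermat.Agent.S17.Model.ReducedX0.rx_le hR (x : JZero N)
  omega

/-! ### B.14 -/

include hR in
/-- **B.14**: `q x ≥ (1/2) N(D_x) - C₄` on `J₀(N)(ℚ)`, from the four global inequalities. -/
theorem lower_bound (hch : IsEquivChoice Φ ix sp) (hδ : 4 * g ≤ δ) (hδ0 : 0 < δ)
    {gam : Pl → ℝ} (hgam : AZ gam)
    (hA : ∀ a : Fin (Φ.n + 1) → Qbar, a ≠ 0 → IsRat Φ a → ∀ v P,
      |starDefect (xt Φ ix) (w Φ ix) (tau Φ ix sp) 1 a (Zdiv Φ a) (lcG Φ ix sp a) v P| ≤ gam v)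
    (hlam : ∀ P R : X N, P ≠ R → -Real.log 2 ≤ lamG (xt Φ ix) (w Φ ix) P R)
    (hh : ∀ P : X N, 0 ≤ totalLam (xt Φ ix P))
    -- the fixed data (B.8)
    (E E' : Fin (g + 1) → X N →₀ ℕ)
    (hEdisj : ∀ l l', l ≠ l' → Disjoint (E l).support (E l').support)
    (hEdeg : ∀ l, degR (zInt (E l)) = (((δ : ℤ) - 2 * g + 2 : ℤ) : ℝ))
    (a1 : Fin (g + 1) → Fin (Φ.n + 1) → Qbar) (ha1 : ∀ l, a1 l ≠ 0) (hrat1 : ∀ l, IsRat Φ (a1 l))
    (hZ1 : ∀ l, Zdiv Φ (a1 l) = E l + E' l)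
    (hE'st : ∀ l, zInt (E' l) ∈ stableDiv (HX0 N)) (hE'oo : ∀ l, E' l (ooN N) = 0)
    (hE'deg : ∀ l, Divisor.degree (zInt (E' l)) = ((2 * g - 2 : ℕ) : ℤ))
    {I : Type} [Fintype I] (O : I → Finset (X N))
    (hOst : ∀ (σ : GQ) (i : I), ∀ T ∈ O i, gal N σ • T ∈ O i)
    (hOoo : ∀ i, ooN N ∉ O i) (hOcard : ∀ i, (O i).card ≤ 2 * g)
    -- B.11'
    (h11 : ∃ C5 : ℝ, ∀ (l : Fin (g + 1)) (x : Gam N),
      Disjoint (Dx hR (x : JZero N)).support (E l).support →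
      ∃ (nX : X N → ℕ) (M : ℕ), 0 < M ∧ (∀ i, ∀ T ∈ O i, nX T ≤ M) ∧
        (∀ (σ : GQ) (T : X N), nX (gal N σ • T) = nX T) ∧
        (∀ T ∈ (Dx hR (x : JZero N)).support, nX T = 0) ∧
        (∑ i, ∑ T ∈ O i, (nX T : ℝ) = (M : ℝ) * ((g : ℝ) - ((rx hR (x : JZero N) : ℤ) : ℝ))) ∧
        prox (xt Φ ix) (w Φ ix) (Dx hR (x : JZero N))
          ≤ (((1 : ℕ) : ℝ) * hgt (xt Φ ix) (Dx hR (x : JZero N))
              - hDelta (xt Φ ix) (w Φ ix) (Dx hR (x : JZero N)) (zInt (E l)))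
            - (1 / (M : ℝ)) * hDelta (xt Φ ix) (w Φ ix) (Dx hR (x : JZero N))
                (∑ i, ∑ T ∈ O i, (nX T : ℤ) • (Finsupp.single T 1 : X N →₀ ℤ))
            + kap2 (xt Φ ix) (tau Φ ix sp) (Dx hR (x : JZero N)) + C5)
    -- B.12
    (h12 : ∃ C6 : ℝ, ∀ (l : Fin (g + 1)) (x : Gam N),
      Disjoint (Dx hR (x : JZero N)).support (E l).support →
      ((1 : ℕ) : ℝ) * hgt (xt Φ ix) (Dx hR (x : JZero N))
          - hDelta (xt Φ ix) (w Φ ix) (Dx hR (x : JZero N)) (zInt (E l))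
        ≤ kapTau (xt Φ ix) (tau Φ ix sp) (Dx hR (x : JZero N))
          + C6 * ((rx hR (x : JZero N) : ℤ) : ℝ)) :
    ∃ C4 : ℝ, ∀ x : Gam N,
      1 / 2 * Nht (xt Φ ix) δ (Dx hR (x : JZero N)) - C4
        ≤ qX0 hR (bGlob (xt Φ ix) (w Φ ix) (tau Φ ix sp) δ) x := by
  have hDZ : DZ Φ ix sp hR := dz_of_starDefect hR hch hδ hδ0 hgam hA hlam hh
  obtain ⟨Coo, hCoo, hoo⟩ := hoo_X0 hch hδ0 hgam hA
  obtain ⟨C5, h11⟩ := h11
  obtain ⟨C6, h12⟩ := h12
  have h13 := fun l => h13_X0 hR hch hδ hδ0 hgam hA hDZ (a1 l) (ha1 l) (hrat1 l) (E l) (E' l)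
    (hZ1 l) (hE'st l) (hE'oo l) (hE'deg l) (by omega) (hEdeg l)
  choose C13 h13 using h13
  obtain ⟨C8, h13b⟩ := h13b_X0 hR hch hδ0 hDZ hCoo hoo hh O hOst hOoo hOcard
  set b := bGlob (xt Φ ix) (w Φ ix) (tau Φ ix sp) δ with hb
  set dE : ℤ := (δ : ℤ) - 2 * g + 2 with hdE
  -- the constant of `pos_main`
  set K : Fin (g + 1) → ℕ → ℝ := fun l r =>
    (C5 + C6 * ((r : ℤ) : ℝ) / 2
        + (C13 l + (dE : ℝ) * Coo * ((r : ℤ) : ℝ)
            + ((r : ℤ) : ℝ) * |Bil b (Finsupp.single (ooN N) 1) (zInt (E l))|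
            + ((r : ℤ) : ℝ) * (dE : ℝ) * |b (ooN N) (ooN N)|
            + ((r : ℤ) : ℝ) * |hgt (xt Φ ix) (zInt (E l))| / (δ : ℝ)) / 2
        + C8)
      + Coo * (((r : ℤ) : ℝ)) ^ 2 + (((r : ℤ) : ℝ)) ^ 2 / 2 * |b (ooN N) (ooN N)| with hK
  refine ⟨∑ l, ∑ r ∈ Finset.range (g + 1), |K l r|, fun x => ?_⟩
  set D := Dx hR (x : JZero N) with hD
  set r := rx hR (x : JZero N) with hr
  have hDst : D ∈ stableDiv (HX0 N) := Dx_mem_stableDiv hR x
  have hD0 : 0 ≤ D := Fermat.Agent.S17.Model.ReducedX0.Dx_nonneg hR _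
  have hDoo : D (ooN N) = 0 := Fermat.Agent.S17.Model.ReducedX0.Dx_apply_oo hR _
  have hdegD : degR D = ((r : ℤ) : ℝ) := degR_Dx hR x
  have hrg : r ≤ g := Fermat.Agent.S17.Model.ReducedX0.rx_le hR _
  obtain ⟨l, hl⟩ := exists_disjoint D.support (card_support_Dx_le hR x) (fun l => (E l).support)
    hEdisj
  obtain ⟨nX, M, hM0, hnM, hninv, hnD, hnsum, h11x⟩ := h11 l x hl
  have hdegle : degR D ≤ g := by rw [hdegD]; exact_mod_cast hrg
  have hgd := goodData hch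
  have hdE0 : (0 : ℤ) ≤ dE := by omega
  have hmain := Fermat.Agent.S17.Ht.PosB.pos_main (xt Φ ix) (w Φ ix) (tau Φ ix sp) δ hδ0.ne' hgd
    (fun P R => bGlob_symm' P R) (ooN N) D (zInt (E l))
    (∑ i, ∑ T ∈ O i, (nX T : ℤ) • (Finsupp.single T 1 : X N →₀ ℤ))
    (by rw [support_zInt]; exact hl) hdegD (hEdeg l) (by exact_mod_cast Nat.zero_le r) hdE0
    (e := 1) (g := (g : ℝ)) (m := (M : ℝ)) (C5 := C5) (C6 := C6) (C := C13 l) (C8 := C8)
    (Coo := Coo)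
    (by rw [hdE]; push_cast; ring)
    h11x (h12 l x hl)
    (h13 l D hDst hD0 hdegle hDoo (r : ℤ) hdegD.symm)
    (h13b D hDst hD0 hDoo (r : ℤ) hdegD.symm (by exact_mod_cast hrg) nX M hM0 hnM hninv hnD hnsum)
    (by rw [← hdegD]; exact hoo D hDst hD0)
  have hKle : K l r ≤ ∑ l, ∑ r ∈ Finset.range (g + 1), |K l r| := by
    have h1 : |K l r| ≤ ∑ r ∈ Finset.range (g + 1), |K l r| :=
      Finset.single_le_sum (f := fun r => |K l r|) (fun _ _ => abs_nonneg _)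
        (Finset.mem_range.mpr (by omega))
    have h2 : ∑ r ∈ Finset.range (g + 1), |K l r| ≤ ∑ l, ∑ r ∈ Finset.range (g + 1), |K l r| :=
      Finset.single_le_sum (f := fun l => ∑ r ∈ Finset.range (g + 1), |K l r|)
        (fun _ _ => Finset.sum_nonneg fun _ _ => abs_nonneg _) (Finset.mem_univ l)
    exact (le_abs_self _).trans (h1.trans h2)
  have hq : qX0 hR b x = Qf b (D - Finsupp.single (ooN N) (r : ℤ)) := rfl
  rw [hq]
  have hmain' : 1 / 2 * Nht (xt Φ ix) δ D - K l r ≤ Qf b (D - Finsupp.single (ooN N) (r : ℤ)) :=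
    hmain
  linarith [hmain', hKle]

/-! ### B.16: the height package -/

theorem Nht_Dx_nonneg (hh : ∀ P : X N, 0 ≤ totalLam (xt Φ ix P)) (x : Gam N) :
    0 ≤ Nht (xt Φ ix) δ (Dx hR (x : JZero N)) := by
  unfold Nht hgt
  refine div_nonneg (Finset.sum_nonneg fun P _ => mul_nonneg ?_ (hh P)) (Nat.cast_nonneg δ)
  exact_mod_cast Fermat.Agent.S17.Model.ReducedX0.Dx_nonneg hR (x : JZero N) P

include hR in
/-- **the height package from B.14, B.6 and B.15**: `hlow`, `hpar`, `hfin` for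
`q x = Qf b (D_x - r_x ∞)`. -/
theorem heightPackage_of_lower (hch : IsEquivChoice Φ ix sp) (hδ : 4 * g ≤ δ) (hδ0 : 0 < δ)
    {gam : Pl → ℝ} (hgam : AZ gam)
    (hA : ∀ a : Fin (Φ.n + 1) → Qbar, a ≠ 0 → IsRat Φ a → ∀ v P,
      |starDefect (xt Φ ix) (w Φ ix) (tau Φ ix sp) 1 a (Zdiv Φ a) (lcG Φ ix sp a) v P| ≤ gam v)
    (hh : ∀ P : X N, 0 ≤ totalLam (xt Φ ix P))
    (hlb : ∃ C4 : ℝ, ∀ x : Gam N,
      1 / 2 * Nht (xt Φ ix) δ (Dx hR (x : JZero N)) - C4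
        ≤ qX0 hR (bGlob (xt Φ ix) (w Φ ix) (tau Φ ix sp) δ) x)
    (hfinN : ∀ T : ℝ, {x : Gam N | Nht (xt Φ ix) δ (Dx hR (x : JZero N)) ≤ T}.Finite) :
    ∃ q : Gam N → ℝ, (∃ C0 : ℝ, ∀ x, -C0 ≤ q x) ∧
      (∃ C1 : ℝ, ∀ x y, |q (x + y) + q (x - y) - 2 * q x - 2 * q y| ≤ C1) ∧
      ∀ T : ℝ, {x : Gam N | q x ≤ T}.Finite := by
  obtain ⟨C4, hlb⟩ := hlb
  refine ⟨qX0 hR (bGlob (xt Φ ix) (w Φ ix) (tau Φ ix sp) δ), ⟨C4, fun x => ?_⟩,
    ⟨14 * (2 * tot gam) * g, fun x y => ?_⟩, fun T => ?_⟩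
  · have := hlb x
    have h0 := Nht_Dx_nonneg hR hh x
    linarith
  · have := parallelogram_of_starDefect hR hch hδ hδ0.ne' hgam hA x y
    rwa [show qX0 hR (bGlob (xt Φ ix) (w Φ ix) (tau Φ ix sp) δ) (x + y)
        + qX0 hR (bGlob (xt Φ ix) (w Φ ix) (tau Φ ix sp) δ) (x - y)
        - 2 * qX0 hR (bGlob (xt Φ ix) (w Φ ix) (tau Φ ix sp) δ) x
        - 2 * qX0 hR (bGlob (xt Φ ix) (w Φ ix) (tau Φ ix sp) δ) y
      = qX0 hR (bGlob (xt Φ ix) (w Φ ix) (tau Φ ix sp) δ) (x + y)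
        + qX0 hR (bGlob (xt Φ ix) (w Φ ix) (tau Φ ix sp) δ) (x - y)
        - 2 * (qX0 hR (bGlob (xt Φ ix) (w Φ ix) (tau Φ ix sp) δ) x
          + qX0 hR (bGlob (xt Φ ix) (w Φ ix) (tau Φ ix sp) δ) y) from by ring]
  · refine (hfinN (2 * (T + C4))).subset fun x hx => ?_
    have h1 := hlb x
    have h2 : qX0 hR (bGlob (xt Φ ix) (w Φ ix) (tau Φ ix sp) δ) x ≤ T := hx
    show Nht (xt Φ ix) δ (Dx hR (x : JZero N)) ≤ 2 * (T + C4)
    linarith

end Fermat.Agent.S17.Pos.Main
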