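import Fermat.Agent.S17.Pos.NorthX0
import Fermat.Agent.S17.Ht.Global

/-!
# PROJECT H (S17), Part B, P9: B.15 (Northcott) for `X₀(N)` in the normalisation `N = h / δ`

`Pos/NorthX0.finite_hgt_Dx_le` restated for `Nht (xt Φ ix) δ D = hgt (xt Φ ix) D / δ`
(`Ht/Global.lean`): literally the hypothesis `hfinN` of `Pos/Main.heightPackage_of_lower`.
-/

set_option autoImplicit false
set_option linter.unusedSectionVars false

noncomputable section

namespace Fermat.Agent.S17.Pos.NorthX0Nht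

open AlgebraicCurve ModularCurve
open Fermat.Agent.S18.NonSpecial Fermat.Agent.S17.Model.Lift Fermat.Agent.S17.Model.Embed
open Fermat.Agent.S17.B.Frame Fermat.Agent.S17.Ht Fermat.Agent.S17.Model.Global
open Fermat.Agent.S17.Model.ReducedX0

local notation "Kb" => AlgebraicClosure ℚ

variable {N : ℕ} [NeZero N] {δ : ℕ} {Φ : RatFrame N δ}
variable {ix : X N → Fin (Φ.n + 1)} {sp : X N → modularFunctionFieldBar N}
variable {g : ℕ} (hR : RiemannHyp Kb (modularFunctionFieldBar N) g)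

/-- **B.15 = H0.20 for `X₀(N)`, normalised**: Northcott for `x ↦ N(D_x) = h(D_x) / δ` on
`Γ = J₀(N)(ℚ)`. -/
theorem finite_Nht_Dx_le (hch : IsEquivChoice Φ ix sp) (hδ0 : 0 < δ) (T : ℝ) :
    {x : Gam N | Nht (xt Φ ix) δ (Dx hR (x : JZero N)) ≤ T}.Finite := by
  have hδ : (0 : ℝ) < (δ : ℝ) := by exact_mod_cast hδ0
  refine (Fermat.Agent.S17.Pos.NorthX0.finite_hgt_Dx_le hR hch ((δ : ℝ) * T)).subset
    fun x hx => ?_
  have h1 : Nht (xt Φ ix) δ (Dx hR (x : JZero N)) ≤ T := hx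
  unfold Nht at h1
  show hgt (xt Φ ix) (Dx hR (x : JZero N)) ≤ (δ : ℝ) * T
  rw [div_le_iff₀ hδ] at h1
  linarith

/-- the same as a statement for all bounds: `hfinN` of `Pos/Main.heightPackage_of_lower` -/
theorem hfinN (hch : IsEquivChoice Φ ix sp) (hδ0 : 0 < δ) :
    ∀ T : ℝ, {x : Gam N | Nht (xt Φ ix) δ (Dx hR (x : JZero N)) ≤ T}.Finite :=
  fun T => finite_Nht_Dx_le hR hch hδ0 T

end Fermat.Agent.S17.Pos.NorthX0Nht
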