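import Mathlib
import Fermat.Agent.S17.Pos.Lower
import Fermat.Agent.S17.Pos.DataGlue
import Fermat.Agent.S17.Pos.H11X0
import Fermat.Agent.S17.Pos.AdjunctionDx
import Fermat.Agent.S17.Pos.NorthX0Nht
import Fermat.Agent.S17.Adj.CanDivBridge
import Fermat.Agent.S17.Dict.CanDivX0
import Fermat.Agent.S17.Model.GlobalAffine
import Fermat.Agent.S17.Model.TheoremA
import Fermat.Agent.S17.Model.TheoremAGlobal
import Fermat.Agent.S17.Final.Assemble

/-!
# PROJECT H (S17), Part B, the final file: the height package on `J₀(N)(ℚ)` for `g ≥ 1`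

`heightPackage N hg hR : Final.Assemble.HeightPackage N` = the deliverable of Parts A and B, in the
literal form consumed by `Final/Assemble.fg_of_heightPackage` (and so by `S17.lean`).

The assembly, with `δ = 4g + 2`:

* the rational frame `Φ` (`B/Frame.exists_ratFrame`), the canonical equivariant choice
  `(ixC Φ, spC Φ)` (`Model/GlobalChoice`, `Model/GlobalAffine`);
* THEOREM A (`Model/TheoremA.localA`) and the hand-over `(A*)` (`Model/TheoremAGlobal.exists_gam`);
* the fixed data of B.8 (`Pos/FixedData.exists_data`) and the glue to the frame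
  (`Pos/DataGlue.exists_glue`);
* B.11-prime (`Pos/H11X0.h11_X0`), B.12 (`Pos/AdjunctionDx.h12_Dx`), B.13 (inside
  `Pos/Lower.lower_bound`), B.14 (`Pos/Lower.lower_bound`), B.15 (`Pos/NorthX0Nht.hfinN`),
  B.6 + B.16 (`Pos/Lower.heightPackage_of_lower`).
-/

set_option autoImplicit false
set_option linter.unusedSectionVars false

noncomputable section

namespace Fermat.Agent.S17.Pos.Main

open AlgebraicCurve AlgebraicCurve.SemilinearAut ModularCurve
open Fermat.Agent.S18.NonSpecial Fermat.Agent.S17.Model.Lift Fermat.Agent.S17.Model.Embed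
open Fermat.Agent.S17.Dict.QStructure Fermat.Agent.S17.B.Frame Fermat.Agent.S17.Ht
open Fermat.Agent.S17.Abs.PairQuad Fermat.Agent.S17.Model.Global
open Fermat.Agent.S17.Model.FrameBridge
open Fermat.Agent.S17.Model.GlobalChoice (ixC spC)
open Fermat.Agent.S17.Model.TheoremAStmt (LocalA)
open Fermat.Agent.S17.Pos.DataGlue (EN zInt_EN EN_disjoint degR_zInt_EN O_card_le
  EN_apply_of_mem_O exists_glue)
open Fermat.Agent.S17.Model.ReducedX0 (Gam Dx rx)

local notation "Kb" => AlgebraicClosure ℚ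
local notation "ooN" => Fermat.Agent.S17.Model.ReducedX0.oo

open scoped Classical

/-- **the deliverable of Parts A and B**: for every `g ≥ 1` attached to `ℚ̄(X₀(N))` by Riemann's
theorem there is an approximately quadratic, bounded below, Northcott function on `J₀(N)(ℚ)`. -/
theorem heightPackage (N : ℕ) [NeZero N] {g : ℕ} (hg : 1 ≤ g)
    (hR : RiemannHyp Kb (modularFunctionFieldBar N) g) :
    Fermat.Agent.S17.Final.Assemble.HeightPackage N := by
  have := Fermat.Agent.S18.A.Instances.hasPrincipalDivisors_bar N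
  -- the degree `δ = 4g + 2`
  obtain ⟨δ, hδe⟩ : ∃ δ : ℕ, δ = 4 * g + 2 := ⟨_, rfl⟩
  have hδ : 4 * g ≤ δ := by omega
  have hδ0 : 0 < δ := by omega
  -- the rational frame and the canonical equivariant choice
  obtain ⟨Φ⟩ := exists_ratFrame N hR (δ := δ) (by omega)
  have hch : IsEquivChoice Φ (ixC Φ) (spC Φ) := Fermat.Agent.S17.Model.GlobalChoice.isEquivChoice Φ
  have hix : ∀ (σ : GQ) (P : X N), ixC Φ (gal N σ • P) = ixC Φ P :=
    Fermat.Agent.S17.Model.GlobalChoice.ixC_gal Φ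
  have hsp : ∀ (σ : GQ) (P : X N), spC Φ (gal N σ • P) = gal N σ • spC Φ P :=
    fun σ P => (Fermat.Agent.S17.Model.GlobalChoice.spC_gal Φ σ P).symm
  have haff : ∀ P : X N, P ≠ ooN N → ixC Φ P = 0 :=
    fun P hP => Fermat.Agent.S17.Model.GlobalAffine.ixC_eq_zero Φ hP
  -- THEOREM A and the hand-over (A*)
  have hdeg : Divisor.degree (dOO N δ) = (δ : ℤ) := by
    unfold dOO
    rw [Divisor.degree_single, Φ.model.deg_one]
    simp
  have hLoc : LocalA (hxN N) Φ.f δ :=
    Fermat.Agent.S17.Model.TheoremA.localA (hxN N) Φ.model Φ.linInd hdeg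
  obtain ⟨gam, hgam, -, hAall⟩ :=
    Fermat.Agent.S17.Model.TheoremAGlobal.exists_gam Φ (ixC Φ) (spC Φ) hδ0 hch.adm hch.ord_sp hLoc
  have hA : ∀ a : Fin (Φ.n + 1) → Qbar, a ≠ 0 → IsRat Φ a → ∀ v P,
      |starDefect (xt Φ (ixC Φ)) (w Φ (ixC Φ)) (tau Φ (ixC Φ) (spC Φ)) 1 a (Zdiv Φ a)
        (lcG Φ (ixC Φ) (spC Φ) a) v P| ≤ gam v :=
    fun a ha _ => hAall a ha
  -- the fixed data of B.8 and the glue to the frame
  obtain ⟨Dat⟩ := Fermat.Agent.S17.Pos.FixedData.exists_data N hR hg (δ := δ) (by omega)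
    (Fermat.Agent.S17.Dict.CanDivX0.gal_smul_KX0 N)
  choose a1 a2 R1 R2 ha1 ha2 hr1 hr2 hZ1 hZ2 hdisj hst1 hoo1 hd1 using
    fun l => exists_glue Φ Dat hR l
  -- B.11-prime
  have h11 := Fermat.Agent.S17.Pos.H11X0.h11_X0 hR hch hg hix hsp hgam
    (fun a ha v P => le_trans (le_abs_self _) (hAall a ha v P))
    (EN Dat) Dat.G (fun l σ a => Dat.G_fixed σ l a)
    (fun l a => by rw [zInt_EN]; exact Dat.G_mem l a) Dat.G_linInd
    (fun l => (Dat.a l)⁻¹) (fun l => Dat.inv_a_ne l)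
    (fun l v => by rw [zInt_EN]; exact Dat.hcan l v)
    Dat.O Dat.O_disjoint Dat.hO_stable (fun l i T hT => EN_apply_of_mem_O Dat i l hT)
    (fun S r hS => Dat.card_TT_sdiff S hS)
  -- B.12
  have h12 := Fermat.Agent.S17.Pos.AdjunctionDx.h12_Dx hR hch hsp haff hgam hA (EN Dat) R1 R2
    a1 a2 ha1 ha2 hr1 hr2 hZ1 hZ2 hdisj (fun l => (Dat.a l)⁻¹) (fun l => Dat.inv_a_ne l)
    (fun σ l => Dat.inv_a_fixed σ l)
    (fun l P => by
      rw [Fermat.Agent.S17.Adj.CanDivBridge.ordDifferential_inv_smul_dj N δ (Dat.a_ne l)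
        (Dat.E_apply l) P, ← zInt_EN Dat l]
      rfl)
  -- B.14
  have hlb := lower_bound hR hch hδ hδ0 hgam hA (Fermat.Agent.S17.Model.FrameResidual.hlam_X0 hch)
    Fermat.Agent.S17.Model.FrameResidual.hh_X0 (EN Dat) R1 (EN_disjoint Dat) (degR_zInt_EN Dat)
    a1 ha1 hr1 hZ1 hst1 hoo1 hd1 Dat.O Dat.hO_stable Dat.hO_oo (O_card_le Dat hg) h11 h12
  -- B.6 + B.15 + B.16
  exact heightPackage_of_lower hR hch hδ hδ0 hgam hA Fermat.Agent.S17.Model.FrameResidual.hh_X0 hlb
    (Fermat.Agent.S17.Pos.NorthX0Nht.hfinN hR hch hδ0)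

end Fermat.Agent.S17.Pos.Main
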