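import Mathlib
import Fermat.Agent.S17.Adj.AdjX0

/-!
# PROJECT H (S17), Part B, `h12` of `Ht.Qf_bGlob_ge` for `X₀(N)` in the shape of `Pos/Main`

A thin wrapper around `Adj/AdjX0.kapE_le_kapTau_X0`: the common part `E` of the two zero divisors
`Z(a₁)`, `Z(a₂)` is given by `E ≤ Z(a_b)` with disjoint residuals `Z(a_b) - E`, the differential is
`η = hE • dj` with `hE` rational and `div η = δ∞ - E`, the lifts are affine off `∞`
(`ix P = 0` for `P ≠ ∞`), and the effective stable `D` avoids `∞` and `supp E`.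
-/

set_option autoImplicit false
set_option linter.unusedSectionVars false
set_option linter.style.haveILetI false
set_option synthInstance.maxHeartbeats 400000
set_option maxHeartbeats 1600000

noncomputable section

namespace Fermat.Agent.S17.Pos.Adjunction

open AlgebraicCurve AlgebraicCurve.SemilinearAut ModularCurve KaehlerDifferential
open Fermat.Agent.S17.Model.Lift Fermat.Agent.S17.Model.Embed
open Fermat.Agent.S17.Dict.QStructure
open Fermat.Agent.S17.B.Frame Fermat.Agent.S17.Ht Fermat.Agent.S17.Model.Global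
open Fermat.Agent.S17.Adj.AdjX0
open Fermat.Agent.S24.DegreeAlg (jgen)

open scoped Classical

local notation "Kb" => AlgebraicClosure ℚ

variable {N : ℕ} [NeZero N] {δ : ℕ} {Φ : RatFrame N δ}
variable {ix : X N → Fin (Φ.n + 1)} {sp : X N → modularFunctionFieldBar N}

/-- **`h12` for `X₀(N)`** (`e = 1`), differential given as `hE • dj` -/
theorem h12_X0 (hch : IsEquivChoice Φ ix sp)
    (hsp : ∀ (σ : GQ) (P : X N), sp (gal N σ • P) = gal N σ • sp P)
    {gam : Pl → ℝ} (hgam : AZ gam)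
    (hA : ∀ a : Fin (Φ.n + 1) → Qbar, a ≠ 0 → ∀ v P,
      - gam v ≤ starDefect (xt Φ ix) (w Φ ix) (tau Φ ix sp) 1 a (Zdiv Φ a) (lcG Φ ix sp a) v P)
    (E : X N →₀ ℕ) {a1 a2 : Fin (Φ.n + 1) → Qbar} (ha1 : a1 ≠ 0) (ha2 : a2 ≠ 0)
    (hE1 : E ≤ Zdiv Φ a1) (hE2 : E ≤ Zdiv Φ a2)
    (hsep : Disjoint (Zdiv Φ a1 - E).support (Zdiv Φ a2 - E).support)
    {hE : modularFunctionFieldBar N} (hE0 : hE ≠ 0) (hhE : ∀ σ : GQ, gal N σ • hE = hE)
    (hdiv : ∀ P : X N, P.ordDifferential (hE • D Kb (modularFunctionFieldBar N) (jgen N))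
      = dOO N δ P - (E P : ℤ))
    (haff : ∀ P : X N, P ≠ oo N → ix P = 0) :
    ∃ C6 : ℝ, ∀ D : X N →₀ ℤ, (letI := actX N; Stable D) → (∀ P, 0 ≤ D P) → D (oo N) = 0 →
      Disjoint D.support E.support →
      ((1 : ℕ) : ℝ) * hgt (xt Φ ix) D - hDelta (xt Φ ix) (w Φ ix) D (zInt E)
        ≤ kapTau (xt Φ ix) (tau Φ ix sp) D + C6 * degR D := by
  letI := actX N
  let a : Fin 2 → Fin (Φ.n + 1) → Qbar := ![a1, a2]
  let ZE' : Fin 2 → X N →₀ ℕ := ![Zdiv Φ a1 - E, Zdiv Φ a2 - E]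
  have ha : ∀ b, a b ≠ 0 := by
    intro b
    fin_cases b
    · exact ha1
    · exact ha2
  have hZ : ∀ b, Zdiv Φ (a b) = E + ZE' b := by
    intro b
    fin_cases b
    · exact (add_tsub_cancel_of_le hE1).symm
    · exact (add_tsub_cancel_of_le hE2).symm
  obtain ⟨C6, hC6⟩ := kapE_le_kapTau_X0 (Φ := Φ) (ix := ix) (sp := sp) hch hsp hE0 hhE a ha E ZE' hZ
    hsep hdiv hgam (fun b v P => hA (a b) (ha b) v P)
  refine ⟨C6, fun D hst hD0 hoo hdisj => hC6 D hst hD0 ?_⟩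
  intro P hP
  have hPoo : P ≠ oo N := by
    rintro rfl
    exact (Finsupp.mem_support_iff.mp hP) hoo
  refine ⟨?_, ?_, ?_⟩
  · rw [haff P hPoo]
    rfl
  · by_contra h
    exact (Finset.disjoint_left.mp hdisj hP) (Finsupp.mem_support_iff.mpr h)
  · unfold dOO
    rw [Finsupp.single_apply, if_neg (Ne.symm hPoo)]

/-- **`h12` for `X₀(N)`**, differential given abstractly with a rationality witness -/
theorem h12_X0' (hch : IsEquivChoice Φ ix sp)
    (hsp : ∀ (σ : GQ) (P : X N), sp (gal N σ • P) = gal N σ • sp P)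
    {gam : Pl → ℝ} (hgam : AZ gam)
    (hA : ∀ a : Fin (Φ.n + 1) → Qbar, a ≠ 0 → ∀ v P,
      - gam v ≤ starDefect (xt Φ ix) (w Φ ix) (tau Φ ix sp) 1 a (Zdiv Φ a) (lcG Φ ix sp a) v P)
    (E : X N →₀ ℕ) {a1 a2 : Fin (Φ.n + 1) → Qbar} (ha1 : a1 ≠ 0) (ha2 : a2 ≠ 0)
    (hE1 : E ≤ Zdiv Φ a1) (hE2 : E ≤ Zdiv Φ a2)
    (hsep : Disjoint (Zdiv Φ a1 - E).support (Zdiv Φ a2 - E).support)
    (eta : Ω[modularFunctionFieldBar N⁄Kb]) (heta0 : eta ≠ 0)
    (heta_rat : ∃ hE : modularFunctionFieldBar N, (∀ σ : GQ, gal N σ • hE = hE) ∧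
      eta = hE • D Kb (modularFunctionFieldBar N) (jgen N))
    (hdiv : ∀ P : X N, P.ordDifferential eta = dOO N δ P - (E P : ℤ))
    (haff : ∀ P : X N, P ≠ oo N → ix P = 0) :
    ∃ C6 : ℝ, ∀ D : X N →₀ ℤ, (letI := actX N; Stable D) → (∀ P, 0 ≤ D P) → D (oo N) = 0 →
      Disjoint D.support E.support →
      ((1 : ℕ) : ℝ) * hgt (xt Φ ix) D - hDelta (xt Φ ix) (w Φ ix) D (zInt E)
        ≤ kapTau (xt Φ ix) (tau Φ ix sp) D + C6 * degR D := by
  obtain ⟨hE, hhE, rfl⟩ := heta_rat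
  have hE0 : hE ≠ 0 := by
    rintro rfl
    exact heta0 (zero_smul _ _)
  exact h12_X0 hch hsp hgam hA E ha1 ha2 hE1 hE2 hsep hE0 hhE hdiv haff

end Fermat.Agent.S17.Pos.Adjunction
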