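import Fermat.Agent.S17.Model.FrameGamma
import Fermat.Agent.S17.Abs.DegZeroT

/-!
# PROJECT H (S17), Part B: B.13-prime for `X₀(N)` (`Pos/DegZeroX0`)

`Abs/DegZeroT.degZero_T_add` in the frame of `Model/FrameGamma.lean`:
`PP := stableDiv (HX0 N)`, `PP₀ := PP ⊓ degZero`, `ρ := rhoX0 hR`, `EE := EE (HX0 N) (3 g)`,
`ZZ := ZZ (HX0 N) (oo N) δ`.  Inputs: the literal B.4 on `PP × ZZ` (with main term
`deg D · κ Z`) and the trivial bound `b P R ≤ c₀ + (h P + h R)/δ` off the diagonal.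
Output: for `E₀ = ρ y + ∑ ± E_j` (`E_j ∈ EE`) and `ε > 0` there is `C₁` with
`|⟨D - (deg D) ∞, E₀⟩| ≤ ε h(D)/δ + C₁` for all stable effective `D` of degree `≤ g` off `∞`.
-/

set_option autoImplicit false
set_option linter.unusedSectionVars false

noncomputable section

namespace Fermat.Agent.S17.Pos.DegZeroX0

open AlgebraicCurve ModularCurve Fermat.Agent.S18.NonSpecial Fermat.Agent.S17.Abs.PairQuad
open Fermat.Agent.S17.Abs.DegZeroT
open Fermat.Agent.S17.Model.Reduced Fermat.Agent.S17.Model.Reciprocity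
open Fermat.Agent.S17.Model.Parallelogram Fermat.Agent.S17.Model.ReducedX0
open Fermat.Agent.S17.Model.FrameGamma

local notation "Kb" => AlgebraicClosure ℚ

variable {N : ℕ} [NeZero N] {g : ℕ} (hR : RiemannHyp Kb (modularFunctionFieldBar N) g)

attribute [local instance] Fermat.Agent.S18.A.Instances.hasPrincipalDivisors_bar

local notation "Dv" => Divisor Kb (modularFunctionFieldBar N)

/-- the real degree of `Abs/DegZeroT` is the degree of divisors -/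
theorem degF_eq_degree (D : Dv) : degF D = ((Divisor.degree D : ℤ) : ℝ) :=
  degF_eq_cast (Divisor.degree (K := Kb) (F := modularFunctionFieldBar N))
    (fun P n => by
      rw [Divisor.degree_single, Fermat.Agent.S18.A.Instances.deg_one_bar N P]; simp) D

/-- `δ ∞ = Z(1)` is a zero divisor of a rational section -/
theorem single_oo_mem_ZZ (δ : ℕ) :
    (Finsupp.single (oo N) (δ : ℤ) : Dv) ∈ ZZ (HX0 N) (oo N) δ := by
  refine ⟨1, one_ne_zero, fun h _ => smul_one h, ?_, 0, fun v => ?_, by rw [zero_add]⟩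
  · exact Finsupp.single_nonneg.mpr (by positivity)
  · rw [Finsupp.zero_apply, v.ord_one]

include hR in
/-- (Fr4) in the shape needed by `degZero_T`: every `ρ y` is `W - r ∞` with `W ≤ Z ∈ ZZ`. -/
theorem exists_le_mem_ZZ {δ : ℕ} (hδ : g + g ≤ δ) (y : Gam N) :
    ∃ Z ∈ ZZ (HX0 N) (oo N) δ, Dx hR (y : JZero N) ≤ Z := by
  have hst : IsStable (HX0 N) (Dx hR (y : JZero N)) :=
    (isStable_HX0_iff N).mpr fun σ => galAut_smul_Dx_of_mem hR y.2 σ
  have hdeg : Divisor.degree (Dx hR (y : JZero N)) ≤ (g : ℤ) := by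
    rw [degree_Dx]; exact_mod_cast rx_le hR (y : JZero N)
  obtain ⟨s, hs0, hsfix, hsmem⟩ :=
    exists_fixed_section_X0 hR hδ (Dx hR (y : JZero N)) (Dx_nonneg hR _) hst hdeg
  obtain ⟨Ds, hDs, -⟩ := HasPrincipalDivisors.exists_divisor (K := Kb) s hs0
  have hZA : Dx hR (y : JZero N) ≤ Ds + Finsupp.single (oo N) (δ : ℤ) := by
    rw [Finsupp.le_def]
    intro v
    have h1 := (Fermat.Agent.S36.K0Descent.mem_rr_iff_of_ne_zero hs0).mp hsmem v
    rw [Finsupp.add_apply, hDs v]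
    rw [Finsupp.sub_apply] at h1
    linarith
  exact ⟨Ds + Finsupp.single (oo N) (δ : ℤ),
    ⟨s, hs0, hsfix, (Dx_nonneg hR _).trans hZA, Ds, hDs, rfl⟩, hZA⟩

/-- **B.13-prime for `X₀(N)`.** -/
theorem degZero_X0 {δ : ℕ} (hδ : 4 * g ≤ δ) (hδ0 : 0 < δ)
    {b : Place Kb (modularFunctionFieldBar N) → Place Kb (modularFunctionFieldBar N) → ℝ}
    {h : Place Kb (modularFunctionFieldBar N) → ℝ} {c0 γ : ℝ} (hc0 : 0 ≤ c0) (hγ : 0 ≤ γ)
    (hne : ∀ P R, P ≠ R → b P R ≤ c0 + (h P + h R) / (δ : ℝ)) (hh : ∀ P, 0 ≤ h P)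
    (κ : Dv → ℝ)
    (hB4 : ∀ D ∈ stableDiv (HX0 N), ∀ Z ∈ ZZ (HX0 N) (oo N) δ,
      |Bil b D Z - ((Divisor.degree D : ℤ) : ℝ) * κ Z| ≤ γ * nrm1 D)
    (y : Gam N) (l : List Dv)
    (hl : ∀ E ∈ l, E ∈ EE (HX0 N) (3 * g) ∨ -E ∈ EE (HX0 N) (3 * g)) {E0 : Dv}
    (hE0 : E0 = rhoX0 hR y + l.sum) {ε : ℝ} (hε : 0 < ε) :
    ∃ C1 : ℝ, ∀ D : Dv, IsStable (HX0 N) D → 0 ≤ D → Divisor.degree D ≤ (g : ℤ) →
      D (oo N) = 0 →
      |Bil b (D - Finsupp.single (oo N) (Divisor.degree D)) E0| ≤ ε * (hgtF h D / (δ : ℝ)) + C1 := by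
  have hdl : (0 : ℝ) < (δ : ℝ) := by exact_mod_cast hδ0
  have hB4' : ∀ D ∈ stableDiv (HX0 N), ∀ Z ∈ ZZ (HX0 N) (oo N) δ,
      |Bil b D Z - degF D * κ Z| ≤ γ * nrm1 D := by
    intro D hD Z hZ
    rw [degF_eq_degree]
    exact hB4 D hD Z hZ
  have hRec := reciprocity_X0 hR (δ := δ) (d := 3 * g) (by omega) b
    (hB4_of_kappa (oo N) δ b κ hB4)
  obtain ⟨C1, hC1⟩ := degZero_T_add (b := b) (h := h) (c0 := c0) (dl := (δ : ℝ)) (γ := γ)
    hc0 hdl hγ hne hh (stableDiv (HX0 N)) (stableDiv (HX0 N) ⊓ Divisor.degZero) (oo N) (δ : ℤ)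
    (by push_cast; rfl) (κ (Finsupp.single (oo N) (δ : ℤ)))
    (fun D hD => hB4' D hD _ (single_oo_mem_ZZ δ))
    (fun D hD r hr => by
      refine ⟨IsStable.sub hD (isStable_single (HX0_smul_oo N) r), ?_⟩
      show Divisor.degree (D - Finsupp.single (oo N) r) = 0
      rw [degF_eq_degree] at hr
      have hr' : r = Divisor.degree D := by exact_mod_cast hr
      rw [map_sub, Divisor.degree_single, deg_oo N, hr']
      simp)
    (EE (HX0 N) (3 * g)) (C := 2 * γ) (by positivity) hRec (rhoX0 hR) (rhoX0_two_nsmul hR)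
    (fun y' => by
      obtain ⟨Z, hZ, hWZ⟩ := exists_le_mem_ZZ hR (δ := δ) (by omega) y'
      refine ⟨Dx hR (y' : JZero N), Z, κ Z, (rx hR (y' : JZero N) : ℤ), Dx_nonneg hR _, hWZ, ?_,
        fun D hD => hB4' D hD Z hZ, rhoX0_eq hR y'⟩
      rw [degF_eq_degree, degree_of_mem_ZZ (deg_oo N) hZ]
      simp)
    (g : ℝ) y l hl hE0 hε
  refine ⟨C1, fun D hDst hD hDg hoo => ?_⟩
  refine hC1 D hDst hD ?_ hoo (Divisor.degree D) (degF_eq_degree D).symm
  rw [degF_eq_degree]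
  exact_mod_cast hDg

end Fermat.Agent.S17.Pos.DegZeroX0
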