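import Fermat.Agent.S17.Model.Global
import Fermat.Agent.S17.Ht.Wedge
import Fermat.Agent.S17.Ht.Rational
import Fermat.Agent.S17.Pos.DegZeroX0

/-!
# PROJECT H (S17), Part B: B.13-prime for `X₀(N)` in the global frame of `Model/Global.lean`

`Pos/DegZeroX0.degZero_X0` for `b := bGlob (xt Φ ix) (w Φ ix) (tau Φ ix sp) δ` and
`h P := totalLam (xt Φ ix P)`: the conclusion reads `ε * Nht (xt Φ ix) δ D + C₁`, literally the
hypothesis `h13` of the B-form of B.14 (5) (`Ht/PositivityB`).  The only remaining input is the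
literal B.4 on `stableDiv (HX0 N) × ZZ (HX0 N) (oo N) δ`.
-/

set_option autoImplicit false
set_option linter.unusedSectionVars false

noncomputable section

namespace Fermat.Agent.S17.Pos.DegZeroX0Ht

open AlgebraicCurve ModularCurve Fermat.Agent.S18.NonSpecial Fermat.Agent.S17.Abs.PairQuad
open Fermat.Agent.S17.Model.Lift Fermat.Agent.S17.Model.Embed
open Fermat.Agent.S17.B.Frame Fermat.Agent.S17.Ht Fermat.Agent.S17.Model.Global
open Fermat.Agent.S17.Model.Reciprocity Fermat.Agent.S17.Model.Parallelogram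
open Fermat.Agent.S17.Model.ReducedX0 Fermat.Agent.S17.Model.FrameGamma

local notation "Kb" => AlgebraicClosure ℚ

variable {N : ℕ} [NeZero N] {δ : ℕ} {Φ : RatFrame N δ}
variable {ix : X N → Fin (Φ.n + 1)} {sp : X N → modularFunctionFieldBar N}

open scoped Classical

/-- the chord vectors of `Model/Global` are the wedge products of `Local/Chordal` -/
theorem w_eq_chordal_wedge (P R : X N) :
    w Φ ix P R = Fermat.Agent.S17.Local.Chordal.wedge (xt Φ ix P) (xt Φ ix R) := rfl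

/-- the height of a point is nonnegative (one coordinate of the lift is `1`) -/
theorem totalLam_xt_nonneg (P : X N) : 0 ≤ totalLam (xt Φ ix P) :=
  totalLam_nonneg_of_eq_one (i := ix P) (zvec_self (hxN N) P Φ.model.ne_zero (ix P))

/-- the trivial bound off the diagonal -/
theorem bGlob_le_of_ne_X0 (hch : IsEquivChoice Φ ix sp) {P R : X N} (hPR : P ≠ R) :
    bGlob (xt Φ ix) (w Φ ix) (tau Φ ix sp) δ P R ≤
      Real.log 2 + (totalLam (xt Φ ix P) + totalLam (xt Φ ix R)) / (δ : ℝ) :=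
  Fermat.Agent.S17.Ht.bGlob_le_of_ne (xt Φ ix) (w Φ ix) (tau Φ ix sp) δ (goodData hch).1 hPR
    ((goodData hch).2.1 P R hPR)
    (Fermat.Agent.S17.Local.Chordal.nrm_wedge_le (absAt none) (xt Φ ix P) (xt Φ ix R))
    (fun p => Fermat.Agent.S17.Local.Chordal.nrm_wedge_le_of_nonarch (absAt (some p))
      (isNonarchimedean_absAt_some p) (xt Φ ix P) (xt Φ ix R))

variable {g : ℕ} (hR : RiemannHyp Kb (modularFunctionFieldBar N) g)

attribute [local instance] Fermat.Agent.S18.A.Instances.hasPrincipalDivisors_bar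

/-- **B.13-prime for `X₀(N)` in the global frame.** -/
theorem degZero_X0_bGlob (hch : IsEquivChoice Φ ix sp) (hδ : 4 * g ≤ δ) (hδ0 : 0 < δ) {γ : ℝ}
    (hγ : 0 ≤ γ) (κ : Divisor Kb (modularFunctionFieldBar N) → ℝ)
    (hB4 : ∀ D ∈ stableDiv (HX0 N), ∀ Z ∈ ZZ (HX0 N) (oo N) δ,
      |Bil (bGlob (xt Φ ix) (w Φ ix) (tau Φ ix sp) δ) D Z
        - ((Divisor.degree D : ℤ) : ℝ) * κ Z| ≤ γ * nrm1 D)
    (y : Gam N) (l : List (Divisor Kb (modularFunctionFieldBar N)))
    (hl : ∀ E ∈ l, E ∈ EE (HX0 N) (3 * g) ∨ -E ∈ EE (HX0 N) (3 * g))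
    {E0 : Divisor Kb (modularFunctionFieldBar N)} (hE0 : E0 = rhoX0 hR y + l.sum) {ε : ℝ}
    (hε : 0 < ε) :
    ∃ C1 : ℝ, ∀ D : Divisor Kb (modularFunctionFieldBar N), IsStable (HX0 N) D → 0 ≤ D →
      Divisor.degree D ≤ (g : ℤ) → D (oo N) = 0 →
      |Bil (bGlob (xt Φ ix) (w Φ ix) (tau Φ ix sp) δ)
          (D - Finsupp.single (oo N) (Divisor.degree D)) E0| ≤ ε * Nht (xt Φ ix) δ D + C1 :=
  Fermat.Agent.S17.Pos.DegZeroX0.degZero_X0 hR hδ hδ0
    (b := bGlob (xt Φ ix) (w Φ ix) (tau Φ ix sp) δ) (h := fun P => totalLam (xt Φ ix P))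
    (Real.log_nonneg one_le_two) hγ (fun _ _ hPR => bGlob_le_of_ne_X0 hch hPR)
    (fun P => totalLam_xt_nonneg P) κ hB4 y l hl hE0 hε

end Fermat.Agent.S17.Pos.DegZeroX0Ht
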