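/-
PROJECT H (S17), slice P7 (helper4): the LOCAL determinant bound B.10 in the frame of `Ht/Recip`,
abstract half.

Frame of `Ht/Recip.lean` / `Ht/GlobalDet.lean`: points `X`, lifts `xt`, wedges `w`, tangents `tau`
with values in `Qbar`-tuples, the fixed places `absAt v`.  Additional data: the zero divisor
`Zof a`, the leading coefficients `lcof a P` and the Hasse coefficients `jet P j a` of the form
with coefficient vector `a`; a family `G : Fin g → α → Qbar` of forms vanishing on a fixed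
effective divisor `E`; a set `U` of admissible points (off `supp E` and `∞`).

* `upperHypConf` : the upper half of the two-sided local estimate `(A*)` (hypothesis `hA`, in the
  literal `starDefect` form of `Ht/Recip`) gives hypothesis `UpperHypConf` of `Abs/ConfluentDet`
  at every place, with weights `wv`, `thv`, `dv` and constant `Cv`.
* `logAbs_det_le` : the resulting bound for the confluent determinant of a condition list whose
  divisor is `D + Bp` (`Bp` = auxiliary simple points), literally in the shape `hloc` consumed by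
  `Ht.prox_le_of_local_det` (B.11).
-/
import Fermat.Agent.S17.Ht.GlobalDet
import Fermat.Agent.S17.Abs.ConfluentDet

set_option autoImplicit false
set_option linter.unusedSectionVars false

noncomputable section

namespace Fermat.Agent.S17.Pos.DetLocal

open Fermat.Agent.S17.Ht Fermat.Agent.S17.Abs.ConfluentDet

/-! ### sup norms of linear combinations -/

section Comb

/-- a finite sum is bounded by the common bound of its terms at a nonarchimedean place -/
theorem absAt_sum_le_of_nonarch (p : Nat.Primes) {β : Type*} (s : Finset β) (f : β → Qbar)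
    {B : ℝ} (hB : 0 ≤ B) (h : ∀ i ∈ s, absAt (some p) (f i) ≤ B) :
    absAt (some p) (∑ i ∈ s, f i) ≤ B := by
  classical
  induction s using Finset.induction_on with
  | empty => simpa using hB
  | insert i s hi ih =>
    rw [Finset.sum_insert hi]
    refine (isNonarchimedean_absAt_some p _ _).trans (max_le ?_ ?_)
    · exact h i (Finset.mem_insert_self i s)
    · exact ih fun j hj => h j (Finset.mem_insert_of_mem hj)

/-- the archimedean factor of a sum of `g` terms -/
def kv (g : ℕ) (v : Pl) : ℝ := if v = none then max 1 (g : ℝ) else 1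

theorem kv_pos (g : ℕ) (v : Pl) : 0 < kv g v := by
  unfold kv
  split_ifs
  · exact lt_max_of_lt_left one_pos
  · exact one_pos

theorem kv_some (g : ℕ) (p : Nat.Primes) : kv g (some p) = 1 := by
  unfold kv
  rw [if_neg (by simp)]

variable {α : Type*} [Finite α] {g : ℕ}

/-- the size of the family `G` at `v` -/
def Av (G : Fin g → α → Qbar) (v : Pl) : ℝ := max 1 (⨆ a, nrm v (G a))

theorem one_le_Av (G : Fin g → α → Qbar) (v : Pl) : 1 ≤ Av G v := le_max_left _ _

theorem nrm_le_Av (G : Fin g → α → Qbar) (v : Pl) (a : Fin g) : nrm v (G a) ≤ Av G v :=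
  le_trans (le_ciSup (f := fun a => nrm v (G a)) (Set.finite_range _).bddAbove a)
    (le_max_right _ _)

theorem az_log_Av (G : Fin g → α → Qbar) : AZ (fun v => Real.log (Av G v)) := by
  classical
  have hfin : (⋃ a : Fin g, {p : Nat.Primes | 1 < nrm (some p) (G a)}).Finite := by
    refine Set.finite_iUnion fun a => ?_
    by_cases ha : G a = 0
    · refine Set.Finite.subset Set.finite_empty fun p hp => ?_
      have h0 : nrm (some p) (G a) = 0 := by
        rw [ha]
        unfold nrm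
        simp
      have hp' : (1 : ℝ) < nrm (some p) (G a) := hp
      rw [h0] at hp'
      exact absurd hp' (by norm_num)
    · exact (finite_setOf_nrm_ne_one ha).subset fun p hp => ne_of_gt hp
  refine az_of_finite hfin fun p hp => ?_
  have hle : ∀ a, nrm (some p) (G a) ≤ 1 := by
    intro a
    by_contra hlt
    exact hp (Set.mem_iUnion.mpr ⟨a, not_le.mp hlt⟩)
  show Real.log (Av G (some p)) = 0
  unfold Av
  rw [max_eq_left, Real.log_one]
  rcases isEmpty_or_nonempty (Fin g) with hg | hg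
  · rw [Real.iSup_of_isEmpty]
    exact zero_le_one
  · exact ciSup_le hle

/-- the sup norm of a linear combination -/
theorem nrm_sum_smul_le (G : Fin g → α → Qbar) (v : Pl) (c : Fin g → Qbar) {M : ℝ}
    (hM : ∀ a, absAt v (c a) ≤ M) (hM0 : 0 ≤ M) :
    nrm v (∑ a, c a • G a) ≤ kv g v * M * Av G v := by
  have hA0 : 0 ≤ Av G v := le_trans zero_le_one (one_le_Av G v)
  have hterm : ∀ (i : α) (a : Fin g), absAt v (c a * G a i) ≤ M * Av G v := by
    intro i a
    rw [map_mul]
    exact mul_le_mul (hM a) ((absAt_le_nrm v (G a) i).trans (nrm_le_Av G v a))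
      ((absAt v).nonneg _) hM0
  refine nrm_le (mul_nonneg (mul_nonneg (kv_pos g v).le hM0) hA0) fun i => ?_
  have hval : (∑ a, c a • G a) i = ∑ a, c a * G a i := by
    simp [Finset.sum_apply]
  rw [hval]
  rcases v with _ | p
  · -- archimedean place
    have hk : kv g none = max 1 (g : ℝ) := by
      unfold kv
      rw [if_pos rfl]
    calc absAt none (∑ a, c a * G a i) ≤ ∑ a, absAt none (c a * G a i) :=
          (absAt none).sum_le _ _
      _ ≤ ∑ _a : Fin g, M * Av G none := Finset.sum_le_sum fun a _ => hterm i a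
      _ = (g : ℝ) * (M * Av G none) := by
          rw [Finset.sum_const, Finset.card_univ, Fintype.card_fin, nsmul_eq_mul]
      _ ≤ max 1 (g : ℝ) * (M * Av G none) :=
          mul_le_mul_of_nonneg_right (le_max_right _ _) (mul_nonneg hM0 hA0)
      _ = kv g none * M * Av G none := by rw [hk]; ring
  · rw [kv_some, one_mul]
    exact absAt_sum_le_of_nonarch p _ _ (mul_nonneg hM0 hA0) fun a _ => hterm i a

end Comb

/-! ### the local weights -/

section Weights

variable {X : Type*} {ι κ : Type*} [Finite ι] [Finite κ]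
variable (xt : X → ι → Qbar) (w : X → X → κ → Qbar) (tau : X → κ → Qbar) (e : ℕ)

/-- the local chordal distance `d_v(P,R)` -/
def dv (v : Pl) (P R : X) : ℝ := nrm v (w P R) / (nrm v (xt P) * nrm v (xt R))

/-- the tangent weight `‖τ P‖_v / ‖x̃ P‖_v²` -/
def thv (v : Pl) (P : X) : ℝ := nrm v (tau P) / nrm v (xt P) ^ 2

/-- the weight `M_v(P) = ‖x̃ P‖_v^e ∏_{T ∈ E} d_v(P,T)` -/
def wv (E : X →₀ ℕ) (v : Pl) (P : X) : ℝ :=
  nrm v (xt P) ^ e * ∏ T ∈ E.support, dv xt w v P T ^ E T

theorem dv_nonneg (v : Pl) (P R : X) : 0 ≤ dv xt w v P R :=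
  div_nonneg (nrm_nonneg _ _) (mul_nonneg (nrm_nonneg _ _) (nrm_nonneg _ _))

theorem thv_nonneg (v : Pl) (P : X) : 0 ≤ thv xt tau v P :=
  div_nonneg (nrm_nonneg _ _) (pow_nonneg (nrm_nonneg _ _) _)

theorem wv_nonneg (E : X →₀ ℕ) (v : Pl) (P : X) : 0 ≤ wv xt w e E v P :=
  mul_nonneg (pow_nonneg (nrm_nonneg _ _) _)
    (Finset.prod_nonneg fun _ _ => pow_nonneg (dv_nonneg xt w v _ _) _)

variable {xt w tau e}

theorem dv_pos (hxt : ∀ P, xt P ≠ 0) (v : Pl) {P R : X} (hw : w P R ≠ 0) :
    0 < dv xt w v P R :=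
  div_pos (nrm_pos hw) (mul_pos (nrm_pos (hxt P)) (nrm_pos (hxt R)))

theorem thv_pos (hxt : ∀ P, xt P ≠ 0) (htau : ∀ P, tau P ≠ 0) (v : Pl) (P : X) :
    0 < thv xt tau v P :=
  div_pos (nrm_pos (htau P)) (pow_pos (nrm_pos (hxt P)) _)

theorem wv_pos (hxt : ∀ P, xt P ≠ 0) (E : X →₀ ℕ) (v : Pl) {P : X}
    (hw : ∀ T ∈ E.support, w P T ≠ 0) : 0 < wv xt w e E v P :=
  mul_pos (pow_pos (nrm_pos (hxt P)) _)
    (Finset.prod_pos fun T hT => pow_pos (dv_pos hxt v (hw T hT)) _)

theorem log_dv (hxt : ∀ P, xt P ≠ 0) (v : Pl) {P R : X} (hw : w P R ≠ 0) :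
    Real.log (dv xt w v P R) = - lamD xt w v P R := by
  unfold dv lamD lam
  rw [Real.log_div (nrm_pos hw).ne' (mul_pos (nrm_pos (hxt P)) (nrm_pos (hxt R))).ne',
    Real.log_mul (nrm_pos (hxt P)).ne' (nrm_pos (hxt R)).ne']
  ring

theorem log_thv (hxt : ∀ P, xt P ≠ 0) (htau : ∀ P, tau P ≠ 0) (v : Pl) (P : X) :
    Real.log (thv xt tau v P) = lam v (tau P) - 2 * lam v (xt P) := by
  unfold thv lam
  rw [Real.log_div (nrm_pos (htau P)).ne' (pow_pos (nrm_pos (hxt P)) _).ne', Real.log_pow]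
  norm_num

theorem log_wv (hxt : ∀ P, xt P ≠ 0) (E : X →₀ ℕ) (v : Pl) {P : X}
    (hw : ∀ T ∈ E.support, w P T ≠ 0) :
    Real.log (wv xt w e E v P) =
      (e : ℝ) * lam v (xt P) - ∑ T ∈ E.support, (E T : ℝ) * lamD xt w v P T := by
  unfold wv
  rw [Real.log_mul (pow_pos (nrm_pos (hxt P)) _).ne'
    (Finset.prod_pos fun T hT => pow_pos (dv_pos hxt v (hw T hT)) _).ne', Real.log_pow,
    Real.log_prod fun T hT => (pow_pos (dv_pos hxt v (hw T hT)) _).ne']
  have : ∀ T ∈ E.support, Real.log (dv xt w v P T ^ E T) = - ((E T : ℝ) * lamD xt w v P T) :=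
    fun T hT => by rw [Real.log_pow, log_dv hxt v (hw T hT)]; ring
  rw [Finset.sum_congr rfl this, Finset.sum_neg_distrib]
  rfl

end Weights

/-! ### `UpperHypConf` from the upper half of `(A*)` -/

section Upper

variable {X : Type*} [DecidableEq X] {ι κ α : Type*} [Finite ι] [Finite κ] [Finite α]
variable (xt : X → ι → Qbar) (w : X → X → κ → Qbar) (tau : X → κ → Qbar) (δ e : ℕ)
variable (U : Set X) (Zof : (α → Qbar) → X →₀ ℕ) (lcof : (α → Qbar) → X → Qbar)
  (jet : X → ℕ → (α → Qbar) → Qbar) {g : ℕ} (G : Fin g → α → Qbar) (E : X →₀ ℕ)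
  (gam Dv : Pl → ℝ)

/-- the constant of the local determinant bound -/
def Cv (v : Pl) : ℝ := Real.exp (gam v) * kv g v * Av G v * Dv v ^ (e * δ)

theorem Cv_pos (hDv : ∀ v, 1 ≤ Dv v) (v : Pl) : 0 < Cv δ e G gam Dv v :=
  mul_pos (mul_pos (mul_pos (Real.exp_pos _) (kv_pos g v))
    (lt_of_lt_of_le one_pos (one_le_Av G v))) (pow_pos (lt_of_lt_of_le one_pos (hDv v)) _)

theorem log_Cv (hDv : ∀ v, 1 ≤ Dv v) (v : Pl) :
    Real.log (Cv δ e G gam Dv v) =
      gam v + Real.log (kv g v) + Real.log (Av G v) + ((e * δ : ℕ) : ℝ) * Real.log (Dv v) := by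
  unfold Cv
  have h1 := (Real.exp_pos (gam v)).ne'
  have h2 := (kv_pos g v).ne'
  have h3 := (lt_of_lt_of_le one_pos (one_le_Av G v)).ne'
  have h4 := (pow_pos (lt_of_lt_of_le one_pos (hDv v)) (e * δ)).ne'
  rw [Real.log_mul (mul_ne_zero (mul_ne_zero h1 h2) h3) h4, Real.log_mul (mul_ne_zero h1 h2) h3,
    Real.log_mul h1 h2, Real.log_exp, Real.log_pow]

theorem az_log_Cv (hDv : ∀ v, 1 ≤ Dv v) (hgam : AZ gam) (hDvaz : AZ fun v => Real.log (Dv v)) :
    AZ (fun v => Real.log (Cv δ e G gam Dv v)) := by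
  have hk : AZ (fun v => Real.log (kv g v)) :=
    az_of_finite Set.finite_empty fun p _ => by
      show Real.log (kv g (some p)) = 0
      rw [kv_some, Real.log_one]
  have := ((hgam.add hk).add (az_log_Av G)).add (hDvaz.const_mul ((e * δ : ℕ) : ℝ))
  refine this.subset fun p hp => ?_
  have hp' : Real.log (Cv δ e G gam Dv (some p)) ≠ 0 := hp
  rw [log_Cv δ e G gam Dv hDv] at hp'
  exact hp'

variable {xt w tau δ e U Zof lcof jet G E gam Dv}

/-- **P7, first half.**  The upper half of `(A*)` for all forms `∑ c_a G_a` gives hypothesis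
`UpperHypConf` of the confluent determinant bound at the place `v`. -/
theorem upperHypConf (hg : 0 < g) (hdata : GoodData xt w tau)
    (hlin : ∀ (P : X) (j : ℕ) (c : Fin g → Qbar),
      jet P j (∑ a, c a • G a) = ∑ a, c a * jet P j (G a))
    (hJ1 : ∀ a : α → Qbar, a ≠ 0 → ∀ P ∈ U, ∀ j < Zof a P, jet P j a = 0)
    (hJ2 : ∀ a : α → Qbar, a ≠ 0 → ∀ P ∈ U, jet P (Zof a P) a = lcof a P)
    (hlc0 : ∀ a : α → Qbar, a ≠ 0 → ∀ P ∈ U, lcof a P ≠ 0)
    (hE : ∀ c : Fin g → Qbar, (∑ a, c a • G a) ≠ 0 → E ≤ Zof (∑ a, c a • G a))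
    (hEU : ∀ T ∈ E.support, T ∉ U)
    (hZdeg : ∀ a : α → Qbar, a ≠ 0 → ∑ R ∈ (Zof a).support, Zof a R = e * δ)
    (hDv : ∀ v, 1 ≤ Dv v)
    (hdle : ∀ v P R, P ≠ R → - Real.log (Dv v) ≤ lamD xt w v P R)
    (hA : ∀ a : α → Qbar, a ≠ 0 → ∀ v, ∀ P ∈ U,
      starDefect xt w tau e a (Zof a) (lcof a) v P ≤ gam v) (v : Pl) :
    UpperHypConf (absAt v) (fun P j a => jet P j (G a)) (wv xt w e E v) (thv xt tau v)
      (dv xt w v) (Cv δ e G gam Dv v) U := by
  obtain ⟨hxt, hw, htau⟩ := hdata
  intro Dp hDp c M hM hz P hP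
  have hM0 : 0 ≤ M := le_trans ((absAt v).nonneg _) (hM ⟨0, hg⟩)
  have hjet : ∀ (R : X) (j : ℕ), ∑ a, c a * jet R j (G a) = jet R j (∑ a, c a • G a) :=
    fun R j => (hlin R j c).symm
  have hRHS0 : 0 ≤ Cv δ e G gam Dv v * M * wv xt w e E v P * thv xt tau v P ^ Dp P *
      ∏ R ∈ Dp.support.erase P, dv xt w v P R ^ Dp R :=
    mul_nonneg (mul_nonneg (mul_nonneg (mul_nonneg (Cv_pos δ e G gam Dv hDv v).le hM0)
      (wv_nonneg xt w e E v P)) (pow_nonneg (thv_nonneg xt tau v P) _))
      (Finset.prod_nonneg fun _ _ => pow_nonneg (dv_nonneg xt w v _ _) _)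
  show absAt v (∑ a, c a * jet P (Dp P) (G a)) ≤ _
  rw [hjet]
  by_cases ha' : (∑ a, c a • G a) = 0
  · -- the zero form
    have h0 : jet P (Dp P) (0 : α → Qbar) = 0 := by
      have := hlin P (Dp P) (fun _ => 0)
      simpa using this
    rw [ha', h0, map_zero]
    exact hRHS0
  · set a' : α → Qbar := ∑ a, c a • G a with ha'def
    set Z : X →₀ ℕ := Zof a' with hZdef
    -- the conditions force `Dp ≤ Z` on `U`
    have hDpZ : ∀ R ∈ U, Dp R ≤ Z R := by
      intro R hR
      by_contra hlt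
      rw [not_le] at hlt
      have h1 := hz R (Z R) hlt
      rw [hjet, hJ2 a' ha' R hR] at h1
      exact hlc0 a' ha' R hR h1
    rcases (hDpZ P hP).lt_or_eq with hlt | heq
    · rw [hJ1 a' ha' P hP _ hlt, map_zero]
      exact hRHS0
    · -- exact contact order: the leading coefficient
      rw [heq, hJ2 a' ha' P hP]
      have hPE : P ∉ E.support := fun h => hEU P h hP
      have hwE : ∀ T ∈ E.support, w P T ≠ 0 := fun T hT =>
        hw P T fun h => hPE (h ▸ hT)
      have hwD : ∀ R ∈ Dp.support.erase P, w P R ≠ 0 := fun R hR =>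
        hw P R (Finset.ne_of_mem_erase hR).symm
      -- `M > 0`
      have hMpos : 0 < M := by
        by_contra hM'
        have hM00 : M = 0 := le_antisymm (not_lt.mp hM') hM0
        apply ha'
        rw [ha'def]
        refine Finset.sum_eq_zero fun a _ => ?_
        have : c a = 0 := by
          have h1 := hM a
          rw [hM00] at h1
          exact (absAt v).eq_zero.mp (le_antisymm h1 ((absAt v).nonneg _))
        rw [this, zero_smul]
      have hlcpos : 0 < absAt v (lcof a' P) := absAt_pos (hlc0 a' ha' P hP)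
      have hCpos := Cv_pos δ e G gam Dv hDv v
      have hwpos := wv_pos (e := e) hxt E v hwE
      have hthpos := thv_pos hxt htau v P
      have hprodpos : 0 < ∏ R ∈ Dp.support.erase P, dv xt w v P R ^ Dp R :=
        Finset.prod_pos fun R hR => pow_pos (dv_pos hxt v (hwD R hR)) _
      have hRHSpos : 0 < Cv δ e G gam Dv v * M * wv xt w e E v P * thv xt tau v P ^ Z P *
          ∏ R ∈ Dp.support.erase P, dv xt w v P R ^ Dp R :=
        mul_pos (mul_pos (mul_pos (mul_pos hCpos hMpos) hwpos) (pow_pos hthpos _)) hprodpos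
      rw [← Real.log_le_log_iff hlcpos hRHSpos,
        Real.log_mul (mul_pos (mul_pos (mul_pos hCpos hMpos) hwpos) (pow_pos hthpos _)).ne'
          hprodpos.ne',
        Real.log_mul (mul_pos (mul_pos hCpos hMpos) hwpos).ne' (pow_pos hthpos _).ne',
        Real.log_mul (mul_pos hCpos hMpos).ne' hwpos.ne', Real.log_mul hCpos.ne' hMpos.ne',
        Real.log_pow, log_Cv δ e G gam Dv hDv, log_wv hxt E v hwE, log_thv hxt htau,
        Real.log_prod fun R hR => (pow_pos (dv_pos hxt v (hwD R hR)) _).ne']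
      have hlogd : ∀ R ∈ Dp.support.erase P, Real.log (dv xt w v P R ^ Dp R) =
          - ((Dp R : ℝ) * lamD xt w v P R) := fun R hR => by
        rw [Real.log_pow, log_dv hxt v (hwD R hR)]
        ring
      rw [Finset.sum_congr rfl hlogd, Finset.sum_neg_distrib]
      -- the size of the coefficient vector
      have hnrm : lam v a' ≤ Real.log (kv g v) + Real.log M + Real.log (Av G v) := by
        have h1 := nrm_sum_smul_le G v c hM hM0
        have h2 : 0 < nrm v a' := nrm_pos ha'
        have h3 := Real.log_le_log h2 h1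
        rw [Real.log_mul (mul_pos (kv_pos g v) hMpos).ne'
          (lt_of_lt_of_le one_pos (one_le_Av G v)).ne',
          Real.log_mul (kv_pos g v).ne' hMpos.ne'] at h3
        exact h3
      -- the upper half of `(A*)`
      have hstar := hA a' ha' v P hP
      unfold starDefect at hstar
      -- comparison of the distance sums
      have hlogDv : 0 ≤ Real.log (Dv v) := Real.log_nonneg (hDv v)
      have hEZ : E ≤ Z := hE c ha'
      have hsumZ : ∑ R ∈ Z.support, Z R = e * δ := hZdeg a' ha'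
      have hdisj : ∀ R, E R + Dp R ≤ Z R := by
        intro R
        by_cases hRE : R ∈ E.support
        · have hRU : R ∉ U := hEU R hRE
          have : Dp R = 0 := by
            by_contra h
            exact hRU (hDp R (Finsupp.mem_support_iff.mpr h))
          rw [this, add_zero]
          exact hEZ R
        · rw [Finsupp.notMem_support_iff.mp hRE, zero_add]
          by_cases hRD : R ∈ Dp.support
          · exact hDpZ R (hDp R hRD)
          · rw [Finsupp.notMem_support_iff.mp hRD]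
            exact Nat.zero_le _
      have hkey : (∑ T ∈ E.support, (E T : ℝ) * lamD xt w v P T)
          + (∑ R ∈ Dp.support.erase P, (Dp R : ℝ) * lamD xt w v P R)
          - ((e * δ : ℕ) : ℝ) * Real.log (Dv v)
          ≤ ∑ R ∈ Z.support.erase P, (Z R : ℝ) * lamD xt w v P R := by
        have hsubE : E.support ⊆ Z.support.erase P := by
          intro T hT
          rw [Finset.mem_erase, Finsupp.mem_support_iff]
          refine ⟨fun h => hPE (h ▸ hT), ?_⟩
          have h1 := hEZ T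
          have h2 := Finsupp.mem_support_iff.mp hT
          omega
        have hsubD : Dp.support.erase P ⊆ Z.support.erase P := by
          intro R hR
          rw [Finset.mem_erase, Finsupp.mem_support_iff]
          refine ⟨Finset.ne_of_mem_erase hR, ?_⟩
          have h1 := hDpZ R (hDp R (Finset.mem_of_mem_erase hR))
          have h2 := Finsupp.mem_support_iff.mp (Finset.mem_of_mem_erase hR)
          omega
        have e1 : ∑ T ∈ E.support, (E T : ℝ) * lamD xt w v P T =
            ∑ T ∈ Z.support.erase P, (E T : ℝ) * lamD xt w v P T :=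
          Finset.sum_subset hsubE fun T _ hT => by
            rw [Finsupp.notMem_support_iff.mp hT, Nat.cast_zero, zero_mul]
        have e2 : ∑ R ∈ Dp.support.erase P, (Dp R : ℝ) * lamD xt w v P R =
            ∑ R ∈ Z.support.erase P, (Dp R : ℝ) * lamD xt w v P R :=
          Finset.sum_subset hsubD fun R hR hRn => by
            have : Dp R = 0 := by
              by_contra h
              exact hRn (Finset.mem_erase.mpr
                ⟨(Finset.mem_erase.mp hR).1, Finsupp.mem_support_iff.mpr h⟩)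
            rw [this, Nat.cast_zero, zero_mul]
        have e3 : ((e * δ : ℕ) : ℝ) * Real.log (Dv v) ≥
            ∑ R ∈ Z.support.erase P, ((Z R : ℝ) - (E R : ℝ) - (Dp R : ℝ)) * Real.log (Dv v) := by
          rw [← Finset.sum_mul]
          refine mul_le_mul_of_nonneg_right ?_ hlogDv
          have h1 : ∑ R ∈ Z.support.erase P, ((Z R : ℝ) - (E R : ℝ) - (Dp R : ℝ)) ≤
              ∑ R ∈ Z.support.erase P, (Z R : ℝ) :=
            Finset.sum_le_sum fun R _ => by
              have : (0 : ℝ) ≤ (E R : ℝ) + (Dp R : ℝ) := by positivity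
              linarith
          have h2 : ∑ R ∈ Z.support.erase P, (Z R : ℝ) ≤ ∑ R ∈ Z.support, (Z R : ℝ) :=
            Finset.sum_le_sum_of_subset_of_nonneg (Finset.erase_subset _ _)
              fun _ _ _ => Nat.cast_nonneg _
          have h3 : ∑ R ∈ Z.support, (Z R : ℝ) = ((e * δ : ℕ) : ℝ) := by
            rw [← hsumZ, Nat.cast_sum]
          linarith
        rw [e1, e2]
        have e4 : ∀ R ∈ Z.support.erase P,
            (E R : ℝ) * lamD xt w v P R + (Dp R : ℝ) * lamD xt w v P R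
              - ((Z R : ℝ) - (E R : ℝ) - (Dp R : ℝ)) * Real.log (Dv v)
            ≤ (Z R : ℝ) * lamD xt w v P R := by
          intro R hR
          have hne : P ≠ R := (Finset.ne_of_mem_erase hR).symm
          have h1 := hdle v P R hne
          have h2 : (0 : ℝ) ≤ (Z R : ℝ) - (E R : ℝ) - (Dp R : ℝ) := by
            have := hdisj R
            have h' : ((E R + Dp R : ℕ) : ℝ) ≤ (Z R : ℝ) := Nat.cast_le.mpr this
            push_cast at h'
            linarith
          nlinarith
        have e5 := Finset.sum_le_sum e4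
        rw [Finset.sum_sub_distrib, Finset.sum_add_distrib] at e5
        linarith
      -- conclusion
      have hcast : ((e * δ : ℕ) : ℝ) = (e : ℝ) * (δ : ℝ) := by push_cast; ring
      unfold logAbs at hstar
      linarith

end Upper

/-! ### splitting the local quantities of `Ht/GlobalDet` over a disjoint sum -/

section Split

open Fermat.Agent.S17.Abs.PairQuad

variable {X : Type*} [DecidableEq X] {ι κ : Type*} [Finite ι] [Finite κ]
variable (xt : X → ι → Qbar) (w : X → X → κ → Qbar) (tau : X → κ → Qbar)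

theorem sum_support_add_of_disjoint {D B : X →₀ ℤ} (h : Disjoint D.support B.support)
    (F : X → ℤ → ℝ) :
    ∑ P ∈ (D + B).support, F P ((D + B) P) =
      ∑ P ∈ D.support, F P (D P) + ∑ P ∈ B.support, F P (B P) := by
  rw [Finsupp.support_add_eq h, Finset.sum_union h]
  congr 1
  · refine Finset.sum_congr rfl fun P hP => ?_
    have : B P = 0 := Finsupp.notMem_support_iff.mp (Finset.disjoint_left.mp h hP)
    rw [Finsupp.add_apply, this, add_zero]
  · refine Finset.sum_congr rfl fun P hP => ?_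
    have : D P = 0 := Finsupp.notMem_support_iff.mp (Finset.disjoint_right.mp h hP)
    rw [Finsupp.add_apply, this, zero_add]

theorem hgtLoc_add_of_disjoint (v : Pl) {D B : X →₀ ℤ} (h : Disjoint D.support B.support) :
    hgtLoc xt v (D + B) = hgtLoc xt v D + hgtLoc xt v B :=
  sum_support_add_of_disjoint h fun P n => (n : ℝ) * lam v (xt P)

theorem kap2Loc_add_of_disjoint (v : Pl) {D B : X →₀ ℤ} (h : Disjoint D.support B.support) :
    kap2Loc xt tau v (D + B) = kap2Loc xt tau v D + kap2Loc xt tau v B :=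
  sum_support_add_of_disjoint h fun P n =>
    ((n : ℝ) * ((n : ℝ) - 1) / 2) * (lam v (tau P) - 2 * lam v (xt P))

theorem hDeltaLoc_eq_Bil (v : Pl) (D E : X →₀ ℤ) :
    hDeltaLoc xt w v D E = Bil (lamD xt w v) D E :=
  (Bil_eq_sum (lamD xt w v) D E).symm

theorem hDeltaLoc_add_left (v : Pl) (D B E : X →₀ ℤ) :
    hDeltaLoc xt w v (D + B) E = hDeltaLoc xt w v D E + hDeltaLoc xt w v B E := by
  simp only [hDeltaLoc_eq_Bil, Bil_add_left]

/-- the off-diagonal part of `λ_v` -/
def lamOff (v : Pl) (P R : X) : ℝ := if P = R then 0 else lamD xt w v P R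

theorem proxLoc_eq_Bil (v : Pl) (D : X →₀ ℤ) :
    proxLoc xt w v D = (1 / 2) * Bil (lamOff xt w v) D D := by
  unfold proxLoc
  rw [Bil_eq_sum]
  congr 1
  refine Finset.sum_congr rfl fun P _ => ?_
  rw [← Finset.sum_erase D.support (a := P) (by simp [lamOff])]
  refine Finset.sum_congr rfl fun R hR => ?_
  unfold lamOff
  rw [if_neg (Finset.ne_of_mem_erase hR).symm]

theorem Bil_lamOff_of_disjoint (v : Pl) {D B : X →₀ ℤ} (h : Disjoint D.support B.support) :
    Bil (lamOff xt w v) D B = hDeltaLoc xt w v D B := by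
  rw [Bil_eq_sum]
  unfold hDeltaLoc
  refine Finset.sum_congr rfl fun P hP => Finset.sum_congr rfl fun R hR => ?_
  unfold lamOff
  rw [if_neg fun hPR : P = R => Finset.disjoint_left.mp h hP (hPR ▸ hR)]

theorem proxLoc_add_of_disjoint (hsymm : ∀ v P R, nrm v (w P R) = nrm v (w R P)) (v : Pl)
    {D B : X →₀ ℤ} (h : Disjoint D.support B.support) :
    proxLoc xt w v (D + B) = proxLoc xt w v D + proxLoc xt w v B + hDeltaLoc xt w v D B := by
  have hs : ∀ P R, lamOff xt w v P R = lamOff xt w v R P := by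
    intro P R
    unfold lamOff
    by_cases hPR : P = R
    · rw [if_pos hPR, if_pos hPR.symm]
    · rw [if_neg hPR, if_neg fun h' => hPR h'.symm]
      unfold lamD lam
      rw [hsymm v P R]
      ring
  rw [proxLoc_eq_Bil, proxLoc_eq_Bil, proxLoc_eq_Bil, Bil_add_left, Bil_add_right, Bil_add_right,
    Bil_symm hs B D, Bil_lamOff_of_disjoint xt w v h]
  ring

end Split

/-! ### the local determinant bound in the shape consumed by B.11 -/

section Final

variable {X : Type*} [DecidableEq X] {ι κ α : Type*} [Finite ι] [Finite κ] [Finite α]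
variable {xt : X → ι → Qbar} {w : X → X → κ → Qbar} {tau : X → κ → Qbar} {δ e : ℕ}
variable {U : Set X} {Zof : (α → Qbar) → X →₀ ℕ} {lcof : (α → Qbar) → X → Qbar}
  {jet : X → ℕ → (α → Qbar) → Qbar} {g : ℕ} {G : Fin g → α → Qbar} {E : X →₀ ℕ}
  {gam Dv : Pl → ℝ}

theorem zInt_add (D B : X →₀ ℕ) : zInt (D + B) = zInt D + zInt B := by
  ext P
  simp [zInt_apply]

theorem disjoint_support_zInt {D B : X →₀ ℕ} (h : Disjoint D.support B.support) :
    Disjoint (zInt D).support (zInt B).support := by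
  rw [support_zInt, support_zInt]
  exact h

/-- **P7, second half (any condition list).**  The logarithmic local bound for the confluent
determinant of the forms `G (a l)` on the condition list `pt`, in the local quantities of
`Ht/GlobalDet`. -/
theorem logAbs_det_le (hg : 0 < g) (hdata : GoodData xt w tau)
    (hsymm : ∀ v P R, nrm v (w P R) = nrm v (w R P))
    (hlin : ∀ (P : X) (j : ℕ) (c : Fin g → Qbar),
      jet P j (∑ a, c a • G a) = ∑ a, c a * jet P j (G a))
    (hJ1 : ∀ a : α → Qbar, a ≠ 0 → ∀ P ∈ U, ∀ j < Zof a P, jet P j a = 0)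
    (hJ2 : ∀ a : α → Qbar, a ≠ 0 → ∀ P ∈ U, jet P (Zof a P) a = lcof a P)
    (hlc0 : ∀ a : α → Qbar, a ≠ 0 → ∀ P ∈ U, lcof a P ≠ 0)
    (hE : ∀ c : Fin g → Qbar, (∑ a, c a • G a) ≠ 0 → E ≤ Zof (∑ a, c a • G a))
    (hEU : ∀ T ∈ E.support, T ∉ U)
    (hZdeg : ∀ a : α → Qbar, a ≠ 0 → ∑ R ∈ (Zof a).support, Zof a R = e * δ)
    (hDv : ∀ v, 1 ≤ Dv v)
    (hdle : ∀ v P R, P ≠ R → - Real.log (Dv v) ≤ lamD xt w v P R)
    (hA : ∀ a : α → Qbar, a ≠ 0 → ∀ v, ∀ P ∈ U,
      starDefect xt w tau e a (Zof a) (lcof a) v P ≤ gam v) (v : Pl)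
    {r : ℕ} (pt : Fin r → X) (hpt : ∀ k, pt k ∈ U) (a : Fin r → Fin g)
    (ha : Function.Injective a)
    (hdet : (Matrix.of fun k l => jet (pt k) (mult pt k) (G (a l))).det ≠ 0) :
    logAbs v (Matrix.of fun k l => jet (pt k) (mult pt k) (G (a l))).det ≤
      (r : ℝ) * Real.log (Cv δ e G gam Dv v) - proxLoc xt w v (zInt (totDiv pt))
        + (e : ℝ) * hgtLoc xt v (zInt (totDiv pt))
        - hDeltaLoc xt w v (zInt (totDiv pt)) (zInt E) + kap2Loc xt tau v (zInt (totDiv pt)) := by
  have hU := upperHypConf hg hdata hlin hJ1 hJ2 hlc0 hE hEU hZdeg hDv hdle hA v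
  obtain ⟨hxt, hw, htau⟩ := hdata
  have hmemU : ∀ P ∈ (totDiv pt).support, P ∈ U := by
    intro P hP
    obtain ⟨k, hk⟩ := (mem_support_totDiv_iff pt P).mp hP
    rw [← hk]
    exact hpt k
  have hwE : ∀ P ∈ (totDiv pt).support, ∀ T ∈ E.support, w P T ≠ 0 := fun P hP T hT =>
    hw P T fun h => hEU T hT (h ▸ hmemU P hP)
  have hsymm_dv : ∀ P R, dv xt w v P R = dv xt w v R P := by
    intro P R
    unfold dv
    rw [hsymm v P R, mul_comm]
  have h := log_abv_det_le (absAt v) (fun P j a => jet P j (G a))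
    (Cv_pos δ e G gam Dv hDv v) (wv_nonneg xt w e E v) (thv_nonneg xt tau v)
    (dv_nonneg xt w v) hsymm_dv hU pt hpt
    (fun P hP => wv_pos hxt E v (hwE P hP)) (fun P _ => thv_pos hxt htau v P)
    (fun P _ R _ hne => dv_pos hxt v (hw P R hne)) a ha hdet
  -- the three sums
  have h1 : ∑ P ∈ (totDiv pt).support, (totDiv pt P : ℝ) * Real.log (wv xt w e E v P) =
      (e : ℝ) * hgtLoc xt v (zInt (totDiv pt))
        - hDeltaLoc xt w v (zInt (totDiv pt)) (zInt E) := by
    unfold hgtLoc hDeltaLoc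
    rw [support_zInt, support_zInt, Finset.mul_sum, ← Finset.sum_sub_distrib]
    refine Finset.sum_congr rfl fun P hP => ?_
    rw [log_wv hxt E v (hwE P hP)]
    simp only [zInt_apply, Int.cast_natCast]
    rw [mul_sub, Finset.mul_sum]
    congr 1
    · ring
    · exact Finset.sum_congr rfl fun T _ => by ring
  have h2 : ∑ P ∈ (totDiv pt).support,
      (((totDiv pt P).choose 2 : ℕ) : ℝ) * Real.log (thv xt tau v P) =
      kap2Loc xt tau v (zInt (totDiv pt)) := by
    unfold kap2Loc
    rw [support_zInt]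
    refine Finset.sum_congr rfl fun P _ => ?_
    rw [log_thv hxt htau, Nat.cast_choose_two]
    simp only [zInt_apply, Int.cast_natCast]
  have h3 : (1 / 2 : ℝ) * ∑ P ∈ (totDiv pt).support, ∑ R ∈ (totDiv pt).support.erase P,
      ((totDiv pt P : ℝ) * (totDiv pt R : ℝ)) * Real.log (dv xt w v P R) =
      - proxLoc xt w v (zInt (totDiv pt)) := by
    unfold proxLoc
    rw [support_zInt, ← mul_neg, ← Finset.sum_neg_distrib]
    congr 1
    refine Finset.sum_congr rfl fun P _ => ?_
    rw [← Finset.sum_neg_distrib]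
    refine Finset.sum_congr rfl fun R hR => ?_
    rw [log_dv hxt v (hw P R (Finset.ne_of_mem_erase hR).symm)]
    simp only [zInt_apply, Int.cast_natCast]
    ring
  rw [h1, h2, h3] at h
  unfold logAbs
  linarith

variable (xt w tau δ e G E gam Dv) in
/-- the constant (a function of the place) attached to the auxiliary divisor `Bp` -/
def Kv (r : ℕ) (Bp : X →₀ ℕ) (v : Pl) : ℝ :=
  (r : ℝ) * Real.log (Cv δ e G gam Dv v) + (e : ℝ) * hgtLoc xt v (zInt Bp)
    - hDeltaLoc xt w v (zInt Bp) (zInt E) + kap2Loc xt tau v (zInt Bp)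
    - proxLoc xt w v (zInt Bp)

theorem az_Kv (hdata : GoodData xt w tau) (hDv : ∀ v, 1 ≤ Dv v) (hgam : AZ gam)
    (hDvaz : AZ fun v => Real.log (Dv v)) (r : ℕ) {Bp : X →₀ ℕ}
    (hBE : Disjoint Bp.support E.support) :
    AZ (Kv xt w tau δ e G E gam Dv r Bp) := by
  obtain ⟨hxt, hw, htau⟩ := hdata
  have a0 := (az_log_Cv δ e G gam Dv hDv hgam hDvaz).const_mul (r : ℝ)
  have a1 := (az_hgtLoc xt hxt (zInt Bp)).const_mul (e : ℝ)
  have a2 := az_hDeltaLoc xt w hxt hw (disjoint_support_zInt hBE)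
  have a3 := az_kap2Loc xt tau hxt htau (zInt Bp)
  have a4 := az_proxLoc xt w hxt hw (zInt Bp)
  exact (((a0.add a1).sub a2).add a3).sub a4

/-- **P7, second half (the shape of `hloc` in `Ht.prox_le_of_local_det`).**  The condition list
`pt` has divisor `D + Bp` with `D`, `Bp` disjoint (`Bp` = the auxiliary points of B.9/B.11'). -/
theorem logAbs_det_le_of_add (hg : 0 < g) (hdata : GoodData xt w tau)
    (hsymm : ∀ v P R, nrm v (w P R) = nrm v (w R P))
    (hlin : ∀ (P : X) (j : ℕ) (c : Fin g → Qbar),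
      jet P j (∑ a, c a • G a) = ∑ a, c a * jet P j (G a))
    (hJ1 : ∀ a : α → Qbar, a ≠ 0 → ∀ P ∈ U, ∀ j < Zof a P, jet P j a = 0)
    (hJ2 : ∀ a : α → Qbar, a ≠ 0 → ∀ P ∈ U, jet P (Zof a P) a = lcof a P)
    (hlc0 : ∀ a : α → Qbar, a ≠ 0 → ∀ P ∈ U, lcof a P ≠ 0)
    (hE : ∀ c : Fin g → Qbar, (∑ a, c a • G a) ≠ 0 → E ≤ Zof (∑ a, c a • G a))
    (hEU : ∀ T ∈ E.support, T ∉ U)
    (hZdeg : ∀ a : α → Qbar, a ≠ 0 → ∑ R ∈ (Zof a).support, Zof a R = e * δ)
    (hDv : ∀ v, 1 ≤ Dv v)
    (hdle : ∀ v P R, P ≠ R → - Real.log (Dv v) ≤ lamD xt w v P R)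
    (hA : ∀ a : α → Qbar, a ≠ 0 → ∀ v, ∀ P ∈ U,
      starDefect xt w tau e a (Zof a) (lcof a) v P ≤ gam v) (v : Pl)
    {D Bp : X →₀ ℕ} (hDB : Disjoint D.support Bp.support)
    {r : ℕ} (pt : Fin r → X) (htot : totDiv pt = D + Bp) (hpt : ∀ k, pt k ∈ U)
    (a : Fin r → Fin g) (ha : Function.Injective a)
    (hdet : (Matrix.of fun k l => jet (pt k) (mult pt k) (G (a l))).det ≠ 0) :
    logAbs v (Matrix.of fun k l => jet (pt k) (mult pt k) (G (a l))).det ≤
      Kv xt w tau δ e G E gam Dv r Bp v - proxLoc xt w v (zInt D)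
        + (e : ℝ) * hgtLoc xt v (zInt D) - hDeltaLoc xt w v (zInt D) (zInt E)
        - hDeltaLoc xt w v (zInt D) (zInt Bp) + kap2Loc xt tau v (zInt D) := by
  have h := logAbs_det_le hg hdata hsymm hlin hJ1 hJ2 hlc0 hE hEU hZdeg hDv hdle hA v pt hpt a ha
    hdet
  have hd := disjoint_support_zInt hDB
  rw [htot, zInt_add, proxLoc_add_of_disjoint xt w hsymm v hd, hgtLoc_add_of_disjoint xt v hd,
    hDeltaLoc_add_left, kap2Loc_add_of_disjoint xt tau v hd] at h
  unfold Kv
  linarith

/-- **B.11 from `(A*)`** (composition with `Ht.prox_le_of_local_det`): a finite nonempty family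
`s : S` of auxiliary divisors `Bp s` and condition lists `pt s` for `D + Bp s`, nonzero
determinants whose total logarithms add up to zero (product formula).  The conclusion is
hypothesis `h11` of `Ht.Qf_bGlob_ge`, literally. -/
theorem prox_le_of_star {S : Type*} [Fintype S] [Nonempty S] (hg : 0 < g)
    (hdata : GoodData xt w tau) (hsymm : ∀ v P R, nrm v (w P R) = nrm v (w R P))
    (hlin : ∀ (P : X) (j : ℕ) (c : Fin g → Qbar),
      jet P j (∑ a, c a • G a) = ∑ a, c a * jet P j (G a))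
    (hJ1 : ∀ a : α → Qbar, a ≠ 0 → ∀ P ∈ U, ∀ j < Zof a P, jet P j a = 0)
    (hJ2 : ∀ a : α → Qbar, a ≠ 0 → ∀ P ∈ U, jet P (Zof a P) a = lcof a P)
    (hlc0 : ∀ a : α → Qbar, a ≠ 0 → ∀ P ∈ U, lcof a P ≠ 0)
    (hE : ∀ c : Fin g → Qbar, (∑ a, c a • G a) ≠ 0 → E ≤ Zof (∑ a, c a • G a))
    (hEU : ∀ T ∈ E.support, T ∉ U)
    (hZdeg : ∀ a : α → Qbar, a ≠ 0 → ∑ R ∈ (Zof a).support, Zof a R = e * δ)
    (hDv : ∀ v, 1 ≤ Dv v) (hgam : AZ gam) (hDvaz : AZ fun v => Real.log (Dv v))
    (hdle : ∀ v P R, P ≠ R → - Real.log (Dv v) ≤ lamD xt w v P R)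
    (hA : ∀ a : α → Qbar, a ≠ 0 → ∀ v, ∀ P ∈ U,
      starDefect xt w tau e a (Zof a) (lcof a) v P ≤ gam v)
    (D : X →₀ ℕ) (Bp : S → X →₀ ℕ) (hDE : Disjoint D.support E.support)
    (hDB : ∀ s, Disjoint D.support (Bp s).support)
    (hBE : ∀ s, Disjoint (Bp s).support E.support)
    (r : ℕ) (pt : S → Fin r → X) (htot : ∀ s, totDiv (pt s) = D + Bp s)
    (hpt : ∀ s k, pt s k ∈ U) (a : S → Fin r → Fin g) (ha : ∀ s, Function.Injective (a s))
    (hdet : ∀ s, (Matrix.of fun k l => jet (pt s k) (mult (pt s) k) (G (a s l))).det ≠ 0)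
    (hPi : ∑ s, totalLog
      ((Matrix.of fun k l => jet (pt s k) (mult (pt s) k) (G (a s l))).det) = 0) :
    prox xt w (zInt D) ≤ ((e : ℝ) * hgt xt (zInt D) - hDelta xt w (zInt D) (zInt E))
      - (1 / (Fintype.card S : ℝ)) * hDelta xt w (zInt D) (∑ s, zInt (Bp s))
      + kap2 xt tau (zInt D)
      + (1 / (Fintype.card S : ℝ)) * ∑ s, tot (Kv xt w tau δ e G E gam Dv r (Bp s)) :=
  prox_le_of_local_det xt w tau hdata (zInt D) (zInt E) (fun s => zInt (Bp s))
    (disjoint_support_zInt hDE) (fun s => disjoint_support_zInt (hDB s))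
    (fun s => (Matrix.of fun k l => jet (pt s k) (mult (pt s) k) (G (a s l))).det) hdet hPi
    (fun s => Kv xt w tau δ e G E gam Dv r (Bp s))
    (fun s => az_Kv hdata hDv hgam hDvaz r (hBE s)) e
    (fun s v => logAbs_det_le_of_add hg hdata hsymm hlin hJ1 hJ2 hlc0 hE hEU hZdeg hDv hdle hA v
      (hDB s) (pt s) (htot s) (hpt s) (a s) (ha s) (hdet s))

end Final

end Fermat.Agent.S17.Pos.DetLocal
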