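/-
PROJECT H (S17), slice P7 (helper4): the LOCAL determinant bound B.10, concrete half for `X₀(N)`.

* Section `StdDv` (frame of `Ht/Wedge`): the trivial bound `d_v ≤ 2` resp. `≤ 1` in the form
  consumed by `Pos/DetLocal`.
* Section `X0` (frame of `Model/Global` and of `Pos/DetGlobalX0`): the hypotheses of
  `Pos/DetLocal.logAbs_det_le_of_add` for `X₀(N)`, with `jet := Model/JetLift.jet`; the result
  `hloc_X0` is literally the hypothesis `hloc` of `Pos/DetGlobalMain.prox_le` (with `e = 1` and the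
  constant `KlocX0`, which does not depend on the divisor `D`).  The only remaining input is the
  hand-over hypothesis `(A*)` (upper half, all nonzero `ℚ̄`-forms).
-/
import Fermat.Agent.S17.Model.Global
import Fermat.Agent.S17.Model.JetLift
import Fermat.Agent.S17.Ht.Wedge
import Fermat.Agent.S17.Pos.DetLocal
import Fermat.Agent.S17.Pos.DetGlobalHt
import Fermat.Agent.S17.Pos.DetGlobalX0

set_option autoImplicit false
set_option linter.unusedSectionVars false
set_option linter.style.haveILetI false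

noncomputable section

namespace Fermat.Agent.S17.Pos.DetLocalX0

/-! ### the trivial bound for the chordal distance -/

section StdDv

open Fermat.Agent.S17.Ht

variable {X : Type*} {ι : Type*} [Finite ι] (xt : X → ι → Qbar)

/-- the trivial upper bound for the local chordal distance -/
def DvStd (v : Pl) : ℝ := if v = none then 2 else 1

theorem one_le_DvStd (v : Pl) : 1 ≤ DvStd v := by
  unfold DvStd
  split_ifs <;> norm_num

theorem az_log_DvStd : AZ (fun v => Real.log (DvStd v)) :=
  az_of_finite Set.finite_empty fun p _ => by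
    show Real.log (DvStd (some p)) = 0
    unfold DvStd
    rw [if_neg (by simp), Real.log_one]

theorem neg_log_DvStd_le_lamD (hxt : ∀ P, xt P ≠ 0) (v : Pl) {P R : X}
    (hw : wAt xt P R ≠ 0) : - Real.log (DvStd v) ≤ lamD xt (wAt xt) v P R := by
  unfold lamD lam
  have hP := nrm_pos (v := v) (hxt P)
  have hR := nrm_pos (v := v) (hxt R)
  have hW := nrm_pos (v := v) hw
  have hle : nrm v (wAt xt P R) ≤ DvStd v * (nrm v (xt P) * nrm v (xt R)) := by
    rcases v with _ | p
    · have := nrm_wAt_le_none xt P R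
      unfold DvStd
      rw [if_pos rfl]
      exact this
    · have := nrm_wAt_le_some xt p P R
      unfold DvStd
      rw [if_neg (by simp), one_mul]
      exact this
  have h1 := Real.log_le_log hW hle
  have hD : 0 < DvStd v := lt_of_lt_of_le one_pos (one_le_DvStd v)
  rw [Real.log_mul hD.ne' (mul_pos hP hR).ne', Real.log_mul hP.ne' hR.ne'] at h1
  linarith

end StdDv

/-! ### the frame of `X₀(N)` -/

section X0

open AlgebraicCurve AlgebraicCurve.SemilinearAut ModularCurve
open Fermat.Agent.S18.NonSpecial Fermat.Agent.S17.Model.Lift Fermat.Agent.S17.Model.Embed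
open Fermat.Agent.S17.Model.Jet Fermat.Agent.S17.B.Frame Fermat.Agent.S17.Model.EmbedRR
open Fermat.Agent.S17.Ht Fermat.Agent.S17.Model.Global Fermat.Agent.S17.Pos.DetGlobal
open Fermat.Agent.S17.Pos.DetGlobalHt Fermat.Agent.S17.Pos.DetGlobalX0
open Fermat.Agent.S17.Pos.DetLocal Fermat.Agent.S17.Abs.ConfluentDet
open scoped Classical

local notation "Kb" => AlgebraicClosure ℚ

variable {N : ℕ} [NeZero N] {δ : ℕ} (Φ : RatFrame N δ) (ix : X N → Fin (Φ.n + 1))
  (sp : X N → modularFunctionFieldBar N) {g : ℕ} (G : Fin g → modularFunctionFieldBar N)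

/-- the chord vector of `Model/Global` is the canonical one of `Ht/Wedge` -/
theorem w_eq_wAt : w Φ ix = wAt (xt Φ ix) := rfl

/-- the `j`-th Hasse coefficient at `(P, sp P)`, chart `ix P`, of the linear form `a` -/
def jetG (P : X N) (j : ℕ) (a : Fin (Φ.n + 1) → Qbar) : Qbar :=
  Fermat.Agent.S17.Model.JetLift.jet (hxN N) P Φ.f (ix P) (sp P) j a

/-- the coefficient vector over the frame of the function `G a` (zero if `G a ∉ L(δ∞)`) -/
def coeffG (a : Fin g) : Fin (Φ.n + 1) → Qbar :=
  if h : G a ∈ riemannRochSpace (dOO N δ) then (Φ.model.span (G a) h).choose else 0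

theorem formOf_coeffG {a : Fin g} (h : G a ∈ riemannRochSpace (dOO N δ)) :
    formOf Φ.f (coeffG Φ G a) = G a := by
  unfold coeffG
  rw [dif_pos h]
  exact (Φ.model.span (G a) h).choose_spec.symm

/-- `L(δ∞ - E) ⊆ L(δ∞)` for `E ≥ 0` -/
theorem mem_rr_of_mem_sub {E : Divisor Kb (modularFunctionFieldBar N)} (hE : 0 ≤ E)
    {u : modularFunctionFieldBar N} (hu : u ∈ riemannRochSpace (dOO N δ - E)) :
    u ∈ riemannRochSpace (dOO N δ) :=
  riemannRochSpace_mono (sub_le_self _ hE) hu

theorem formOf_sum_smul {K : Type*} {F : Type*} [Field K] [Field F] [Algebra K F] {n : ℕ}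
    (f : Fin (n + 1) → F) {g : ℕ} (c : Fin g → K) (A : Fin g → Fin (n + 1) → K) :
    formOf f (∑ a, c a • A a) = ∑ a, c a • formOf f (A a) := by
  induction' (Finset.univ : Finset (Fin g)) using Finset.induction_on with a t ha ih
  · simp [formOf_eq_sum_smul]
  · rw [Finset.sum_insert ha, Finset.sum_insert ha, formOf_add, formOf_smul, ih]

variable {Φ ix sp G}

/-- the combination `∑ c_a G_a` as a linear form over the frame -/
theorem formOf_sum_coeffG {E : Divisor Kb (modularFunctionFieldBar N)} (hE : 0 ≤ E)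
    (hGmem : ∀ a, G a ∈ riemannRochSpace (dOO N δ - E)) (c : Fin g → Qbar) :
    formOf Φ.f (∑ a, c a • coeffG Φ G a) = ∑ a, c a • G a := by
  rw [formOf_sum_smul]
  refine Finset.sum_congr rfl fun a _ => ?_
  rw [formOf_coeffG Φ G (mem_rr_of_mem_sub hE (hGmem a))]

/-- the conditions of `Pos/DetGlobalX0` are the jets of the coefficient vectors -/
theorem evX_eq_jetG (hch : IsEquivChoice Φ ix sp)
    {E : Divisor Kb (modularFunctionFieldBar N)} (hE : 0 ≤ E)
    (hGmem : ∀ a, G a ∈ riemannRochSpace (dOO N δ - E)) (P : X N) (j : ℕ) (a : Fin g) :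
    evX Φ ix sp G P j a = jetG Φ ix sp P j (coeffG Φ G a) := by
  unfold evX jetG
  rw [Fermat.Agent.S17.Model.JetLift.jet_eq_hasse (hxN N) P Φ.model.ne_zero (hch.adm P)
    (hch.ord_sp P), formOf_coeffG Φ G (mem_rr_of_mem_sub hE (hGmem a))]

/-- a nonzero member `F_a` of `L(δ∞ - E)` has `Z(a) ≥ E` -/
theorem le_Zdiv_of_mem {E : Divisor Kb (modularFunctionFieldBar N)}
    {a : Fin (Φ.n + 1) → Qbar} (ha : a ≠ 0)
    (hmem : formOf Φ.f a ∈ riemannRochSpace (dOO N δ - E)) (P : X N) :
    E P ≤ (Zdiv Φ a P : ℤ) := by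
  rw [Zdiv_apply_eq_ord Φ ha]
  have h := ((mem_riemannRochSpace_iff.mp hmem) P).resolve_left (formOf_ne_zero Φ ha)
  rw [Finsupp.sub_apply] at h
  linarith

/-! #### divisors with natural multiplicities -/

/-- the natural multiplicities of an effective divisor -/
def natDiv (E : Divisor Kb (modularFunctionFieldBar N)) : X N →₀ ℕ := E.mapRange Int.toNat rfl

theorem natDiv_apply (E : Divisor Kb (modularFunctionFieldBar N)) (P : X N) :
    natDiv E P = (E P).toNat := rfl

theorem zInt_natDiv {E : Divisor Kb (modularFunctionFieldBar N)} (hE : 0 ≤ E) :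
    zInt (natDiv E) = E := by
  ext P
  rw [zInt_apply, natDiv_apply]
  have h0 : 0 ≤ E P := by
    have := Finsupp.le_def.mp hE P
    simpa using this
  exact Int.toNat_of_nonneg h0

theorem support_natDiv_subset (E : Divisor Kb (modularFunctionFieldBar N)) :
    (natDiv E).support ⊆ E.support := by
  intro P hP
  rw [Finsupp.mem_support_iff, natDiv_apply] at hP
  rw [Finsupp.mem_support_iff]
  intro h0
  rw [h0] at hP
  exact hP rfl

/-- the divisor of the points of `B`, natural multiplicities -/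
def BpOf (B : Finset (X N)) : X N →₀ ℕ := ∑ T ∈ B, Finsupp.single T 1

theorem BpOf_apply (B : Finset (X N)) (T : X N) : BpOf B T = if T ∈ B then 1 else 0 := by
  unfold BpOf
  rw [Finsupp.finsetSum_apply]
  simp only [Finsupp.single_apply]
  rw [Finset.sum_ite_eq' B T]

theorem support_BpOf (B : Finset (X N)) : (BpOf B).support = B := by
  ext T
  rw [Finsupp.mem_support_iff, BpOf_apply]
  by_cases h : T ∈ B <;> simp [h]

theorem zInt_BpOf (B : Finset (X N)) : zInt (BpOf B) = ptsDiv B := by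
  letI := actX N
  ext T
  rw [zInt_apply, BpOf_apply, ptsDiv_apply]
  by_cases h : T ∈ B <;> simp [h]

theorem condDiv_eq_add (D : X N →₀ ℕ) (B : Finset (X N)) : condDiv D B = D + BpOf B := rfl

/-! #### the local determinant bound -/

variable (Φ ix sp G) in
/-- **the constant of B.10/B.11' at the place `v`**, attached to the auxiliary point set `B`
(it does not depend on the divisor `D`); `0` if `B` meets `supp E` -/
def KlocX0 (E : Divisor Kb (modularFunctionFieldBar N)) (gam : Pl → ℝ) (B : Finset (X N))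
    (v : Pl) : ℝ :=
  if ∀ T ∈ B, E T = 0 then
    Kv (xt Φ ix) (w Φ ix) (tau Φ ix sp) δ 1 (coeffG Φ G) (natDiv E) gam DvStd g (BpOf B) v
  else 0

theorem az_KlocX0 (hch : IsEquivChoice Φ ix sp) (E : Divisor Kb (modularFunctionFieldBar N))
    {gam : Pl → ℝ} (hgam : AZ gam) (B : Finset (X N)) : AZ (KlocX0 Φ ix sp G E gam B) := by
  by_cases hB : ∀ T ∈ B, E T = 0
  · have hBE : Disjoint (BpOf B).support (natDiv E).support := by
      rw [support_BpOf, Finset.disjoint_left]
      intro T hT hTE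
      exact (Finsupp.mem_support_iff.mp (support_natDiv_subset E hTE)) (hB T hT)
    have h := az_Kv (δ := δ) (e := 1) (G := coeffG Φ G) (goodData hch) one_le_DvStd hgam
      az_log_DvStd g hBE
    refine h.subset fun p hp => ?_
    have hp' : KlocX0 Φ ix sp G E gam B (some p) ≠ 0 := hp
    unfold KlocX0 at hp'
    rw [if_pos hB] at hp'
    exact hp'
  · have h : KlocX0 Φ ix sp G E gam B = fun _ => (0 : ℝ) := by
      funext v
      unfold KlocX0
      rw [if_neg hB]
    rw [h]
    exact az_zero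

/-- **B.10 for `X₀(N)`** = hypothesis `hloc` of `Pos/DetGlobalMain.prox_le`, literally (with
`e = 1`, `K = KlocX0`), from the upper half of the hand-over hypothesis `(A*)` for all nonzero
`ℚ̄`-forms. -/
theorem hloc_X0 (hch : IsEquivChoice Φ ix sp) (hg : 0 < g)
    {E : Divisor Kb (modularFunctionFieldBar N)} (hE : 0 ≤ E)
    (hGmem : ∀ a, G a ∈ riemannRochSpace (dOO N δ - E)) {gam : Pl → ℝ}
    (hA : ∀ a : Fin (Φ.n + 1) → Qbar, a ≠ 0 → ∀ v P,
      starDefect (xt Φ ix) (w Φ ix) (tau Φ ix sp) 1 a (Zdiv Φ a) (lcG Φ ix sp a) v P ≤ gam v)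
    (D : X N →₀ ℕ) (hDE : Disjoint (zInt D).support E.support)
    (TT : Finset (X N)) (hTTE : ∀ v ∈ TT, E v = 0) (n : ℕ) :
    ∀ B ∈ XX (evX Φ ix sp G) D TT n, ∀ v,
      logAbs v (Delta (evX Φ ix sp G) D B) ≤
        KlocX0 Φ ix sp G E gam B v - proxLoc (xt Φ ix) (w Φ ix) v (zInt D)
          + ((1 : ℕ) : ℝ) * hgtLoc (xt Φ ix) v (zInt D)
          - hDeltaLoc (xt Φ ix) (w Φ ix) v (zInt D) E
          - hDeltaLoc (xt Φ ix) (w Φ ix) v (zInt D) (ptsDiv B)
          + kap2Loc (xt Φ ix) (tau Φ ix sp) v (zInt D) := by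
  intro B hB v
  obtain ⟨⟨hBTT, hDB⟩, -, hΔ⟩ := (mem_XX (evX Φ ix sp G)).mp hB
  have hBE : ∀ T ∈ B, E T = 0 := fun T hT => hTTE T (hBTT hT)
  have hg' := card_of_Delta_ne_zero (evX Φ ix sp G) hΔ
  obtain ⟨pt, hpt, hsign⟩ := exists_list_Delta (evX Φ ix sp G) hg'
  -- the determinant of `Pos/DetLocal`
  have hmat : cdet (evX Φ ix sp G) pt =
      (Matrix.of fun k l => jetG Φ ix sp (pt k) (mult pt k) (coeffG Φ G (id l))).det := by
    unfold cdet
    congr 1
    ext k l
    simp only [Matrix.of_apply, id]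
    exact evX_eq_jetG hch hE hGmem _ _ _
  have hlog : logAbs v (Delta (evX Φ ix sp G) D B) = logAbs v (cdet (evX Φ ix sp G) pt) := by
    rcases hsign with h | h <;> rw [h]
    unfold logAbs
    rw [map_neg_eq_map]
  have hdet : cdet (evX Φ ix sp G) pt ≠ 0 := by
    rcases hsign with h | h <;> rw [h] at hΔ
    · exact hΔ
    · exact neg_ne_zero.mp hΔ
  rw [hlog, hmat]
  rw [hmat] at hdet
  -- the hypotheses of `Pos/DetLocal`
  have hdata := goodData hch
  have hU : ∀ k, pt k ∈ {P : X N | E P = 0} := by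
    intro k
    have hk := mem_support_totDiv pt k
    rw [hpt, condDiv_eq_add, Finsupp.mem_support_iff, Finsupp.add_apply, BpOf_apply] at hk
    show E (pt k) = 0
    by_cases hkB : pt k ∈ B
    · exact hBE _ hkB
    · rw [if_neg hkB, add_zero] at hk
      by_contra hEk
      have h1 : pt k ∈ (zInt D).support := by
        rw [Finsupp.mem_support_iff, zInt_apply]
        exact_mod_cast hk
      exact Finset.disjoint_left.mp hDE h1 (Finsupp.mem_support_iff.mpr hEk)
  have hDB' : Disjoint D.support (BpOf B).support := by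
    rw [support_BpOf]
    exact hDB
  have key := logAbs_det_le_of_add (xt := xt Φ ix) (w := w Φ ix) (tau := tau Φ ix sp) (δ := δ)
    (e := 1) (U := {P : X N | E P = 0}) (Zof := Zdiv Φ) (lcof := lcG Φ ix sp)
    (jet := jetG Φ ix sp) (G := coeffG Φ G) (E := natDiv E) (gam := gam) (Dv := DvStd) hg hdata
    (fun v P R => nrm_w_symm v P R)
    (fun P j c => (Fermat.Agent.S17.Model.JetLift.sum_mul_jet (hxN N) P Φ.f Finset.univ (ix P)
      (sp P) j c (coeffG Φ G)).symm)
    (fun a ha P _ j hj => Fermat.Agent.S17.Model.JetLift.jet_eq_zero_of_lt (hxN N) P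
      Φ.model.ne_zero (hch.adm P) (hch.ord_sp P) (formOf_ne_zero Φ ha) (by
        rw [← Zdiv_apply_cast Φ ha P]
        exact_mod_cast hj))
    (fun a ha P _ => Fermat.Agent.S17.Model.JetLift.jet_eq_lcAt (hxN N) P
      Φ.model.ne_zero (hch.adm P) (hch.ord_sp P) (formOf_ne_zero Φ ha)
      (Zdiv_apply_cast Φ ha P).symm)
    (fun a ha P _ => lcG_ne_zero hch ha P)
    (fun c hc => by
      intro P
      have hmem : formOf Φ.f (∑ a, c a • coeffG Φ G a) ∈ riemannRochSpace (dOO N δ - E) := by
        rw [formOf_sum_coeffG hE hGmem]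
        exact sum_mem fun a _ => Submodule.smul_mem _ _ (hGmem a)
      have h1 := le_Zdiv_of_mem hc hmem P
      rw [natDiv_apply]
      omega)
    (fun T hT hTU => (Finsupp.mem_support_iff.mp (support_natDiv_subset E hT)) hTU)
    (fun a ha => sum_Zdiv Φ ha) one_le_DvStd
    (fun v P R hPR => neg_log_DvStd_le_lamD (xt Φ ix) hdata.1 v (hdata.2.1 P R hPR))
    (fun a ha v P _ => hA a ha v P) v hDB' pt (hpt.trans (condDiv_eq_add D B)) hU id
    Function.injective_id hdet
  rw [zInt_natDiv hE, zInt_BpOf] at key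
  unfold KlocX0
  rw [if_pos hBE]
  exact key

/-! #### the constant `C₅` is uniform in `D` -/

/-- an average over a subfamily is bounded by the sum of the absolute values -/
theorem avg_le_sum_abs {β : Type*} {S T : Finset β} (hST : S ⊆ T) (f : β → ℝ) :
    (1 / (S.card : ℝ)) * ∑ B ∈ S, f B ≤ ∑ B ∈ T, |f B| := by
  have h1 : ∑ B ∈ S, f B ≤ ∑ B ∈ S, |f B| := Finset.sum_le_sum fun B _ => le_abs_self _
  have h2 : ∑ B ∈ S, |f B| ≤ ∑ B ∈ T, |f B| :=
    Finset.sum_le_sum_of_subset_of_nonneg hST fun B _ _ => abs_nonneg _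
  have h3 : 0 ≤ ∑ B ∈ S, |f B| := Finset.sum_nonneg fun B _ => abs_nonneg _
  rcases Nat.eq_zero_or_pos S.card with h0 | hpos
  · rw [h0, Nat.cast_zero, div_zero, zero_mul]
    exact le_trans h3 h2
  · have hc : (1 : ℝ) ≤ (S.card : ℝ) := by exact_mod_cast hpos
    have h4 : 1 / (S.card : ℝ) ≤ 1 := by
      rw [div_le_one (by linarith)]
      exact hc
    have h5 : 0 ≤ 1 / (S.card : ℝ) := by positivity
    calc (1 / (S.card : ℝ)) * ∑ B ∈ S, f B ≤ (1 / (S.card : ℝ)) * ∑ B ∈ S, |f B| :=
          mul_le_mul_of_nonneg_left h1 h5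
      _ ≤ 1 * ∑ B ∈ S, |f B| := mul_le_mul_of_nonneg_right h4 h3
      _ = ∑ B ∈ S, |f B| := one_mul _
      _ ≤ ∑ B ∈ T, |f B| := h2

/-- **the constant `C₅` of B.11'** (last term of `Pos/DetGlobalMain.prox_le`) is bounded
independently of `D` -/
theorem C5_le (E : Divisor Kb (modularFunctionFieldBar N)) (gam : Pl → ℝ) (D : X N →₀ ℕ)
    (TT : Finset (X N)) (n : ℕ) :
    (1 / ((XX (evX Φ ix sp G) D TT n).card : ℝ)) *
        ∑ B ∈ XX (evX Φ ix sp G) D TT n, tot (KlocX0 Φ ix sp G E gam B) ≤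
      ∑ B ∈ TT.powerset, |tot (KlocX0 Φ ix sp G E gam B)| := by
  refine avg_le_sum_abs (fun B hB => ?_) _
  rw [Finset.mem_powerset]
  exact ((mem_XX (evX Φ ix sp G)).mp hB).1.1

end X0

end Fermat.Agent.S17.Pos.DetLocalX0
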